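import Mathlib.LinearAlgebra.FreeModule.IdealQuotient
import Mathlib.LinearAlgebra.FreeModule.Norm
import Mathlib.RingTheory.OrderOfVanishing.Basic
import Mathlib.RingTheory.Length
import Mathlib.RingTheory.DiscreteValuationRing.Basic

/-!
# Curves: length of `S ⧸ (f)` is the order of the norm of `f`
-/

set_option autoImplicit false

noncomputable section

namespace FLTA.Curves

variable {R S : Type*} [CommRing R] [CommRing S] [Algebra R S]

theorem ringOrd_prod [IsDomain R] {ι : Type*} (s : Finset ι) (a : ι → R)
    (ha : ∀ i ∈ s, a i ≠ 0) : Ring.ord R (∏ i ∈ s, a i) = ∑ i ∈ s, Ring.ord R (a i) := by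
  classical
  induction s using Finset.induction_on with
  | empty => simp [Ring.ord_one]
  | insert i s his ih =>
    rw [Finset.prod_insert his, Finset.sum_insert his,
      Ring.ord_mul R (mem_nonZeroDivisors_iff_ne_zero.mpr
        (Finset.prod_ne_zero_iff.mpr fun j hj => ha j (Finset.mem_insert_of_mem hj))),
      ih fun j hj => ha j (Finset.mem_insert_of_mem hj)]

theorem length_quotient_span_singleton [IsDomain R] [IsPrincipalIdealRing R] [IsDomain S]
    [Module.Free R S] [Module.Finite R S] {f : S} (hf : f ≠ 0) :
    Module.length R (S ⧸ Ideal.span {f}) = Ring.ord R (Algebra.norm R f) := by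
  classical
  let b := Module.Free.chooseBasis R S
  have hI : Ideal.span {f} ≠ ⊥ := Ideal.span_singleton_eq_bot.not.2 hf
  rw [(Ideal.quotientEquivPiSpan _ b hI).length_eq, Module.length_pi_of_fintype,
    Ring.ord_eq_of_associated (associated_norm_prod_smith b hf),
    ringOrd_prod _ _ fun i _ => Ideal.smithCoeffs_ne_zero b _ hI i]
  rfl

end FLTA.Curves

end
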