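import Fermat.Prelude.Def_AlgebraicCurve_IsCurveOver
import Fermat.Prelude.Def_AlgebraicCurve_Repartitions
import Mathlib.RingTheory.Valuation.Discrete.IsDiscreteValuationRing

/-!
# Curves: basic API for places

`ord` of a place, places attached to height one primes of a Dedekind model `R` of `F`
(`Place.ofHeightOneSpectrum`), centres, residue fields.
-/

set_option autoImplicit false

noncomputable section

open IsDedekindDomain WithZero AlgebraicCurve

namespace FLTA.Curves

variable {K F : Type*} [Field K] [Field F] [Algebra K F]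

section Ord

variable (v : Place K F)

theorem mem_iff_adicValuation_le_one (f : F) :
    f ∈ v.toValuationSubring ↔ v.adicValuation f ≤ 1 := by
  refine ⟨v.adicValuation_le_one_of_mem, fun h => ?_⟩
  obtain ⟨a, ha⟩ :=
    IsDiscreteValuationRing.exists_lift_of_le_one (A := v.toValuationSubring) (K := F) h
  exact ha ▸ a.2

theorem mem_iff_ord_nonneg {f : F} (hf : f ≠ 0) :
    f ∈ v.toValuationSubring ↔ 0 ≤ v.ord f := by
  rcases (mem_iff_adicValuation_le_one v f) with ⟨h1, h2⟩
  constructor
  · intro h
    exact (v.adicValuation_le_one_iff.mp (h1 h)).resolve_left hf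
  · intro h
    exact h2 (v.adicValuation_le_one_iff.mpr (Or.inr h))

theorem ord_nonneg_of_mem {f : F} (hf : f ∈ v.toValuationSubring) : 0 ≤ v.ord f := by
  rcases eq_or_ne f 0 with rfl | h
  · simp
  · exact (mem_iff_ord_nonneg v h).mp hf

theorem not_mem_iff_ord_neg (f : F) : f ∉ v.toValuationSubring ↔ v.ord f < 0 := by
  rw [mem_iff_adicValuation_le_one, v.not_adicValuation_le_one_iff]

theorem exists_ord_eq_one : ∃ π : F, π ≠ 0 ∧ v.ord π = 1 := by
  obtain ⟨π, hπ⟩ := IsDiscreteValuationRing.exists_irreducible v.toValuationSubring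
  exact ⟨π, by simpa [ne_eq, ZeroMemClass.coe_eq_zero] using hπ.ne_zero,
    v.ord_coe_irreducible hπ⟩

theorem exists_ord_eq (n : ℤ) : ∃ f : F, f ≠ 0 ∧ v.ord f = n := by
  obtain ⟨π, h0, h1⟩ := exists_ord_eq_one v
  exact ⟨π ^ n, zpow_ne_zero _ h0, by rw [v.ord_zpow, h1, mul_one]⟩

theorem min_ord_le_ord_add {f g : F} (hfg : f + g ≠ 0) :
    min (v.ord f) (v.ord g) ≤ v.ord (f + g) := by
  rcases eq_or_ne f 0 with rfl | hf
  · simp
  rcases eq_or_ne g 0 with rfl | hg
  · simp
  have h := v.adicValuation.map_add f g
  rw [v.adicValuation_eq_exp_neg_ord hf, v.adicValuation_eq_exp_neg_ord hg,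
    v.adicValuation_eq_exp_neg_ord hfg] at h
  rcases le_max_iff.mp h with h | h
  · exact (min_le_left _ _).trans (neg_le_neg_iff.mp (exp_le_exp.mp h))
  · exact (min_le_right _ _).trans (neg_le_neg_iff.mp (exp_le_exp.mp h))

theorem ord_neg (f : F) : v.ord (-f) = v.ord f := by
  simp [Place.ord, Valuation.map_neg]

theorem ord_add_eq_of_lt {f g : F} (hf : f ≠ 0) (hg : g ≠ 0) (h : v.ord f < v.ord g) :
    v.ord (f + g) = v.ord f := by
  have h1 : v.adicValuation g < v.adicValuation f := by
    rw [v.adicValuation_eq_exp_neg_ord hf, v.adicValuation_eq_exp_neg_ord hg]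
    exact exp_lt_exp.mpr (neg_lt_neg h)
  have h2 := v.adicValuation.map_add_eq_of_lt_left h1
  simp only [Place.ord, h2]

theorem ord_algebraMap (a : K) : v.ord (algebraMap K F a) = 0 := by
  rcases eq_or_ne a 0 with rfl | ha
  · simp
  · have h1 := ord_nonneg_of_mem v (v.algebraMap_mem' a)
    have h2 := ord_nonneg_of_mem v (v.algebraMap_mem' a⁻¹)
    rw [map_inv₀, v.ord_inv] at h2
    omega

theorem ord_pow (f : F) (n : ℕ) : v.ord (f ^ n) = n * v.ord f := by
  rw [← zpow_natCast, v.ord_zpow]

theorem ord_prod {ι : Type*} (s : Finset ι) (f : ι → F) (hf : ∀ i ∈ s, f i ≠ 0) :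
    v.ord (∏ i ∈ s, f i) = ∑ i ∈ s, v.ord (f i) := by
  classical
  induction s using Finset.induction_on with
  | empty => simp
  | insert a s has ih =>
    rw [Finset.prod_insert has, Finset.sum_insert has,
      v.ord_mul (hf a (Finset.mem_insert_self a s))
        (Finset.prod_ne_zero_iff.mpr fun i hi => hf i (Finset.mem_insert_of_mem hi)),
      ih fun i hi => hf i (Finset.mem_insert_of_mem hi)]

/-- A place is determined by its `ord` function. -/
theorem place_ext_ord {v w : Place K F} (h : ∀ f : F, v.ord f = w.ord f) : v = w := by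
  refine Place.ext (SetLike.ext fun f => ?_)
  rcases eq_or_ne f 0 with rfl | hf
  · simp [zero_mem]
  · rw [mem_iff_ord_nonneg v hf, mem_iff_ord_nonneg w hf, h f]

/-- Inclusion of valuation rings of places is equality. -/
theorem place_eq_of_le {v w : Place K F} (h : v.toValuationSubring ≤ w.toValuationSubring) :
    v = w := by
  refine Place.ext (le_antisymm h fun f hf => ?_)
  by_contra hfv
  apply w.ne_top'
  rw [eq_top_iff]
  intro g _
  rcases eq_or_ne g 0 with rfl | hg
  · exact zero_mem _
  have hf0 : f ≠ 0 := fun h0 => hfv (h0 ▸ zero_mem _)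
  have hk : v.ord f < 0 := (not_mem_iff_ord_neg v f).mp hfv
  set m : ℕ := (v.ord g).natAbs
  have hm : g * (f ^ m)⁻¹ ∈ v.toValuationSubring := by
    rw [mem_iff_ord_nonneg v (mul_ne_zero hg (inv_ne_zero (pow_ne_zero _ hf0))),
      v.ord_mul hg (inv_ne_zero (pow_ne_zero _ hf0)), v.ord_inv, ord_pow]
    nlinarith [Int.natCast_nonneg m, (v.ord g).natAbs_neg, abs_nonneg (v.ord g),
      neg_abs_le (v.ord g), Int.natCast_natAbs (v.ord g)]
  have := mul_mem (h hm) (pow_mem hf m)
  rwa [mul_assoc, inv_mul_cancel₀ (pow_ne_zero _ hf0), mul_one] at this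

/-- A valuation with values in `ℤᵐ⁰`, valuation ring the one of `v` and taking the value
`exp (-1)` is `exp (-ord)`. -/
theorem ord_eq_neg_log_of_valuationSubring_eq (val : Valuation F ℤᵐ⁰)
    (h : val.valuationSubring = v.toValuationSubring) (hs : ∃ π : F, val π = exp (-1 : ℤ))
    (f : F) : v.ord f = -log (val f) := by
  obtain ⟨π, hπ⟩ := IsDiscreteValuationRing.exists_irreducible v.toValuationSubring
  have hmem : ∀ g : F, g ∈ v.toValuationSubring ↔ val g ≤ 1 := fun g => by
    rw [← h, Valuation.mem_valuationSubring_iff]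
  have hunit : ∀ u : v.toValuationSubringˣ, val ((u : v.toValuationSubring) : F) = 1 := fun u => by
    have hu : ((u : v.toValuationSubring) : F) * ((u⁻¹ : v.toValuationSubringˣ) : v.toValuationSubring) = 1 :=
      congrArg Subtype.val u.mul_inv
    have h1 := congrArg val hu
    rw [map_mul, map_one] at h1
    exact eq_one_of_one_le_mul_left ((hmem _).mp (u : v.toValuationSubring).2)
      ((hmem _).mp ((u⁻¹ : v.toValuationSubringˣ) : v.toValuationSubring).2) h1.ge
  have hlog : ∀ g : F, g ≠ 0 → log (val g) = v.ord g * log (val (π : F)) := fun g hg => by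
    obtain ⟨u, hu⟩ := v.exists_unit_mul_zpow hg hπ
    conv_lhs => rw [hu, map_mul, map_zpow₀, hunit, one_mul, log_zpow, smul_eq_mul]
  obtain ⟨ϖ, hϖ⟩ := hs
  have hϖ0 : ϖ ≠ 0 := fun h0 => exp_ne_zero (by rw [← hϖ, h0, map_zero])
  have hk := hlog ϖ hϖ0
  rw [hϖ, log_exp] at hk
  have hkn : 0 ≤ v.ord ϖ := by
    refine ord_nonneg_of_mem v ((hmem ϖ).mpr ?_)
    rw [hϖ, ← exp_zero, exp_le_exp]
    norm_num
  have hj : log (val (π : F)) = -1 := by
    rcases Int.mul_eq_one_iff_eq_one_or_neg_one.mp (show v.ord ϖ * -log (val (π : F)) = 1 by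
      rw [mul_neg, ← hk, neg_neg]) with ⟨_, h2⟩ | ⟨h1, _⟩
    · omega
    · omega
  rcases eq_or_ne f 0 with rfl | hf
  · simp
  · rw [hlog f hf, hj]
    ring

/-- The residue map of a place. -/
abbrev residueMap : v.toValuationSubring →+* v.ResidueField := IsLocalRing.residue _

theorem residueMap_eq_zero_iff (a : v.toValuationSubring) :
    residueMap v a = 0 ↔ (a : F) = 0 ∨ 0 < v.ord (a : F) := by
  rw [residueMap, IsLocalRing.residue_eq_zero_iff, IsLocalRing.mem_maximalIdeal, mem_nonunits_iff,
    ← v.adicValuation_coe_eq_one_iff]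
  rcases eq_or_ne (a : F) 0 with h | h
  · simp [h]
  · rw [v.adicValuation_eq_exp_neg_ord h, ← exp_zero, exp_inj, neg_eq_zero]
    have := ord_nonneg_of_mem v a.2
    simp only [h, false_or]
    omega

end Ord

section Dedekind

variable {R : Type*} [CommRing R] [IsDedekindDomain R] [Algebra R F] [IsFractionRing R F]
  [Algebra K R] [IsScalarTower K R F]

/-- `ord` at the place of a height one prime is the adic valuation. -/
theorem ord_ofHeightOneSpectrum (w : HeightOneSpectrum R) (f : F) :
    (Place.ofHeightOneSpectrum (K := K) (F := F) w).ord f = -log (w.valuation F f) := by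
  exact ord_eq_neg_log_of_valuationSubring_eq _ (w.valuation F) rfl
    (w.valuation_exists_uniformizer F) f

theorem ord_ofHeightOneSpectrum_pos_iff (w : HeightOneSpectrum R) {r : R} (hr : r ≠ 0) :
    0 < (Place.ofHeightOneSpectrum (K := K) (F := F) w).ord (algebraMap R F r) ↔
      r ∈ w.asIdeal := by
  have h0 : w.valuation F (algebraMap R F r) ≠ 0 := by
    rw [Valuation.ne_zero_iff]
    exact (map_ne_zero_iff _ (IsFractionRing.injective R F)).mpr hr
  rw [ord_ofHeightOneSpectrum, neg_pos, log_lt_iff_lt_exp h0, exp_zero,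
    w.valuation_lt_one_iff_mem]

theorem algebraMap_mem_ofHeightOneSpectrum (w : HeightOneSpectrum R) (r : R) :
    algebraMap R F r ∈ (Place.ofHeightOneSpectrum (K := K) (F := F) w).toValuationSubring := by
  rw [Place.ofHeightOneSpectrum_toValuationSubring, Valuation.mem_valuationSubring_iff]
  exact w.valuation_le_one r

theorem ofHeightOneSpectrum_injective :
    Function.Injective
      (fun w : HeightOneSpectrum R => Place.ofHeightOneSpectrum (K := K) (F := F) w) := by
  intro w₁ w₂ h
  apply HeightOneSpectrum.eq_of_valuation_isEquiv_valuation (K := F)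
  rw [Valuation.isEquiv_iff_valuationSubring]
  exact congrArg Place.toValuationSubring h

/-- Every place containing the Dedekind model comes from a unique height one prime. -/
theorem exists_eq_ofHeightOneSpectrum (v : Place K F)
    (h : ∀ r : R, algebraMap R F r ∈ v.toValuationSubring) :
    ∃ w : HeightOneSpectrum R, Place.ofHeightOneSpectrum (K := K) (F := F) w = v := by
  let φ : R →+* v.toValuationSubring := (algebraMap R F).codRestrict v.toValuationSubring.toSubring h
  let P : Ideal R := (IsLocalRing.maximalIdeal v.toValuationSubring).comap φ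
  have hP : P ≠ ⊥ := by
    intro hbot
    apply v.ne_top'
    rw [eq_top_iff]
    intro g _
    obtain ⟨a, b, hb, rfl⟩ := IsFractionRing.div_surjective R g
    have hu : IsUnit (φ b) := by
      by_contra hu
      have : b ∈ P := hu
      rw [hbot, Ideal.mem_bot] at this
      exact nonZeroDivisors.ne_zero hb this
    obtain ⟨c, hc⟩ := isUnit_iff_exists_inv.mp hu
    have hc' : algebraMap R F b * (c : F) = 1 := congrArg Subtype.val hc
    rw [div_eq_mul_inv, inv_eq_of_mul_eq_one_right hc']
    exact mul_mem (h a) c.2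
  refine ⟨⟨P, Ideal.IsPrime.comap φ, hP⟩, place_eq_of_le fun g hg => ?_⟩
  rw [Place.ofHeightOneSpectrum_toValuationSubring, Valuation.mem_valuationSubring_iff] at hg
  obtain ⟨n, d, hnd⟩ := HeightOneSpectrum.exists_primeCompl_mul_eq_of_integer _ g hg
  have hu : IsUnit (φ d) := by
    by_contra hu
    exact d.2 hu
  obtain ⟨c, hc⟩ := isUnit_iff_exists_inv.mp hu
  have hc' : algebraMap R F d * (c : F) = 1 := congrArg Subtype.val hc
  have hg' : g = algebraMap R F n * (c : F) := by
    rw [← hnd, mul_assoc, hc', mul_one]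
  rw [hg']
  exact mul_mem (h n) c.2

/-- Places of `F` integral on `R` are exactly the height one primes of `R`. -/
def heightOneEquivPlaces :
    HeightOneSpectrum R ≃
      {v : Place K F // ∀ r : R, algebraMap R F r ∈ v.toValuationSubring} :=
  Equiv.ofBijective
    (fun w => ⟨Place.ofHeightOneSpectrum w, algebraMap_mem_ofHeightOneSpectrum w⟩)
    ⟨fun _ _ h => ofHeightOneSpectrum_injective (congrArg Subtype.val h),
      fun v => (exists_eq_ofHeightOneSpectrum v.1 v.2).imp fun _ hw => Subtype.ext hw⟩

/-- The map `R → residue field` at the place of `w`. -/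
def toResidueField (w : HeightOneSpectrum R) :
    R →+* (Place.ofHeightOneSpectrum (K := K) (F := F) w).ResidueField :=
  (residueMap _).comp
    ((algebraMap R F).codRestrict
      (Place.ofHeightOneSpectrum (K := K) (F := F) w).toValuationSubring.toSubring
      (algebraMap_mem_ofHeightOneSpectrum w))

theorem toResidueField_surjective (w : HeightOneSpectrum R) :
    Function.Surjective (toResidueField (K := K) (F := F) w) := by
  intro y
  obtain ⟨a, rfl⟩ := IsLocalRing.residue_surjective y
  have ha : w.valuation F (a : F) ≤ 1 := a.2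
  obtain ⟨n, d, hnd⟩ := w.exists_primeCompl_mul_eq_of_integer _ ha
  have hmax : w.asIdeal.IsMaximal := w.isMaximal
  obtain ⟨d', i, hi, hd'⟩ := hmax.exists_inv d.2
  refine ⟨n * d', ?_⟩
  have hker : toResidueField (K := K) (F := F) w i = 0 := by
    rw [toResidueField, RingHom.comp_apply, residueMap_eq_zero_iff]
    rcases eq_or_ne i 0 with rfl | hi0
    · left; exact map_zero (algebraMap R F)
    · right; exact (ord_ofHeightOneSpectrum_pos_iff w hi0).mpr hi
  have h1 : toResidueField (K := K) (F := F) w d' * toResidueField (K := K) (F := F) w d = 1 := by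
    rw [← map_mul]
    have := congrArg (toResidueField (K := K) (F := F) w) hd'
    rwa [map_add, hker, add_zero, map_one] at this
  have h2 : toResidueField (K := K) (F := F) w n =
      residueMap _ a * toResidueField (K := K) (F := F) w d := by
    simp only [toResidueField, RingHom.comp_apply, ← map_mul]
    exact congrArg _ (Subtype.ext hnd.symm)
  rw [map_mul, h2, mul_assoc, mul_comm (toResidueField (K := K) (F := F) w d), h1, mul_one]

theorem ker_toResidueField (w : HeightOneSpectrum R) :
    RingHom.ker (toResidueField (K := K) (F := F) w) = w.asIdeal := by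
  ext r
  rw [RingHom.mem_ker, toResidueField, RingHom.comp_apply, residueMap_eq_zero_iff]
  show algebraMap R F r = 0 ∨ 0 < (Place.ofHeightOneSpectrum (K := K) w).ord (algebraMap R F r) ↔ _
  rcases eq_or_ne r 0 with rfl | hr
  · simp
  · rw [ord_ofHeightOneSpectrum_pos_iff (K := K) w hr,
      map_eq_zero_iff _ (IsFractionRing.injective R F), or_iff_right hr]

/-- The residue field of the place of `w` is `R ⧸ w`. -/
def residueFieldEquiv (w : HeightOneSpectrum R) :
    (R ⧸ w.asIdeal) ≃ₐ[K] (Place.ofHeightOneSpectrum (K := K) (F := F) w).ResidueField :=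
  let f : R →ₐ[K] (Place.ofHeightOneSpectrum (K := K) (F := F) w).ResidueField :=
    { toResidueField w with
      commutes' := fun a => congrArg (residueMap _)
        (Subtype.ext (IsScalarTower.algebraMap_apply K R F a).symm) }
  (Ideal.quotientEquivAlgOfEq K (show w.asIdeal = RingHom.ker f from
      (ker_toResidueField w).symm)).trans
    (Ideal.quotientKerAlgEquivOfSurjective (f := f) (toResidueField_surjective w))

theorem deg_ofHeightOneSpectrum (w : HeightOneSpectrum R) :
    (Place.ofHeightOneSpectrum (K := K) (F := F) w).deg =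
      Module.finrank K (R ⧸ w.asIdeal) := by
  exact (residueFieldEquiv w).toLinearEquiv.finrank_eq.symm

theorem finite_residueField_ofHeightOneSpectrum (w : HeightOneSpectrum R)
    [Module.Finite K (R ⧸ w.asIdeal)] :
    Module.Finite K (Place.ofHeightOneSpectrum (K := K) (F := F) w).ResidueField := by
  exact Module.Finite.equiv (residueFieldEquiv w).toLinearEquiv

end Dedekind

end FLTA.Curves

end
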