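import Fermat.Prelude.Def_AlgebraicCurve_DivisorPushPull
import Fermat.Agent.Curves.BasicOrd
import Fermat.Agent.Curves.BasicNorm
import Mathlib.RingTheory.DedekindDomain.IntegralClosure
import Mathlib.RingTheory.DedekindDomain.Factorization
import Mathlib.RingTheory.DedekindDomain.PID
import Mathlib.RingTheory.Localization.NormTrace
import Mathlib.RingTheory.Ideal.GoingUp

/-!
# Curves: finite separable extensions of function fields

Fundamental identity `∑ e f = [F' : F]`, the norm formula for push forward of principal
divisors, and lifting of `HasPrincipalDivisors`. For a place `v` of `F`, the integral closure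
`intClosure F' v` of its valuation ring in `F'` is a finite free Dedekind model of `F'` whose
height one primes are the places over `v`.
-/

set_option autoImplicit false

noncomputable section

open IsDedekindDomain WithZero AlgebraicCurve

namespace FLTA.Curves

section Congr

variable {K F : Type*} [Field K] [Field F] [Algebra K F]

/-- Residue fields of equal places. -/
def residueCongr {v v' : Place K F} (h : v' = v) : v'.ResidueField ≃+* v.ResidueField :=
  h ▸ RingEquiv.refl _

theorem residueCongr_residue {v v' : Place K F} (h : v' = v) (a : v.toValuationSubring) :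
    residueCongr h (residueMap v' ⟨a.1, by rw [h]; exact a.2⟩) = residueMap v a := by
  subst h
  rfl

/-- `Ring.ord` on the valuation ring of a place is `ord`. -/
theorem ringOrd_toNat_eq_ord (v : Place K F) {a : v.toValuationSubring} (ha : a ≠ 0) :
    ((Ring.ord v.toValuationSubring a).toNat : ℤ) = v.ord (a : F) := by
  obtain ⟨π, hπ⟩ := IsDiscreteValuationRing.exists_irreducible v.toValuationSubring
  obtain ⟨n, u, rfl⟩ := IsDiscreteValuationRing.eq_unit_mul_pow_irreducible ha hπ
  rw [Ring.ord_mul_of_isUnit_left u.isUnit,
    Ring.ord_pow (mem_nonZeroDivisors_iff_ne_zero.mpr hπ.ne_zero),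
    Ring.ord_of_irreducible hπ, nsmul_one, ENat.toNat_natCast]
  have h1 := v.ord_unit_smul_zpow u hπ (n : ℤ)
  rw [zpow_natCast] at h1
  simpa using h1.symm

end Congr

variable {K F F' : Type*} [Field K] [Field F] [Field F'] [Algebra K F] [Algebra K F']
  [Algebra F F'] [IsScalarTower K F F'] [Module.Finite F F'] [Algebra.IsSeparable F F']

section OverPlace

variable (F') in
/-- The integral closure in `F'` of the valuation ring of a place of `F`. -/
abbrev intClosure (v : Place K F) : Subalgebra v.toValuationSubring F' :=
  integralClosure v.toValuationSubring F'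

variable (v : Place K F)

omit [Module.Finite F F'] [Algebra.IsSeparable F F'] in
theorem isScalarTower_place : IsScalarTower K v.toValuationSubring F' :=
  IsScalarTower.of_algebraMap_eq fun a => IsScalarTower.algebraMap_apply K F F' a

attribute [local instance] isScalarTower_place

instance : IsFractionRing (intClosure F' v) F' :=
  integralClosure.isFractionRing_of_finite_extension F F'

instance : IsDedekindDomain (intClosure F' v) :=
  integralClosure.isDedekindDomain v.toValuationSubring F F'

instance : Module.Finite v.toValuationSubring (intClosure F' v) :=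
  IsIntegralClosure.finite v.toValuationSubring F F' (intClosure F' v)

instance : Module.Free v.toValuationSubring (intClosure F' v) :=
  IsIntegralClosure.module_free v.toValuationSubring F F' (intClosure F' v)

omit [Module.Finite F F'] [Algebra.IsSeparable F F'] in
theorem algebraMap_mem_of_restrict_eq [Algebra.IsIntegral F F'] {w : Place K F'}
    (hw : w.restrict F = v) (x : intClosure F' v) : (x : F') ∈ w.toValuationSubring := by
  have hmem : ∀ a : v.toValuationSubring, algebraMap v.toValuationSubring F' a ∈
      w.toValuationSubring := fun a => by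
    have : (a : F) ∈ (w.restrict F).toValuationSubring := by rw [hw]; exact a.2
    exact this
  letI : Algebra v.toValuationSubring w.toValuationSubring :=
    ((algebraMap v.toValuationSubring F').codRestrict w.toValuationSubring.toSubring hmem).toAlgebra
  haveI : IsScalarTower v.toValuationSubring w.toValuationSubring F' :=
    IsScalarTower.of_algebraMap_eq fun _ => rfl
  have hx : IsIntegral w.toValuationSubring (x : F') := IsIntegral.tower_top x.2
  obtain ⟨y, hy⟩ := IsIntegrallyClosed.isIntegral_iff.mp hx
  exact hy ▸ y.2

/-- The place of `F'` of a height one prime of `intClosure F' v`. -/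
abbrev placeOver (P : HeightOneSpectrum (intClosure F' v)) : Place K F' :=
  Place.ofHeightOneSpectrum P

theorem restrict_placeOver (P : HeightOneSpectrum (intClosure F' v)) :
    (placeOver v P).restrict F = v := by
  refine (place_eq_of_le fun a ha => ?_).symm
  exact algebraMap_mem_ofHeightOneSpectrum (K := K) (F := F') P
    (algebraMap v.toValuationSubring (intClosure F' v) ⟨a, ha⟩)

theorem exists_placeOver_eq {w : Place K F'} (hw : w.restrict F = v) :
    ∃ P : HeightOneSpectrum (intClosure F' v), placeOver v P = w :=
  exists_eq_ofHeightOneSpectrum w (algebraMap_mem_of_restrict_eq v hw)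

theorem placeOver_injective : Function.Injective (placeOver (F' := F') v) :=
  ofHeightOneSpectrum_injective

theorem faithfulSMul_intClosure :
    FaithfulSMul v.toValuationSubring (intClosure F' v) := by
  refine (faithfulSMul_iff_algebraMap_injective _ _).mpr fun a b h => Subtype.ext ?_
  exact (algebraMap F F').injective (congrArg Subtype.val h)

instance finite_heightOneSpectrum : Finite (HeightOneSpectrum (intClosure F' v)) := by
  obtain ⟨π, hπ⟩ := IsDiscreteValuationRing.exists_irreducible v.toValuationSubring
  haveI := faithfulSMul_intClosure (F' := F') v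
  set t := algebraMap v.toValuationSubring (intClosure F' v) π
  have ht : t ≠ 0 :=
    (map_ne_zero_iff _ (FaithfulSMul.algebraMap_injective _ _)).mpr hπ.ne_zero
  rw [← Set.finite_univ_iff]
  refine Set.Finite.subset (Ideal.finite_factors
    (show Ideal.span {t} ≠ 0 from Ideal.span_singleton_eq_bot.not.2 ht)) fun P _ => ?_
  show P.asIdeal ∣ _
  rw [Ideal.dvd_iff_le, Ideal.span_singleton_le_iff_mem,
    ← ord_ofHeightOneSpectrum_pos_iff (K := K) (F := F') P ht]
  show 0 < (placeOver v P).ord (algebraMap F F' (π : F))
  rw [Place.ord_restrict, restrict_placeOver, v.ord_coe_irreducible hπ, mul_one]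
  exact_mod_cast Place.ramificationIndex_pos (placeOver v P)

instance fintype_heightOneSpectrum : Fintype (HeightOneSpectrum (intClosure F' v)) :=
  Fintype.ofFinite _

/-- `S ⧸ P` as the residue field of the place over `v`. -/
def quotientResidueEquiv (P : HeightOneSpectrum (intClosure F' v)) :
    (intClosure F' v ⧸ P.asIdeal) ≃+* (placeOver v P).ResidueField :=
  (Ideal.quotEquivOfEq (ker_toResidueField (K := K) (F := F') P).symm).trans
    (RingHom.quotientKerEquivOfSurjective (toResidueField_surjective P))

theorem length_quotient_eq_inertiaDeg (P : HeightOneSpectrum (intClosure F' v)) :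
    Module.Finite ((placeOver v P).restrict F).ResidueField (placeOver v P).ResidueField ∧
    Module.length v.toValuationSubring (intClosure F' v ⧸ P.asIdeal) =
      ((placeOver v P).inertiaDeg F : ℕ∞) := by
  haveI := P.isMaximal
  let m := IsLocalRing.maximalIdeal v.toValuationSubring
  haveI hlo : P.asIdeal.LiesOver m := by
    refine ⟨((IsLocalRing.maximalIdeal.isMaximal _).eq_of_le ?_ ?_)⟩
    · exact (P.isPrime.under _).ne_top
    · intro a ha
      rw [Ideal.mem_comap]
      rcases eq_or_ne a 0 with rfl | ha0
      · simp
      have haF : (a : F) ≠ 0 := by simpa using ha0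
      have hpos : 0 < v.ord (a : F) :=
        ((residueMap_eq_zero_iff v a).mp (by
          rwa [residueMap, IsLocalRing.residue_eq_zero_iff])).resolve_left haF
      haveI := faithfulSMul_intClosure (F' := F') v
      rw [← ord_ofHeightOneSpectrum_pos_iff (K := K) (F := F') P
        ((map_ne_zero_iff _ (FaithfulSMul.algebraMap_injective _ _)).mpr ha0)]
      show 0 < (placeOver v P).ord (algebraMap F F' (a : F))
      rw [Place.ord_restrict, restrict_placeOver]
      exact mul_pos (by exact_mod_cast Place.ramificationIndex_pos (placeOver v P)) hpos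
  let i : (v.toValuationSubring ⧸ m) ≃+* ((placeOver v P).restrict F).ResidueField :=
    (residueCongr (restrict_placeOver v P)).symm
  let j := quotientResidueEquiv v P
  have hcomp : (algebraMap ((placeOver v P).restrict F).ResidueField
      (placeOver v P).ResidueField).comp i.toRingHom =
      j.toRingHom.comp (algebraMap (v.toValuationSubring ⧸ m) (intClosure F' v ⧸ P.asIdeal)) := by
    refine Ideal.Quotient.ringHom_ext (RingHom.ext fun a => ?_)
    have hi : i (residueMap v a) = residueMap _
        ⟨a.1, by rw [restrict_placeOver v P]; exact a.2⟩ := by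
      exact (RingEquiv.symm_apply_eq _).mpr (residueCongr_residue (restrict_placeOver v P) a).symm
    show algebraMap _ (placeOver v P).ResidueField (i (residueMap v a)) = _
    rw [hi, Place.algebraMap_residueField_eq, Place.restrictResidueMap_residue]
    rfl
  haveI : Module.Finite (v.toValuationSubring ⧸ m) (intClosure F' v ⧸ P.asIdeal) :=
    Module.Finite.of_restrictScalars_finite v.toValuationSubring _ _
  refine ⟨Module.Finite.of_equiv_equiv i j hcomp, ?_⟩
  rw [Module.length_eq_of_surjective (R := v.toValuationSubring ⧸ m)
      (S := v.toValuationSubring) Ideal.Quotient.mk_surjective]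
  letI := Ideal.Quotient.field m
  rw [Module.length_eq_finrank, Place.inertiaDeg,
    ← Algebra.finrank_eq_of_equiv_equiv i j hcomp]

theorem finite_residueField_placeOver (P : HeightOneSpectrum (intClosure F' v)) :
    Module.Finite ((placeOver v P).restrict F).ResidueField (placeOver v P).ResidueField :=
  (length_quotient_eq_inertiaDeg v P).1

/-- Weighted orders over `v`. -/
def weightedOrd (f : F') : ℤ :=
  ∑ P : HeightOneSpectrum (intClosure F' v),
    (placeOver v P).ord f * ((placeOver v P).inertiaDeg F : ℤ)

theorem weightedOrd_mul {f g : F'} (hf : f ≠ 0) (hg : g ≠ 0) :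
    weightedOrd v (f * g) = weightedOrd v f + weightedOrd v g := by
  simp only [weightedOrd, ← Finset.sum_add_distrib]
  refine Finset.sum_congr rfl fun P _ => ?_
  rw [(placeOver v P).ord_mul hf hg, add_mul]

theorem ord_norm_mul {f g : F'} (hf : f ≠ 0) (hg : g ≠ 0) :
    v.ord (Algebra.norm F (f * g)) = v.ord (Algebra.norm F f) + v.ord (Algebra.norm F g) := by
  rw [map_mul, v.ord_mul (Algebra.norm_ne_zero_iff.mpr hf) (Algebra.norm_ne_zero_iff.mpr hg)]

theorem ord_norm_eq_length {s : intClosure F' v} (hs : s ≠ 0) :
    v.ord (Algebra.norm F (s : F')) =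
      ((Module.length v.toValuationSubring (intClosure F' v ⧸ Ideal.span {s})).toNat : ℤ) := by
  haveI : IsLocalization (Algebra.algebraMapSubmonoid (intClosure F' v)
      (nonZeroDivisors v.toValuationSubring)) F' :=
    IsIntegralClosure.isLocalization v.toValuationSubring F F' (intClosure F' v)
  have h0 : Algebra.norm v.toValuationSubring s ≠ 0 := Algebra.norm_ne_zero_iff.mpr hs
  rw [length_quotient_span_singleton hs, ringOrd_toNat_eq_ord v h0,
    show (s : F') = algebraMap (intClosure F' v) F' s from rfl,
    Algebra.norm_localization v.toValuationSubring (nonZeroDivisors v.toValuationSubring)]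
  rfl

theorem ord_norm_eq_weightedOrd_of_mem (s : intClosure F' v) (hs : s ≠ 0) :
    v.ord (Algebra.norm F (s : F')) = weightedOrd v (s : F') := by
  classical
  haveI : IsPrincipalIdealRing (intClosure F' v) :=
    IsPrincipalIdealRing.of_finite_primes <| by
      refine Set.Finite.subset (((Set.finite_univ (α := HeightOneSpectrum (intClosure F' v))).image
        HeightOneSpectrum.asIdeal).insert ⊥) fun P (hP : P.IsPrime) => ?_
      rcases eq_or_ne P ⊥ with rfl | hne
      · exact Set.mem_insert _ _
      · exact Set.mem_insert_of_mem _ ⟨⟨P, hP, hne⟩, trivial, rfl⟩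
  induction s using UniqueFactorizationMonoid.induction_on_prime with
  | h₁ => exact absurd rfl hs
  | h₂ u hu =>
    rw [ord_norm_eq_length v hu.ne_zero, Ideal.span_singleton_eq_top.mpr hu, weightedOrd]
    rw [Module.length_eq_zero, ENat.toNat_zero, Nat.cast_zero]
    refine (Finset.sum_eq_zero fun P _ => ?_).symm
    have h1 : ¬ 0 < (placeOver v P).ord (u : F') := fun h =>
      P.isPrime.ne_top (Ideal.eq_top_of_isUnit_mem _
        ((ord_ofHeightOneSpectrum_pos_iff P hu.ne_zero).mp h) hu)
    have h2 := ord_nonneg_of_mem (placeOver v P)
      (algebraMap_mem_ofHeightOneSpectrum (K := K) (F := F') P u)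
    rw [show (placeOver v P).ord (u : F') = 0 by
      have h3 : 0 ≤ (placeOver v P).ord (u : F') := h2
      omega, zero_mul]
  | h₃ a p ha hp ih =>
    have hpF : (p : F') ≠ 0 := by simpa using hp.ne_zero
    have haF : (a : F') ≠ 0 := by simpa using ha
    rw [MulMemClass.coe_mul, ord_norm_mul v hpF haF, weightedOrd_mul v hpF haF, ih ha]
    congr 1
    let P₀ : HeightOneSpectrum (intClosure F' v) :=
      ⟨Ideal.span {p}, (Ideal.span_singleton_prime hp.ne_zero).mpr hp,
        Ideal.span_singleton_eq_bot.not.2 hp.ne_zero⟩
    rw [ord_norm_eq_length v hp.ne_zero, show Ideal.span {p} = P₀.asIdeal from rfl,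
      (length_quotient_eq_inertiaDeg v P₀).2, ENat.toNat_natCast, weightedOrd,
      Finset.sum_eq_single P₀]
    · have h1 : (placeOver v P₀).ord (p : F') = 1 := by
        rw [show (p : F') = algebraMap (intClosure F' v) F' p from rfl, placeOver,
          ord_ofHeightOneSpectrum, HeightOneSpectrum.valuation_of_algebraMap,
          HeightOneSpectrum.intValuation_singleton P₀ hp.ne_zero rfl, log_exp, neg_neg]
      rw [h1, one_mul]
    · intro P _ hne
      have h1 : ¬ 0 < (placeOver v P).ord (p : F') := fun h => hne (HeightOneSpectrum.ext
        ((P₀.isMaximal.eq_of_le P.isPrime.ne_top ((Ideal.span_singleton_le_iff_mem _).mpr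
          ((ord_ofHeightOneSpectrum_pos_iff P hp.ne_zero).mp h))).symm))
      have h2 : 0 ≤ (placeOver v P).ord (p : F') := ord_nonneg_of_mem _
        (algebraMap_mem_ofHeightOneSpectrum (K := K) (F := F') P p)
      rw [show (placeOver v P).ord (p : F') = 0 by omega, zero_mul]
    · exact fun h => absurd (Finset.mem_univ _) h

theorem ord_norm_eq_weightedOrd {f : F'} (hf : f ≠ 0) :
    v.ord (Algebra.norm F f) = weightedOrd v f := by
  obtain ⟨s, t, ht, rfl⟩ := IsFractionRing.div_surjective (intClosure F' v) f
  have hs : s ≠ 0 := fun h => hf (by simp [h])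
  have htne : t ≠ 0 := nonZeroDivisors.ne_zero ht
  have htF : (t : F') ≠ 0 := by simpa using htne
  have hq : (s : F') / (t : F') ≠ 0 := by simpa using hf
  have h1 := ord_norm_mul v hq htF
  have h2 := weightedOrd_mul v hq htF
  rw [div_mul_cancel₀ _ htF] at h1 h2
  rw [ord_norm_eq_weightedOrd_of_mem v s hs, ord_norm_eq_weightedOrd_of_mem v t htne] at h1
  show v.ord (Algebra.norm F ((s : F') / (t : F'))) = weightedOrd v ((s : F') / (t : F'))
  omega

end OverPlace

theorem finite_setOf_restrict_eq (v : Place K F) :
    {w : Place K F' | w.restrict F = v}.Finite :=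
  (Set.finite_range (placeOver (F' := F') v)).subset fun _ hw => exists_placeOver_eq v hw

theorem exists_restrict_eq (v : Place K F) : ∃ w : Place K F', w.restrict F = v := by
  haveI := faithfulSMul_intClosure (F' := F') v
  obtain ⟨Q, hQ, hlo⟩ := Ideal.exists_maximal_ideal_liesOver_of_isIntegral
    (S := intClosure F' v) (IsLocalRing.maximalIdeal v.toValuationSubring)
  have hne : Q ≠ ⊥ :=
    Ideal.ne_bot_of_liesOver_of_ne_bot (IsDiscreteValuationRing.not_a_field v.toValuationSubring) Q
  exact ⟨_, restrict_placeOver v ⟨Q, hQ.isPrime, hne⟩⟩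

theorem finite_residueField_over_restrict (w : Place K F') :
    Module.Finite (w.restrict F).ResidueField w.ResidueField := by
  obtain ⟨P, hP⟩ := exists_placeOver_eq (w.restrict F) (w := w) rfl
  have h := finite_residueField_placeOver (w.restrict F) P
  rw [hP] at h
  exact h

theorem inertiaDeg_pos (w : Place K F') : 0 < w.inertiaDeg F :=
  haveI := finite_residueField_over_restrict (F := F) w
  Module.finrank_pos

theorem finite_residueField_of_restrict (w : Place K F')
    [Module.Finite K (w.restrict F).ResidueField] : Module.Finite K w.ResidueField :=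
  haveI := finite_residueField_over_restrict (F := F) w
  Module.Finite.trans (w.restrict F).ResidueField _

theorem finite_setOf_ord_ne_zero [HasPrincipalDivisors K F] (f : F') :
    {w : Place K F' | w.ord f ≠ 0}.Finite := by
  classical
  rcases eq_or_ne f 0 with rfl | hf
  · simp
  let cs : Finset F := (minpoly F f).coeffs ∪ (minpoly F f⁻¹).coeffs
  have hbad : ∀ c : F, {v : Place K F | c ∉ v.toValuationSubring}.Finite := fun c => by
    rcases eq_or_ne c 0 with rfl | hc
    · simp [zero_mem]
    obtain ⟨D, hD, -⟩ := HasPrincipalDivisors.exists_divisor (K := K) c hc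
    refine Set.Finite.subset D.support.finite_toSet fun v hv => ?_
    have := (not_mem_iff_ord_neg v c).mp hv
    simp only [Finset.mem_coe, Finsupp.mem_support_iff, hD v]
    omega
  have hfin : (⋃ c ∈ cs, {v : Place K F | c ∉ v.toValuationSubring}).Finite :=
    Set.Finite.biUnion cs.finite_toSet fun c _ => hbad c
  refine (Set.Finite.biUnion hfin fun v _ => finite_setOf_restrict_eq (F' := F') v).subset ?_
  intro w hw
  simp only [Set.mem_iUnion, Set.mem_ofPred_eq, exists_prop]
  by_contra hcon
  push Not at hcon
  have hgood : ∀ c ∈ cs, c ∈ (w.restrict F).toValuationSubring := fun c hc => by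
    by_contra h
    exact hcon (w.restrict F) ⟨c, hc, h⟩ rfl
  have hint : ∀ g : F', (∀ c ∈ (minpoly F g).coeffs, c ∈ cs) → 0 ≤ w.ord g := fun g hg => by
    refine ord_nonneg_of_mem w (algebraMap_mem_of_restrict_eq (w.restrict F) (w := w) rfl
      ⟨g, ?_⟩)
    have hc : ↑(minpoly F g).coeffs ⊆
        ((w.restrict F).toValuationSubring.toSubring : Set F) := fun c hc => hgood c (hg c hc)
    refine ⟨(minpoly F g).toSubring _ hc, (Polynomial.monic_toSubring _ _ _).mpr
      (minpoly.monic (Algebra.IsIntegral.isIntegral g)), ?_⟩
    have := minpoly.aeval F g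
    rw [← Polynomial.map_toSubring (minpoly F g) (w.restrict F).toValuationSubring.toSubring hc,
      Polynomial.aeval_def, Polynomial.eval₂_map] at this
    exact this
  have h1 := hint f fun c hc => Finset.mem_union_left _ hc
  have h2 := hint f⁻¹ fun c hc => Finset.mem_union_right _ hc
  rw [w.ord_inv] at h2
  exact hw (by omega)

/-- Push forward of a principal divisor is the divisor of the norm. -/
theorem pushforwardNormFormula : Divisor.PushforwardNormFormula K F F' := by
  classical
  intro f hf D hD v
  rw [ord_norm_eq_weightedOrd v hf, Divisor.pushforward_apply, ← Finset.sum_filter, weightedOrd]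
  rw [← Finset.sum_image (s := Finset.univ) (g := placeOver (F' := F') v)
    (f := fun w => w.ord f * (w.inertiaDeg F : ℤ)) (fun _ _ _ _ h => placeOver_injective v h)]
  refine Finset.sum_congr_of_eq_on_inter ?_ ?_ ?_
  · intro w hw hnot
    obtain ⟨P, hP⟩ := exists_placeOver_eq v (Finset.mem_filter.mp hw).2
    exact absurd (Finset.mem_image.mpr ⟨P, Finset.mem_univ _, hP⟩) hnot
  · intro w hw hnot
    obtain ⟨P, -, rfl⟩ := Finset.mem_image.mp hw
    have : D (placeOver v P) = 0 := by
      by_contra h
      exact hnot (Finset.mem_filter.mpr ⟨Finsupp.mem_support_iff.mpr h, restrict_placeOver v P⟩)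
    rw [← hD, this, zero_mul]
  · intro w _ _
    rw [hD]

/-- Principal divisors pass to finite separable extensions. -/
theorem hasPrincipalDivisors_of_finite_separable [HasPrincipalDivisors K F] :
    HasPrincipalDivisors K F' := by
  refine ⟨fun f hf => ?_⟩
  let D : Divisor K F' := Finsupp.onFinset (finite_setOf_ord_ne_zero (F := F) f).toFinset
    (fun w => w.ord f) fun w hw => (Set.Finite.mem_toFinset _).mpr hw
  have hD : ∀ w : Place K F', D w = w.ord f := fun w => rfl
  obtain ⟨E, hE, hdeg⟩ := HasPrincipalDivisors.exists_divisor (K := K) (Algebra.norm F f)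
    (Algebra.norm_ne_zero_iff.mpr hf)
  refine ⟨D, hD, ?_⟩
  rw [← Divisor.degree_pushforward (F := F) D,
    Divisor.pushforward_eq_of_normFormula pushforwardNormFormula hf hD hE, hdeg]

theorem sum_ramificationIndex_mul_inertiaDeg [HasPrincipalDivisors K F'] (v : Place K F) :
    ∑ w ∈ v.fiber F', (w.ramificationIndex F : ℤ) * (w.inertiaDeg F : ℤ)
      = (Module.finrank F F' : ℤ) := by
  classical
  obtain ⟨π, h0, h1⟩ := exists_ord_eq_one v
  have hne : algebraMap F F' π ≠ 0 := by simpa using h0
  obtain ⟨D, hD, -⟩ := HasPrincipalDivisors.exists_divisor (K := K) (algebraMap F F' π) hne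
  have h := pushforwardNormFormula (algebraMap F F' π) hne D hD v
  rw [Algebra.norm_algebraMap, ord_pow, h1, mul_one, Divisor.pushforward_apply,
    ← Finset.sum_filter] at h
  rw [← h]
  refine Finset.sum_congr (Finset.ext fun w => ?_) fun w hw => ?_
  · rw [Place.mem_fiber, Finset.mem_filter, Finsupp.mem_support_iff]
    refine ⟨fun hw => ⟨?_, hw⟩, fun hw => hw.2⟩
    rw [hD, Place.ord_restrict, hw, h1, mul_one]
    exact_mod_cast (Place.ramificationIndex_pos w).ne'
  · rw [hD, Place.ord_restrict, (Finset.mem_filter.mp hw).2, h1, mul_one]

instance sumRamificationInertia [HasPrincipalDivisors K F'] :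
    SumRamificationInertia K F F' :=
  ⟨sum_ramificationIndex_mul_inertiaDeg⟩

theorem ramificationIndex_le_finrank [HasPrincipalDivisors K F'] (w : Place K F') :
    w.ramificationIndex F ≤ Module.finrank F F' := by
  have h := sum_ramificationIndex_mul_inertiaDeg (F' := F') (w.restrict F)
  have hle := Finset.single_le_sum
    (f := fun x : Place K F' => (x.ramificationIndex F : ℤ) * (x.inertiaDeg F : ℤ))
    (fun x _ => by positivity) (Place.restrict_mem_fiber (F := F) w)
  rw [h] at hle
  have := inertiaDeg_pos (F := F) w
  exact le_trans (Nat.le_mul_of_pos_right _ this) (by exact_mod_cast hle)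

end FLTA.Curves

end
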