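import Fermat.Agent.Curves.BasicFG
import Fermat.Agent.Igusa.ModPoly
import Fermat.Prelude.Def_ModularCurve_ArithmeticGalois
import Fermat.Prelude.Def_ModularCurve_X0ModL
import Fermat.Prelude.Def_ModularCurve_HeckeOperatorTotal

/-!
# Curves: the modular function fields are function fields of one variable

`IsSepFunctionField` (hence `IsCurveOver`, `HasPrincipalDivisors`) for
`modularFunctionFieldFullC K N` (`K` perfect), `laurentBaseChange L (modularFunctionFieldFull N)`,
and `HeckeInputsAlong L N ℓ`.
-/

set_option autoImplicit false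

noncomputable section

open ModularCurve IntermediateField Polynomial AlgebraicCurve

namespace FLTA.Curves

theorem transcendental_jqModC (K : Type*) [Field K] : Transcendental K (jqModC K) := by
  rw [transcendental_iff]
  intro p hp
  by_contra hne
  have h := congrArg (fun s : LaurentSeries K => s.coeff (-(p.natDegree : ℤ))) hp
  simp only [aeval_eq_sum_range, HahnSeries.coeff_sum, HahnSeries.coeff_zero] at h
  rw [Finset.sum_eq_single p.natDegree] at h
  · rw [Algebra.smul_def, algebraMap_laurentSeries_eq_single, HahnSeries.coeff_single_mul,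
      sub_zero, coeff_jqModC_pow_self, mul_one] at h
    exact hne (leadingCoeff_eq_zero.mp h)
  · intro i hi hne'
    rw [Algebra.smul_def, algebraMap_laurentSeries_eq_single, HahnSeries.coeff_single_mul,
      sub_zero, coeff_jqModC_pow_of_lt, mul_zero]
    have := Finset.mem_range.mp hi
    omega
  · intro h'
    exact absurd (Finset.mem_range.mpr (Nat.lt_succ_self _)) h'

theorem coeffMap_injective_of_injective {R S : Type*} [CommRing R] [CommRing S] {f : R →+* S}
    (hf : Function.Injective f) : Function.Injective (coeffMap f) := fun x y h =>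
  HahnSeries.ext (funext fun k => hf (congrArg (fun s : LaurentSeries S => s.coeff k) h))

/-- `Φ_p(j, j_p) = 0` over `ℤ`. -/
theorem exists_relation_prime (p : ℕ) [Fact p.Prime] :
    ∃ Φ : Polynomial (Polynomial ℤ), Φ.Monic ∧
      Φ.eval₂ (aeval (R := ℤ) (jqModC ℤ)).toRingHom (jqNModC ℤ p) = 0 := by
  exact ⟨FLTA.Igusa.modPoly p Fact.out, FLTA.Igusa.modPoly_monic p Fact.out,
    FLTA.Igusa.modPoly_eval_jp ℤ p Fact.out⟩

/-- `j(q^d)` is integral over `ℤ[j]`. -/
theorem isIntegralElem_qExpand_jqModC (d : ℕ) [NeZero d] :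
    (aeval (R := ℤ) (jqModC ℤ)).toRingHom.IsIntegralElem (qExpand ℤ d (jqModC ℤ)) := by
  suffices h : ∀ (m : ℕ) (_ : NeZero m),
      (aeval (R := ℤ) (jqModC ℤ)).toRingHom.IsIntegralElem (qExpand ℤ m (jqModC ℤ)) from h d ‹_›
  intro m
  induction m using Nat.strong_induction_on with
  | _ m ih =>
    intro hm
    rcases eq_or_ne m 1 with rfl | hm1
    · rw [qExpand_one_apply]
      simpa using (aeval (R := ℤ) (jqModC ℤ)).toRingHom.isIntegralElem_map (x := Polynomial.X)
    · obtain ⟨p, hp, e, rfl⟩ := Nat.exists_prime_and_dvd hm1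
      haveI : Fact p.Prime := ⟨hp⟩
      haveI : NeZero e := ⟨fun h => hm.out (by rw [h, mul_zero])⟩
      have he := ih e (by nlinarith [hp.two_le, NeZero.pos e]) inferInstance
      obtain ⟨Φ, hΦ, hrel⟩ := exists_relation_prime p
      letI : Algebra (Polynomial ℤ) (LaurentSeries ℤ) :=
        (aeval (R := ℤ) (jqModC ℤ)).toRingHom.toAlgebra
      let C := integralClosure (Polynomial ℤ) (LaurentSeries ℤ)
      let xe : C := ⟨qExpand ℤ e (jqModC ℤ), he⟩
      let ψ : Polynomial ℤ →+* C := Polynomial.eval₂RingHom (Int.castRingHom C) xe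
      refine isIntegral_trans (R := Polynomial ℤ) (A := C) _ ⟨Φ.map ψ, hΦ.map _, ?_⟩
      rw [eval₂_map]
      have hcomp : (algebraMap C (LaurentSeries ℤ)).comp ψ =
          (qExpand ℤ e).comp (aeval (R := ℤ) (jqModC ℤ)).toRingHom := by
        refine ringHom_ext' (Subsingleton.elim _ _) ?_
        simp [ψ, xe]
      have hx : qExpand ℤ (p * e) (jqModC ℤ) = qExpand ℤ e (jqNModC ℤ p) := by
        rw [jqNModC, qExpand_qExpand]
        exact qExpand_congr (mul_comm p e) _
      rw [hcomp, hx, ← hom_eval₂, hrel, map_zero]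

theorem isAlgebraic_qExpand_jqModC (K : Type*) [Field K] (d : ℕ) [NeZero d] :
    IsAlgebraic K⟮jqModC K⟯ (qExpand K d (jqModC K)) := by
  obtain ⟨P, hP, h0⟩ := isIntegralElem_qExpand_jqModC d
  let g : Polynomial ℤ →+* K⟮jqModC K⟯ :=
    Polynomial.eval₂RingHom (Int.castRingHom _) (AdjoinSimple.gen K (jqModC K))
  refine IsIntegral.isAlgebraic ⟨P.map g, hP.map _, ?_⟩
  have hcomp : (algebraMap K⟮jqModC K⟯ (LaurentSeries K)).comp g =
      (coeffMap (Int.castRingHom K)).comp (aeval (R := ℤ) (jqModC ℤ)).toRingHom := by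
    refine ringHom_ext' (Subsingleton.elim _ _) ?_
    simp [g, coeffMap_jqModC]
  rw [eval₂_map, hcomp,
    show qExpand K d (jqModC K) = coeffMap (Int.castRingHom K) (qExpand ℤ d (jqModC ℤ)) by
      rw [coeffMap_qExpand, coeffMap_jqModC],
    ← hom_eval₂, h0, map_zero]

theorem finite_divisorExpansionsC (K : Type*) [Field K] (N : ℕ) [NeZero N] :
    (divisorExpansionsC K N).Finite := by
  classical
  refine Set.Finite.subset (N.divisors.finite_toSet.image fun d : ℕ =>
    if h : d = 0 then 0 else @qExpand K _ d ⟨h⟩ (jqModC K)) ?_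
  rintro x ⟨d, hd, hdN, rfl⟩
  exact ⟨d, Nat.mem_divisors.mpr ⟨hdN, NeZero.ne N⟩, by simp [NeZero.ne d]⟩

variable (K : Type*) [Field K] (N : ℕ) [NeZero N]

/-- `j` in `modularFunctionFieldFullC`. -/
def jFullC : modularFunctionFieldFullC K N := ⟨jqModC K, jqModC_mem_full K N⟩

theorem transcendental_jFullC : Transcendental K (jFullC K N) :=
  transcendental_coe (transcendental_jqModC K)

theorem finite_adjoin_jFullC :
    Module.Finite K⟮jFullC K N⟯ (modularFunctionFieldFullC K N) :=
  finite_adjoin_of_isAlgebraic (finite_divisorExpansionsC K N) rfl (jFullC K N) <| by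
    rintro x ⟨d, hd, -, rfl⟩
    exact isAlgebraic_qExpand_jqModC K d

instance isSepFunctionField_fullC [PerfectField K] :
    IsSepFunctionField K (modularFunctionFieldFullC K N) :=
  isSepFunctionField_of_perfectField (transcendental_jFullC K N) (finite_adjoin_jFullC K N)

section BaseChange

variable (L : Type*) [Field L] [Algebra ℚ L]

theorem coeffEmb_qExpand_jq (d : ℕ) [NeZero d] :
    coeffEmb L (qExpand ℚ d jq) = qExpand L d (jqModC L) := by
  rw [← jqModC_rat, coeffEmb, coeffMap_qExpand, coeffMap_jqModC]

omit [NeZero N] in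
/-- The base change of the full modular function field is `modularFunctionFieldFullC`. -/
theorem laurentBaseChange_full_eq :
    laurentBaseChange L (modularFunctionFieldFull N) = modularFunctionFieldFullC L N := by
  refine le_antisymm ?_ ?_
  · rw [laurentBaseChange, adjoin_le_iff]
    rintro _ ⟨y, hy, rfl⟩
    rw [SetLike.mem_coe] at hy ⊢
    rw [modularFunctionFieldFull] at hy
    induction hy using IntermediateField.adjoin_induction with
    | mem z hz =>
      obtain ⟨d, hd, hdN, rfl⟩ := hz
      rw [coeffEmb_qExpand_jq]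
      exact jqModCd_mem_full L N hdN
    | algebraMap c =>
      rw [algebraMap_apply_eq_single, coeffEmb, coeffMap_single,
        ← algebraMap_laurentSeries_eq_single]
      exact (modularFunctionFieldFullC L N).algebraMap_mem _
    | add x y _ _ hx hy => simpa using add_mem hx hy
    | inv x _ hx => simpa using inv_mem hx
    | mul x y _ _ hx hy => simpa using mul_mem hx hy
  · rw [modularFunctionFieldFullC, adjoin_le_iff]
    rintro _ ⟨d, hd, hdN, rfl⟩
    rw [← coeffEmb_qExpand_jq]
    exact coeffEmb_mem_laurentBaseChange L (jqd_mem_full N hdN)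

instance isSepFunctionField_laurentBaseChange :
    IsSepFunctionField L (laurentBaseChange L (modularFunctionFieldFull N)) := by
  haveI : CharZero L := algebraRat.charZero L
  rw [laurentBaseChange_full_eq]
  infer_instance

theorem heckeInputsAlong (ℓ : ℕ) [NeZero ℓ] : HeckeInputsAlong L N ℓ := by
  haveI : CharZero L := algebraRat.charZero L
  haveI : IsSepFunctionField L (laurentBaseChange L (modularFunctionFieldFull (N * ℓ))) :=
    isSepFunctionField_laurentBaseChange (N * ℓ) L
  exact heckeInputsAlong_intro (isIntegral_of_algHom (heckeAlphaBar L N ℓ))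
    (isIntegral_of_algHom (heckeBetaBar L N ℓ))
    (fundamentalIdentityAlong _ _ (finiteAlong _) (separableAlong_of_charZero _))
    (finiteAlong _) (normFormulaAlong _ _ (separableAlong_of_charZero _))

end BaseChange

end FLTA.Curves

end
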