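import Fermat.Agent.Curves.BasicOrdExtra
import Mathlib.FieldTheory.RatFunc.Valuation
import Mathlib.FieldTheory.RatFunc.AsPolynomial
import Mathlib.RingTheory.AdjoinRoot
import Mathlib.RingTheory.Etale.Kaehler
import Mathlib.RingTheory.Kaehler.Polynomial

/-!
# Curves: rational function fields

`F` is a fraction field of `K[X]`.
-/

set_option autoImplicit false

noncomputable section

open IsDedekindDomain WithZero AlgebraicCurve Polynomial KaehlerDifferential
open scoped nonZeroDivisors TensorProduct

namespace FLTA.Curves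

variable {K F : Type*} [Field K] [Field F] [Algebra K F]
  [Algebra K[X] F] [IsScalarTower K K[X] F] [IsFractionRing K[X] F]

omit [IsFractionRing K[X] F] in
theorem algebraMap_C_eq (a : K) : algebraMap K[X] F (C a) = algebraMap K F a := by
  rw [IsScalarTower.algebraMap_apply K K[X] F, ← Polynomial.algebraMap_eq]

omit [Algebra K F] [IsScalarTower K K[X] F] in
theorem algebraMap_poly_ne_zero {p : K[X]} (hp : p ≠ 0) : algebraMap K[X] F p ≠ 0 :=
  (map_ne_zero_iff _ (IsFractionRing.injective K[X] F)).mpr hp

omit [IsFractionRing K[X] F] in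
theorem algebraMap_poly_mem_of_ord_X_nonneg (v : Place K F)
    (hv : 0 ≤ v.ord (algebraMap K[X] F X)) (p : K[X]) :
    algebraMap K[X] F p ∈ v.toValuationSubring := by
  have hX : algebraMap K[X] F X ∈ v.toValuationSubring := by
    by_contra h
    exact absurd ((not_mem_iff_ord_neg v _).mp h) (not_lt.mpr hv)
  induction p using Polynomial.induction_on with
  | C a => rw [algebraMap_C_eq]; exact v.algebraMap_mem' a
  | add p q hp hq => rw [map_add]; exact add_mem hp hq
  | monomial n a _ =>
    rw [map_mul, map_pow, algebraMap_C_eq]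
    exact mul_mem (v.algebraMap_mem' a) (pow_mem hX _)

theorem ord_algebraMap_poly_eq_mul (v : Place K F) (hv : v.ord (algebraMap K[X] F X) < 0)
    {p : K[X]} (hp : p ≠ 0) :
    v.ord (algebraMap K[X] F p) = p.natDegree * v.ord (algebraMap K[X] F X) := by
  set x := algebraMap K[X] F X with hx
  have hx0 : x ≠ 0 := algebraMap_poly_ne_zero X_ne_zero
  have hterm : ∀ i, p.coeff i ≠ 0 →
      v.ord (algebraMap K F (p.coeff i) * x ^ i) = i * v.ord x := fun i hi => by
    rw [v.ord_mul (by simpa using hi) (pow_ne_zero _ hx0), ord_algebraMap, ord_pow, zero_add]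
  have hlead : p.coeff p.natDegree ≠ 0 := by
    rw [coeff_natDegree]; exact leadingCoeff_ne_zero.mpr hp
  have key := sum_ne_zero_and_ord_sum_eq v (Finset.range (p.natDegree + 1))
    (fun i => algebraMap K F (p.coeff i) * x ^ i) (i₀ := p.natDegree) (by simp)
    (mul_ne_zero (by simpa using hlead) (pow_ne_zero _ hx0)) (fun i hi hne => ?_)
  · rw [← hterm _ hlead, ← key.2]
    congr 1
    conv_lhs => rw [p.as_sum_range_C_mul_X_pow, map_sum]
    exact Finset.sum_congr rfl fun i _ => by rw [map_mul, map_pow, algebraMap_C_eq]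
  · rcases eq_or_ne (p.coeff i) 0 with h0 | h0
    · exact Or.inl (by simp [h0])
    · refine Or.inr ?_
      rw [hterm _ hlead, hterm _ h0]
      have : (i : ℤ) < p.natDegree := by
        rw [Finset.mem_range] at hi
        exact_mod_cast lt_of_le_of_ne (Nat.lt_succ_iff.mp hi) hne
      nlinarith

theorem ord_X_eq_neg_one (v : Place K F) (hv : v.ord (algebraMap K[X] F X) < 0) :
    v.ord (algebraMap K[X] F X) = -1 := by
  obtain ⟨π, hπ0, hπ⟩ := exists_ord_eq v (-1)
  obtain ⟨a, b, hb, rfl⟩ := IsFractionRing.div_surjective K[X] π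
  have ha : a ≠ 0 := by rintro rfl; simp at hπ0
  rw [div_eq_mul_inv, v.ord_mul (algebraMap_poly_ne_zero ha)
    (inv_ne_zero (algebraMap_poly_ne_zero (nonZeroDivisors.ne_zero hb))), v.ord_inv,
    ord_algebraMap_poly_eq_mul v hv ha,
    ord_algebraMap_poly_eq_mul v hv (nonZeroDivisors.ne_zero hb)] at hπ
  have h : ((a.natDegree : ℤ) - b.natDegree) * v.ord (algebraMap K[X] F X) = -1 := by linarith
  rcases Int.mul_eq_neg_one_iff_eq_one_or_neg_one.mp h with ⟨-, h2⟩ | ⟨-, h2⟩
  · exact h2
  · omega

theorem ord_of_ord_X_neg (v : Place K F) (hv : v.ord (algebraMap K[X] F X) < 0) (p : K[X]) :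
    v.ord (algebraMap K[X] F p) = -(p.natDegree : ℤ) := by
  rcases eq_or_ne p 0 with rfl | hp
  · simp
  · rw [ord_algebraMap_poly_eq_mul v hv hp, ord_X_eq_neg_one v hv]; ring

/-- A place at which the coordinate is not integral: there is exactly one. -/
theorem existsUnique_place_ord_X_neg :
    ∃! v : Place K F, v.ord (algebraMap K[X] F X) < 0 := by
  classical
  let e : F ≃ₐ[K[X]] RatFunc K := IsLocalization.algEquiv K[X]⁰ F (RatFunc K)
  let u : Valuation F ℤᵐ⁰ := (RatFunc.inftyValuation K).comap (e : F →+* RatFunc K)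
  have hK : ∀ a : K, u (algebraMap K F a) ≤ 1 := fun a => by
    rcases eq_or_ne a 0 with rfl | ha
    · simp
    · show RatFunc.inftyValuation K (e (algebraMap K F a)) ≤ 1
      rw [← algebraMap_C_eq, e.commutes, RatFunc.algebraMap_C, RatFunc.inftyValuation.C _ ha]
  have hX : u (algebraMap K[X] F X) = exp (1 : ℤ) := by
    show RatFunc.inftyValuation K (e (algebraMap K[X] F X)) = _
    rw [e.commutes, RatFunc.algebraMap_X, RatFunc.inftyValuation.X]
  have hπ : ∃ π : F, u π = exp (-1 : ℤ) :=
    ⟨(algebraMap K[X] F X)⁻¹, by rw [map_inv₀, hX, exp_neg]⟩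
  refine ⟨ofValuation u hK hπ, ?_, fun w hw => ?_⟩
  · show (ofValuation u hK hπ).ord _ < 0
    rw [ord_ofValuation, hX, log_exp]
    norm_num
  · have hv : (ofValuation u hK hπ).ord (algebraMap K[X] F X) < 0 := by
      rw [ord_ofValuation, hX, log_exp]
      norm_num
    refine place_ext_ord fun f => ?_
    obtain ⟨a, b, -, rfl⟩ := IsFractionRing.div_surjective K[X] f
    rcases eq_or_ne a 0 with rfl | ha
    · simp
    rcases eq_or_ne b 0 with rfl | hb
    · simp
    rw [div_eq_mul_inv, Place.ord_mul _ (algebraMap_poly_ne_zero ha)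
      (inv_ne_zero (algebraMap_poly_ne_zero hb)), Place.ord_mul _ (algebraMap_poly_ne_zero ha)
      (inv_ne_zero (algebraMap_poly_ne_zero hb)), Place.ord_inv, Place.ord_inv,
      ord_of_ord_X_neg w hw, ord_of_ord_X_neg w hw, ord_of_ord_X_neg _ hv, ord_of_ord_X_neg _ hv]

theorem bijective_algebraMap_residueField_of_ord_X_neg (v : Place K F)
    (hv : v.ord (algebraMap K[X] F X) < 0) :
    Function.Bijective (algebraMap K v.ResidueField) := by
  refine bijective_algebraMap_residueField v fun f hf0 hf => ?_
  obtain ⟨a, b, hb, rfl⟩ := IsFractionRing.div_surjective K[X] f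
  have hb0 : b ≠ 0 := nonZeroDivisors.ne_zero hb
  have ha : a ≠ 0 := by rintro rfl; simp at hf0
  have hbF : algebraMap K[X] F b ≠ 0 := algebraMap_poly_ne_zero hb0
  rw [div_eq_mul_inv, v.ord_mul (algebraMap_poly_ne_zero ha) (inv_ne_zero hbF), v.ord_inv,
    ord_of_ord_X_neg v hv, ord_of_ord_X_neg v hv] at hf
  have hab : a.natDegree ≤ b.natDegree := by omega
  set c := a.coeff b.natDegree / b.coeff b.natDegree with hc
  have hlead : b.coeff b.natDegree ≠ 0 := by
    rw [coeff_natDegree]; exact leadingCoeff_ne_zero.mpr hb0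
  have heq : algebraMap K[X] F a / algebraMap K[X] F b - algebraMap K F c
      = algebraMap K[X] F (a - C c * b) / algebraMap K[X] F b := by
    rw [map_sub, map_mul, algebraMap_C_eq, sub_div, mul_div_assoc, div_self hbF, mul_one]
  refine ⟨c, ?_⟩
  rcases eq_or_ne (a - C c * b) 0 with h | h
  · refine Or.inl (sub_eq_zero.mp ?_)
    rw [heq, h, map_zero, zero_div]
  · refine Or.inr ?_
    rw [heq, div_eq_mul_inv, v.ord_mul (algebraMap_poly_ne_zero h) (inv_ne_zero hbF), v.ord_inv,
      ord_of_ord_X_neg v hv, ord_of_ord_X_neg v hv]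
    have h1 : (a - C c * b).natDegree ≤ b.natDegree :=
      (natDegree_sub_le _ _).trans (max_le hab (natDegree_C_mul_le _ _))
    have h2 : (a - C c * b).coeff b.natDegree = 0 := by
      rw [coeff_sub, coeff_C_mul, hc, div_mul_cancel₀ _ hlead, sub_self]
    have h3 : (a - C c * b).natDegree ≠ b.natDegree := fun he => by
      rw [← he, coeff_natDegree] at h2
      exact h (leadingCoeff_eq_zero.mp h2)
    omega

theorem deg_of_ord_X_neg (v : Place K F) (hv : v.ord (algebraMap K[X] F X) < 0) :
    v.deg = 1 :=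
  deg_eq_one_of_bijective v (bijective_algebraMap_residueField_of_ord_X_neg v hv)

/-- A place is either infinite or comes from `K[X]`. -/
theorem ord_X_neg_or_exists_eq_ofHeightOneSpectrum (v : Place K F) :
    v.ord (algebraMap K[X] F X) < 0 ∨
      ∃ w : HeightOneSpectrum K[X], Place.ofHeightOneSpectrum (K := K) (F := F) w = v := by
  rcases lt_or_ge (v.ord (algebraMap K[X] F X)) 0 with h | h
  · exact Or.inl h
  · exact Or.inr (exists_eq_ofHeightOneSpectrum v (algebraMap_poly_mem_of_ord_X_nonneg v h))

theorem exists_divisor_algebraMap_prime {p : K[X]} (hp : Prime p) :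
    ∃ D : Divisor K F, (∀ v, D v = v.ord (algebraMap K[X] F p)) ∧ Divisor.degree D = 0 := by
  classical
  obtain ⟨vi, hvi, huniq⟩ := existsUnique_place_ord_X_neg (K := K) (F := F)
  have hp0 : p ≠ 0 := hp.ne_zero
  let P : HeightOneSpectrum K[X] :=
    ⟨Ideal.span {p}, (Ideal.span_singleton_prime hp0).mpr hp,
      by rw [ne_eq, Ideal.span_singleton_eq_bot]; exact hp0⟩
  set v₀ := Place.ofHeightOneSpectrum (K := K) (F := F) P with hv₀
  have hne : v₀ ≠ vi := fun h => by
    have := ord_nonneg_of_mem v₀ (algebraMap_mem_ofHeightOneSpectrum P X)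
    rw [h] at this
    omega
  refine ⟨Finsupp.single v₀ 1 - Finsupp.single vi (p.natDegree : ℤ), fun v => ?_, ?_⟩
  · rw [Finsupp.sub_apply]
    rcases ord_X_neg_or_exists_eq_ofHeightOneSpectrum v with hv | ⟨w, rfl⟩
    · obtain rfl := huniq v hv
      rw [Finsupp.single_eq_of_ne hne.symm, Finsupp.single_eq_same, zero_sub,
        ord_of_ord_X_neg _ hv]
    · rw [Finsupp.single_eq_of_ne (a := vi) (a' := Place.ofHeightOneSpectrum w) fun h => by
        have := ord_nonneg_of_mem (Place.ofHeightOneSpectrum (K := K) (F := F) w)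
          (algebraMap_mem_ofHeightOneSpectrum w X)
        rw [h] at this
        omega, sub_zero]
      rcases eq_or_ne w P with rfl | hwP
      · rw [← hv₀, Finsupp.single_eq_same, hv₀, ord_ofHeightOneSpectrum,
          HeightOneSpectrum.valuation_of_algebraMap,
          HeightOneSpectrum.intValuation_singleton P hp0 rfl, log_exp, neg_neg]
      · rw [Finsupp.single_eq_of_ne fun h => hwP (ofHeightOneSpectrum_injective h)]
        have h1 := ord_nonneg_of_mem (Place.ofHeightOneSpectrum (K := K) (F := F) w)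
          (algebraMap_mem_ofHeightOneSpectrum w p)
        have h2 : ¬ 0 < (Place.ofHeightOneSpectrum (K := K) (F := F) w).ord
            (algebraMap K[X] F p) := by
          rw [ord_ofHeightOneSpectrum_pos_iff w hp0]
          intro hmem
          refine hwP (HeightOneSpectrum.ext (Eq.symm ?_))
          exact (P.isMaximal).eq_of_le w.isPrime.ne_top
            ((Ideal.span_singleton_le_iff_mem _).mpr hmem)
        omega
  · rw [map_sub, Divisor.degree_single, Divisor.degree_single, deg_of_ord_X_neg vi hvi,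
      deg_ofHeightOneSpectrum]
    have : Module.finrank K (K[X] ⧸ P.asIdeal) = p.natDegree :=
      (AdjoinRoot.powerBasis hp0).finrank
    rw [this]
    simp

theorem exists_divisor_algebraMap_poly (p : K[X]) :
    ∃ D : Divisor K F, (∀ v, D v = v.ord (algebraMap K[X] F p)) ∧ Divisor.degree D = 0 := by
  induction p using UniqueFactorizationMonoid.induction_on_prime with
  | h₁ => exact ⟨0, fun v => by simp, map_zero _⟩
  | h₂ p hp =>
    obtain ⟨r, -, rfl⟩ := Polynomial.isUnit_iff.mp hp
    exact ⟨0, fun v => by simp [algebraMap_C_eq, ord_algebraMap], map_zero _⟩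
  | h₃ a p ha hp ih =>
    obtain ⟨D, hD, hD0⟩ := ih
    obtain ⟨E, hE, hE0⟩ := exists_divisor_algebraMap_prime (F := F) hp
    refine ⟨E + D, fun v => ?_, by rw [map_add, hD0, hE0, add_zero]⟩
    rw [Finsupp.add_apply, hD, hE, map_mul,
      v.ord_mul (algebraMap_poly_ne_zero hp.ne_zero) (algebraMap_poly_ne_zero ha)]

theorem hasPrincipalDivisors_of_isFractionRing_polynomial (K F : Type*) [Field K] [Field F]
    [Algebra K F] [Algebra K[X] F] [IsScalarTower K K[X] F] [IsFractionRing K[X] F] :
    HasPrincipalDivisors K F := by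
  refine ⟨fun f hf => ?_⟩
  obtain ⟨a, b, hb, rfl⟩ := IsFractionRing.div_surjective K[X] f
  have ha : a ≠ 0 := by rintro rfl; simp at hf
  have hb0 : b ≠ 0 := nonZeroDivisors.ne_zero hb
  obtain ⟨D, hD, hD0⟩ := exists_divisor_algebraMap_poly (F := F) a
  obtain ⟨E, hE, hE0⟩ := exists_divisor_algebraMap_poly (F := F) b
  refine ⟨D - E, fun v => ?_, by rw [map_sub, hD0, hE0, sub_zero]⟩
  rw [Finsupp.sub_apply, hD, hE, div_eq_mul_inv,
    v.ord_mul (algebraMap_poly_ne_zero ha) (inv_ne_zero (algebraMap_poly_ne_zero hb0)), v.ord_inv,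
    sub_eq_add_neg]

theorem finite_residueField_of_isFractionRing_polynomial (v : Place K F) :
    Module.Finite K v.ResidueField := by
  rcases ord_X_neg_or_exists_eq_ofHeightOneSpectrum v with hv | ⟨w, rfl⟩
  · exact finite_residueField_of_bijective v (bijective_algebraMap_residueField_of_ord_X_neg v hv)
  · obtain ⟨p, hp⟩ := (IsPrincipalIdealRing.principal w.asIdeal).principal
    have hp0 : p ≠ 0 := by
      rintro rfl
      exact w.ne_bot (hp.trans Ideal.span_singleton_zero)
    have : Module.Finite K (K[X] ⧸ w.asIdeal) := by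
      rw [show w.asIdeal = Ideal.span {p} from hp]
      exact (AdjoinRoot.powerBasis hp0).finite
    exact finite_residueField_ofHeightOneSpectrum w

/-- Differentials of an extension formally étale over `K[X]`. -/
theorem kaehler_of_formallyEtale_polynomial (K F : Type*) [Field K] [Field F]
    [Algebra K F] [Algebra K[X] F] [IsScalarTower K K[X] F] [Algebra.FormallyEtale K[X] F] :
    Module.Free F Ω[F⁄K] ∧ Module.finrank F Ω[F⁄K] = 1 := by
  let e : F ≃ₗ[F] Ω[F⁄K] :=
    (TensorProduct.AlgebraTensorModule.rid K[X] F F).symm ≪≫ₗ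
      TensorProduct.AlgebraTensorModule.congr (LinearEquiv.refl F F)
        (KaehlerDifferential.polynomialEquiv K).symm ≪≫ₗ
      KaehlerDifferential.tensorKaehlerEquivOfFormallyEtale K K[X] F
  exact ⟨Module.Free.of_equiv e, by rw [← e.finrank_eq, Module.finrank_self]⟩

theorem kaehler_of_isFractionRing_polynomial (K F : Type*) [Field K] [Field F]
    [Algebra K F] [Algebra K[X] F] [IsScalarTower K K[X] F] [IsFractionRing K[X] F] :
    Module.Free F Ω[F⁄K] ∧ Module.finrank F Ω[F⁄K] = 1 := by
  have : Algebra.FormallyEtale K[X] F := Algebra.FormallyEtale.of_isLocalization K[X]⁰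
  exact kaehler_of_formallyEtale_polynomial K F

theorem isCurveOver_of_isFractionRing_polynomial (K F : Type*) [Field K] [Field F]
    [Algebra K F] [Algebra K[X] F] [IsScalarTower K K[X] F] [IsFractionRing K[X] F] :
    IsCurveOver K F :=
  { hasPrincipalDivisors_of_isFractionRing_polynomial K F with
    finiteResidue := finite_residueField_of_isFractionRing_polynomial
    kaehler_free_rank_one := kaehler_of_isFractionRing_polynomial K F }

end FLTA.Curves

end
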