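import Fermat.Agent.Curves.BasicExt
import Fermat.Agent.Curves.BasicRational
import Mathlib.FieldTheory.Minpoly.IsIntegrallyClosed
import Mathlib.RingTheory.DedekindDomain.IntegralClosure

/-!
# Curves: the field `K⟮x⟯` as a rational function field, integrality from places
-/

set_option autoImplicit false
set_option linter.style.haveILetI false

noncomputable section

open IsDedekindDomain WithZero AlgebraicCurve IntermediateField Polynomial
open scoped nonZeroDivisors

namespace FLTA.Curves

variable {K F : Type*} [Field K] [Field F] [Algebra K F]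

/-- `K⟮x⟯` as an algebra over `K[X]`, `X ↦ x`. -/
@[reducible]
def polyAlgebraAdjoin (x : F) : Algebra K[X] K⟮x⟯ :=
  (aeval (R := K) (AdjoinSimple.gen K x)).toRingHom.toAlgebra

theorem isScalarTower_polyAlgebraAdjoin (x : F) :
    letI := polyAlgebraAdjoin (K := K) x
    IsScalarTower K K[X] K⟮x⟯ :=
  letI := polyAlgebraAdjoin (K := K) x
  IsScalarTower.of_algebraMap_eq fun a => by
    show algebraMap K K⟮x⟯ a = aeval (AdjoinSimple.gen K x) (algebraMap K K[X] a)
    rw [Polynomial.algebraMap_eq, aeval_C]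

theorem isFractionRing_polyAlgebraAdjoin {x : F} (hx : Transcendental K x) :
    letI := polyAlgebraAdjoin (K := K) x
    IsFractionRing K[X] K⟮x⟯ :=
  letI := polyAlgebraAdjoin (K := K) x
  IsFractionRing.of_algEquiv
    (AlgEquiv.ofRingEquiv (f := (RatFunc.algEquivOfTranscendental x hx).toRingEquiv)
      fun p => RatFunc.algEquivOfTranscendental_algebraMap x hx p : RatFunc K ≃ₐ[K[X]] K⟮x⟯)

theorem polyAlgebraAdjoin_X (x : F) :
    letI := polyAlgebraAdjoin (K := K) x
    algebraMap K[X] K⟮x⟯ Polynomial.X = AdjoinSimple.gen K x :=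
  aeval_X _

theorem isCurveOver_adjoin {x : F} (hx : Transcendental K x) : IsCurveOver K K⟮x⟯ :=
  letI := polyAlgebraAdjoin (K := K) x
  haveI := isScalarTower_polyAlgebraAdjoin (K := K) x
  haveI := isFractionRing_polyAlgebraAdjoin hx
  isCurveOver_of_isFractionRing_polynomial K K⟮x⟯

theorem existsUnique_place_adjoin_gen_neg {x : F} (hx : Transcendental K x) :
    ∃! v : Place K K⟮x⟯, v.ord (AdjoinSimple.gen K x) < 0 := by
  letI := polyAlgebraAdjoin (K := K) x
  haveI := isScalarTower_polyAlgebraAdjoin (K := K) x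
  haveI := isFractionRing_polyAlgebraAdjoin hx
  rw [← polyAlgebraAdjoin_X x]
  exact existsUnique_place_ord_X_neg

theorem ord_gen_eq_neg_one_and_deg_eq_one {x : F} (hx : Transcendental K x) {v : Place K K⟮x⟯}
    (hv : v.ord (AdjoinSimple.gen K x) < 0) :
    v.ord (AdjoinSimple.gen K x) = -1 ∧ v.deg = 1 := by
  letI := polyAlgebraAdjoin (K := K) x
  haveI := isScalarTower_polyAlgebraAdjoin (K := K) x
  haveI := isFractionRing_polyAlgebraAdjoin hx
  rw [← polyAlgebraAdjoin_X x] at hv ⊢
  exact ⟨ord_X_eq_neg_one v hv, deg_of_ord_X_neg v hv⟩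

/-- An element without poles is integral over any Dedekind model of the subfield. -/
theorem isIntegral_of_forall_ord_nonneg {E : Type*} [Field E] [Algebra K E] [Algebra E F]
    [IsScalarTower K E F] [FiniteDimensional E F] [Algebra.IsSeparable E F]
    (R : Type*) [CommRing R] [IsDedekindDomain R] [Algebra K R] [Algebra R E]
    [IsFractionRing R E] [IsScalarTower K R E] [Algebra R F] [IsScalarTower R E F]
    [IsScalarTower K R F] {f : F} (hf : ∀ v : Place K F, 0 ≤ v.ord f) : IsIntegral R f := by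
  haveI : IsDedekindDomain (integralClosure R F) :=
    IsIntegralClosure.isDedekindDomain R E F _
  haveI : IsFractionRing (integralClosure R F) F :=
    integralClosure.isFractionRing_of_finite_extension E F
  have h : f ∈ (algebraMap (integralClosure R F) F).range := by
    refine HeightOneSpectrum.mem_integers_of_valuation_le_one F f fun w => ?_
    have hw := hf (Place.ofHeightOneSpectrum (K := K) (F := F) w)
    rcases eq_or_ne f 0 with rfl | hf0
    · simp
    rw [← mem_iff_ord_nonneg _ hf0, Place.ofHeightOneSpectrum_toValuationSubring,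
      Valuation.mem_valuationSubring_iff] at hw
    exact hw
  obtain ⟨b, rfl⟩ := h
  exact b.2

/-- An element without poles on `F`, finite separable over `K⟮x⟯`, is algebraic over `K`. -/
theorem isAlgebraic_of_forall_ord_nonneg_of_separable {x : F} (hx : Transcendental K x)
    [FiniteDimensional K⟮x⟯ F] [Algebra.IsSeparable K⟮x⟯ F]
    {f : F} (hf : ∀ v : Place K F, 0 ≤ v.ord f) : IsAlgebraic K f := by
  letI := polyAlgebraAdjoin (K := K) x
  haveI := isScalarTower_polyAlgebraAdjoin (K := K) x
  haveI := isFractionRing_polyAlgebraAdjoin hx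
  letI : Algebra K[X] F := ((algebraMap K⟮x⟯ F).comp (algebraMap K[X] K⟮x⟯)).toAlgebra
  haveI : IsScalarTower K[X] K⟮x⟯ F := IsScalarTower.of_algebraMap_eq fun _ => rfl
  haveI : IsScalarTower K K[X] F := IsScalarTower.of_algebraMap_eq fun a => by
    rw [IsScalarTower.algebraMap_apply K K⟮x⟯ F, IsScalarTower.algebraMap_apply K K[X] K⟮x⟯]
    rfl
  obtain ⟨vi, hvi, -⟩ := existsUnique_place_ord_X_neg (K := K) (F := K⟮x⟯)
  let O := vi.toValuationSubring
  letI : Algebra O F := ((algebraMap K⟮x⟯ F).comp (algebraMap O K⟮x⟯)).toAlgebra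
  haveI : IsScalarTower O K⟮x⟯ F := IsScalarTower.of_algebraMap_eq fun _ => rfl
  haveI : IsScalarTower K O F := IsScalarTower.of_algebraMap_eq fun a => by
    rw [IsScalarTower.algebraMap_apply K K⟮x⟯ F, IsScalarTower.algebraMap_apply K O K⟮x⟯]
    rfl
  have hi₁ : IsIntegral K[X] f := isIntegral_of_forall_ord_nonneg (E := K⟮x⟯) K[X] hf
  have hi₂ : IsIntegral O f := isIntegral_of_forall_ord_nonneg (E := K⟮x⟯) O hf
  have hlift : minpoly K⟮x⟯ f ∈ Polynomial.lifts (algebraMap K K⟮x⟯) := by
    rw [Polynomial.lifts_iff_coeff_lifts]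
    intro i
    have h₁ : (minpoly K⟮x⟯ f).coeff i = algebraMap K[X] K⟮x⟯ ((minpoly K[X] f).coeff i) := by
      rw [minpoly.isIntegrallyClosed_eq_field_fractions' K⟮x⟯ hi₁, Polynomial.coeff_map]
    have h₂ : (minpoly K⟮x⟯ f).coeff i = algebraMap O K⟮x⟯ ((minpoly O f).coeff i) := by
      rw [minpoly.isIntegrallyClosed_eq_field_fractions' K⟮x⟯ hi₂, Polynomial.coeff_map]
    have h₃ : 0 ≤ vi.ord ((minpoly K⟮x⟯ f).coeff i) :=
      ord_nonneg_of_mem vi (by rw [h₂]; exact ((minpoly O f).coeff i).2)
    rw [h₁, ord_of_ord_X_neg vi hvi] at h₃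
    refine ⟨((minpoly K[X] f).coeff i).coeff 0, ?_⟩
    rw [h₁]
    conv_rhs => rw [Polynomial.eq_C_of_natDegree_eq_zero (p := (minpoly K[X] f).coeff i) (by omega)]
    rw [algebraMap_C_eq]
  obtain ⟨q, hq⟩ := hlift
  refine ⟨q, fun h0 => minpoly.ne_zero (IsIntegral.of_finite K⟮x⟯ f) ?_, ?_⟩
  · rw [← hq, h0, map_zero]
  · have := minpoly.aeval K⟮x⟯ f
    rwa [← hq, Polynomial.coe_mapRingHom, Polynomial.aeval_map_algebraMap] at this

end FLTA.Curves

end
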