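import Fermat.Prelude.Def_AlgebraicCurve_Correspondence
import Fermat.Agent.Curves.BasicExt
import Fermat.Agent.Curves.BasicAdjoin
import Mathlib.FieldTheory.Separable
import Mathlib.NumberTheory.FunctionField
import Mathlib.RingTheory.Etale.Field

/-!
# Curves: separably generated function fields of one variable

`IsSepFunctionField K F`: `F` is finite separable over `K(x)` for some transcendental `x`.
Consequences: `IsCurveOver`, and the `Along` inputs for maps of function fields.
-/

set_option autoImplicit false
set_option linter.style.haveILetI false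

noncomputable section

open IsDedekindDomain AlgebraicCurve IntermediateField KaehlerDifferential

namespace FLTA.Curves

/-- `F` is a separably generated algebraic function field of one variable over `K`. -/
class IsSepFunctionField (K F : Type*) [Field K] [Field F] [Algebra K F] : Prop where
  exists_separating : ∃ x : F, Transcendental K x ∧ Module.Finite K⟮x⟯ F ∧
    Algebra.IsSeparable K⟮x⟯ F

variable {K F : Type*} [Field K] [Field F] [Algebra K F]

theorem kaehler_free_rank_one [IsSepFunctionField K F] :
    Module.Free F Ω[F⁄K] ∧ Module.finrank F Ω[F⁄K] = 1 := by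
  obtain ⟨x, hx, hfin, hsep⟩ := IsSepFunctionField.exists_separating (K := K) (F := F)
  letI := polyAlgebraAdjoin (K := K) x
  haveI := isScalarTower_polyAlgebraAdjoin (K := K) x
  haveI := isFractionRing_polyAlgebraAdjoin hx
  letI : Algebra (Polynomial K) F :=
    ((algebraMap K⟮x⟯ F).comp (algebraMap (Polynomial K) K⟮x⟯)).toAlgebra
  haveI : IsScalarTower (Polynomial K) K⟮x⟯ F := IsScalarTower.of_algebraMap_eq fun _ => rfl
  haveI : IsScalarTower K (Polynomial K) F := IsScalarTower.of_algebraMap_eq fun a => by
    rw [IsScalarTower.algebraMap_apply K K⟮x⟯ F,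
      IsScalarTower.algebraMap_apply K (Polynomial K) K⟮x⟯]
    rfl
  haveI : Algebra.FormallyEtale (Polynomial K) K⟮x⟯ :=
    Algebra.FormallyEtale.of_isLocalization (nonZeroDivisors (Polynomial K))
  haveI : Algebra.FormallyEtale K⟮x⟯ F := Algebra.FormallyEtale.of_isSeparable K⟮x⟯ F
  haveI : Algebra.FormallyEtale (Polynomial K) F :=
    Algebra.FormallyEtale.comp (Polynomial K) K⟮x⟯ F
  exact kaehler_of_formallyEtale_polynomial K F

theorem hasPrincipalDivisors_of_isSepFunctionField (K F : Type*) [Field K] [Field F]
    [Algebra K F] [IsSepFunctionField K F] : HasPrincipalDivisors K F := by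
  obtain ⟨x, hx, hfin, hsep⟩ := IsSepFunctionField.exists_separating (K := K) (F := F)
  haveI : HasPrincipalDivisors K K⟮x⟯ := (isCurveOver_adjoin hx).toHasPrincipalDivisors
  exact hasPrincipalDivisors_of_finite_separable (F := K⟮x⟯)

theorem finite_residueField_of_isSepFunctionField [IsSepFunctionField K F] (v : Place K F) :
    Module.Finite K v.ResidueField := by
  obtain ⟨x, hx, hfin, hsep⟩ := IsSepFunctionField.exists_separating (K := K) (F := F)
  haveI := (isCurveOver_adjoin hx).finiteResidue (v.restrict K⟮x⟯)
  exact finite_residueField_of_restrict (F := K⟮x⟯) v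

instance (priority := 100) isCurveOver [IsSepFunctionField K F] : IsCurveOver K F :=
  { hasPrincipalDivisors_of_isSepFunctionField K F with
    finiteResidue := finite_residueField_of_isSepFunctionField
    kaehler_free_rank_one := kaehler_free_rank_one }

/-- An element algebraic over `K` has no zeros and poles; a transcendental one has both. -/
theorem exists_ord_pos_of_transcendental [IsSepFunctionField K F] {f : F}
    (hf : Transcendental K f) : ∃ v : Place K F, 0 < v.ord f := by
  by_contra! hle
  have hf0 : f ≠ 0 := fun h => hf (h ▸ isAlgebraic_zero)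
  obtain ⟨D, hD, hdeg⟩ := HasPrincipalDivisors.exists_divisor (K := K) f hf0
  have hzero : ∀ v : Place K F, v.ord f = 0 := by
    by_contra! hne
    obtain ⟨v, hv⟩ := hne
    have hlt : v.ord f < 0 := lt_of_le_of_ne (hle v) hv
    have hdeg' : Divisor.degree D < 0 := by
      rw [← D.sum_single, Finsupp.sum, map_sum]
      refine Finset.sum_neg (fun w hw => ?_)
        ⟨v, by rw [Finsupp.mem_support_iff, hD]; exact hv⟩
      rw [Divisor.degree_single, hD]
      have hpos : 0 < w.deg := by
        haveI := finite_residueField_of_isSepFunctionField (K := K) w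
        exact Module.finrank_pos
      refine mul_neg_of_neg_of_pos (lt_of_le_of_ne (hle w) ?_) (by exact_mod_cast hpos)
      rw [Finsupp.mem_support_iff, hD] at hw
      exact hw
    omega
  obtain ⟨x, hx, hfin, hsep⟩ := IsSepFunctionField.exists_separating (K := K) (F := F)
  exact hf (isAlgebraic_of_forall_ord_nonneg_of_separable hx fun v => (hzero v).ge)

theorem ord_eq_zero_of_isAlgebraic {f : F} (hf : IsAlgebraic K f) (v : Place K F) :
    v.ord f = 0 := by
  have key : ∀ g : F, IsAlgebraic K g → ¬ 0 < v.ord g := by
    intro g hg hpos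
    have hg0 : g ≠ 0 := by rintro rfl; simp at hpos
    have hgi : IsIntegral K g := hg.isIntegral
    have hc0 : (minpoly K g).coeff 0 ≠ 0 := minpoly.coeff_zero_ne_zero hgi hg0
    have h := sum_ne_zero_and_ord_sum_eq v (Finset.range ((minpoly K g).natDegree + 1))
      (fun i => algebraMap K F ((minpoly K g).coeff i) * g ^ i) (i₀ := 0) (by simp)
      (by simpa using hc0) (fun i _ hne => ?_)
    · refine h.1 ?_
      have := minpoly.aeval K g
      rw [Polynomial.aeval_eq_sum_range] at this
      simpa only [Algebra.smul_def] using this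
    · rcases eq_or_ne ((minpoly K g).coeff i) 0 with h0 | h0
      · exact Or.inl (by simp [h0])
      · refine Or.inr ?_
        rw [pow_zero, mul_one, v.ord_mul (by simpa using h0) (pow_ne_zero _ hg0),
          ord_algebraMap, ord_algebraMap, ord_pow, zero_add]
        have : (0 : ℤ) < i := by exact_mod_cast Nat.pos_of_ne_zero hne
        positivity
  have h1 := key f hf
  have h2 := key f⁻¹ hf.inv
  rw [v.ord_inv] at h2
  omega

theorem finite_adjoin_of_transcendental [IsSepFunctionField K F] {z : F}
    (hz : Transcendental K z) : Module.Finite K⟮z⟯ F := by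
  obtain ⟨x, hx, hfin, hsep⟩ := IsSepFunctionField.exists_separating (K := K) (F := F)
  letI : Algebra (RatFunc K) F :=
    ((algebraMap K⟮x⟯ F).comp (RatFunc.algEquivOfTranscendental x hx).toRingHom).toAlgebra
  haveI : IsScalarTower K (RatFunc K) F := IsScalarTower.of_algebraMap_eq fun a =>
    ((congrArg (algebraMap K⟮x⟯ F) ((RatFunc.algEquivOfTranscendental x hx).commutes a)).trans
      (IsScalarTower.algebraMap_apply K K⟮x⟯ F a).symm).symm
  haveI : FunctionField K F := by
    obtain ⟨s, hs⟩ := hfin.fg_top
    refine ⟨⟨s, ?_⟩⟩
    rw [eq_top_iff]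
    intro z _
    have hz : z ∈ Submodule.span K⟮x⟯ (s : Set F) := hs ▸ Submodule.mem_top
    induction hz using Submodule.span_induction with
    | mem y hy => exact Submodule.subset_span hy
    | zero => exact zero_mem _
    | add a b _ _ ha hb => exact add_mem (ha trivial) (hb trivial)
    | smul c a _ ha =>
      obtain ⟨r, rfl⟩ := (RatFunc.algEquivOfTranscendental x hx).surjective c
      exact Submodule.smul_mem _ r (ha trivial)
  exact FunctionField.finiteDimensional_of_adjoin_transcendental hz

/-- Without poles there are only constants. -/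
theorem isAlgebraic_of_forall_ord_nonneg [IsSepFunctionField K F] {f : F}
    (hf : ∀ v : Place K F, 0 ≤ v.ord f) : IsAlgebraic K f := by
  obtain ⟨x, hx, hfin, hsep⟩ := IsSepFunctionField.exists_separating (K := K) (F := F)
  exact isAlgebraic_of_forall_ord_nonneg_of_separable hx hf

theorem mem_range_algebraMap_of_forall_ord_nonneg [IsAlgClosed K] [IsSepFunctionField K F]
    {f : F} (hf : ∀ v : Place K F, 0 ≤ v.ord f) : f ∈ Set.range (algebraMap K F) := by
  have h := (isAlgebraic_of_forall_ord_nonneg (K := K) hf).isIntegral
  exact minpoly.mem_range_of_degree_eq_one K f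
    (IsAlgClosed.degree_eq_one_of_irreducible K (minpoly.irreducible h))

/-- The degree of the polar divisor of a separating element is the degree of the extension. -/
theorem degree_polarDivisor [IsSepFunctionField K F] {f : F} (hf : Transcendental K f)
    [Algebra.IsSeparable K⟮f⟯ F] {D : Divisor K F}
    (hD : ∀ v : Place K F, D v = max (-v.ord f) 0) :
    Divisor.degree D = (Module.finrank K⟮f⟯ F : ℤ) := by
  haveI : Module.Finite K⟮f⟯ F := finite_adjoin_of_transcendental hf
  haveI : HasPrincipalDivisors K F := hasPrincipalDivisors_of_isSepFunctionField K F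
  obtain ⟨vi, hvi, huniq⟩ := existsUnique_place_adjoin_gen_neg hf
  obtain ⟨h1, hdeg⟩ := ord_gen_eq_neg_one_and_deg_eq_one hf hvi
  have hgen : algebraMap K⟮f⟯ F (AdjoinSimple.gen K f) = f := AdjoinSimple.algebraMap_gen K f
  have hDeq : D = Divisor.pullback F (Finsupp.single vi 1) := by
    ext w
    rw [hD, Divisor.pullback_apply]
    have hr := w.ord_restrict (F := K⟮f⟯) (AdjoinSimple.gen K f)
    rw [hgen] at hr
    rcases eq_or_ne (w.restrict K⟮f⟯) vi with hw | hw
    · rw [hw, Finsupp.single_eq_same, hr, hw, h1, mul_neg_one, neg_neg, mul_one,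
        max_eq_left (Int.natCast_nonneg _)]
    · rw [Finsupp.single_eq_of_ne hw, mul_zero, hr, max_eq_right]
      rw [neg_nonpos]
      refine mul_nonneg (Int.natCast_nonneg _) (not_lt.mp fun hneg => hw (huniq _ hneg))
  rw [hDeq, Divisor.degree_pullback, Divisor.degree_single, hdeg]
  simp

variable {F' : Type*} [Field F'] [Algebra K F']

theorem finiteAlong [IsSepFunctionField K F] [IsSepFunctionField K F'] (φ : F →ₐ[K] F') :
    FiniteAlong K φ := by
  obtain ⟨x, hx, -, -⟩ := IsSepFunctionField.exists_separating (K := K) (F := F)
  have hx' : Transcendental K (φ x) := by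
    intro h
    exact hx ((isAlgebraic_algHom_iff φ φ.toRingHom.injective).mp h)
  have hfin : Module.Finite K⟮φ x⟯ F' := finite_adjoin_of_transcendental hx'
  have hle : K⟮φ x⟯ ≤ φ.fieldRange := by
    rw [IntermediateField.adjoin_simple_le_iff]
    exact ⟨x, rfl⟩
  letI := algebraAlong φ
  show Module.Finite F F'
  obtain ⟨s, hs⟩ := hfin.fg_top
  refine ⟨⟨s, ?_⟩⟩
  rw [eq_top_iff]
  intro z _
  have hz : z ∈ Submodule.span K⟮φ x⟯ (s : Set F') := hs ▸ Submodule.mem_top
  induction hz using Submodule.span_induction with
  | mem y hy => exact Submodule.subset_span hy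
  | zero => exact zero_mem _
  | add a b _ _ ha hb => exact add_mem (ha trivial) (hb trivial)
  | smul c a _ ha =>
    obtain ⟨r, hr⟩ := hle c.2
    have : c • a = r • a := by
      show (c : F') * a = φ r * a
      rw [← hr]
      rfl
    rw [this]
    exact Submodule.smul_mem _ r (ha trivial)

theorem isIntegral_of_algHom [IsSepFunctionField K F] [IsSepFunctionField K F']
    (φ : F →ₐ[K] F') : φ.toRingHom.IsIntegral := by
  letI := algebraAlong φ
  haveI : Module.Finite F F' := finiteAlong φ
  exact Algebra.IsIntegral.isIntegral

theorem separableAlong_of_charZero [CharZero K] [IsSepFunctionField K F]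
    [IsSepFunctionField K F'] (φ : F →ₐ[K] F') : SeparableAlong K φ := by
  letI := algebraAlong φ
  haveI : Module.Finite F F' := finiteAlong φ
  haveI : CharZero F := charZero_of_injective_algebraMap (algebraMap K F).injective
  show Algebra.IsSeparable F F'
  infer_instance

theorem fundamentalIdentityAlong [HasPrincipalDivisors K F'] (φ : F →ₐ[K] F')
    (hφ : φ.toRingHom.IsIntegral) (hfin : FiniteAlong K φ) (hsep : SeparableAlong K φ) :
    FundamentalIdentityAlong K φ hφ := by
  letI := algebraAlong φ
  haveI := isScalarTower_along φ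
  haveI : Module.Finite F F' := hfin
  haveI : Algebra.IsSeparable F F' := hsep
  exact (inferInstance : FundamentalIdentity K F F')

theorem normFormulaAlong (φ : F →ₐ[K] F') (hfin : FiniteAlong K φ) (hsep : SeparableAlong K φ) :
    NormFormulaAlong K φ hfin := by
  letI := algebraAlong φ
  haveI := isScalarTower_along φ
  haveI : Module.Finite F F' := hfin
  haveI : Algebra.IsSeparable F F' := hsep
  exact pushforwardNormFormula

theorem sum_ramificationIndexAlong_mul_inertiaDegAlong [HasPrincipalDivisors K F']
    (φ : F →ₐ[K] F') (hφ : φ.toRingHom.IsIntegral) (hfin : FiniteAlong K φ)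
    (hsep : SeparableAlong K φ) (v : Place K F) :
    ∑ w ∈ Place.fiberAlong φ hφ v,
      (w.ramificationIndexAlong φ : ℤ) * (w.inertiaDegAlong φ hφ : ℤ) =
        (finrankAlong K φ : ℤ) := by
  letI := algebraAlong φ
  haveI := isScalarTower_along φ
  haveI : Module.Finite F F' := hfin
  haveI : Algebra.IsSeparable F F' := hsep
  exact sum_ramificationIndex_mul_inertiaDeg v

end FLTA.Curves

end
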