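import Fermat.Agent.Curves.RRSpace
import Fermat.Agent.Curves.BasicCurve

/-! # Separably generated function fields satisfy the Riemann-Roch hypotheses -/

set_option autoImplicit false

noncomputable section

namespace FLTA.Curves

/-- A separably generated function field is a function field in the sense used for
Riemann-Roch. -/
instance (priority := 100) isFunctionField_of_isSepFunctionField (K F : Type*) [Field K] [Field F]
    [Algebra K F] [h : IsSepFunctionField K F] : IsFunctionField K F := by
  obtain ⟨x, hx, hfin, -⟩ := h.exists_separating
  obtain ⟨v, -⟩ := exists_ord_pos_of_transcendental (K := K) hx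
  exact ⟨⟨v⟩, x, hx, hfin⟩

end FLTA.Curves
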