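import Fermat.Agent.Curves.RRGenus
import Mathlib.LinearAlgebra.Dual.Lemmas
import Mathlib.LinearAlgebra.FiniteDimensional.Lemmas
import Mathlib.Data.Finsupp.Order
import Mathlib.Data.Int.LeastGreatest

/-! # Duality: `h1(D) = l(W - D)` and the vanishing for `deg D > 2g - 2`

Weil differentials are the functionals on repartitions killing `F` and some `A(D)`; they form a
one dimensional `F`-space, and every nonzero one has a largest divisor `W`. -/

set_option autoImplicit false

noncomputable section

open AlgebraicCurve Module WithZero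

namespace FLTA.Curves

variable {K F : Type*} [Field K] [Field F] [Algebra K F]

/-- Weil differentials attached to `D`. -/
def weilDiff (D : Divisor K F) : Submodule K (Dual K ↥(repartitions K F)) :=
  (repartitionsOf D ⊔ principalRepartitions K F).dualAnnihilator

/-- Multiplication of a Weil differential by a function. -/
def weilTwist (ω : Dual K ↥(repartitions K F)) : F →ₗ[K] Dual K ↥(repartitions K F) where
  toFun f := ω.comp (LinearMap.mulLeft K (algebraMap F ↥(repartitions K F) f))
  map_add' f g := LinearMap.ext fun α => by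
    simp [map_add, add_mul]
  map_smul' c f := LinearMap.ext fun α => by
    have h : algebraMap F ↥(repartitions K F) (c • f)
        = c • algebraMap F ↥(repartitions K F) f := by
      rw [Algebra.algebraMap_eq_smul_one, Algebra.algebraMap_eq_smul_one, smul_assoc]
    simp only [LinearMap.comp_apply, LinearMap.mulLeft_apply, RingHom.id_apply,
      LinearMap.smul_apply, h, smul_mul_assoc, map_smul]

theorem weilTwist_apply (ω : Dual K ↥(repartitions K F)) (f : F) (α : ↥(repartitions K F)) :
    weilTwist ω f α = ω (algebraMap F ↥(repartitions K F) f * α) := rfl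

theorem weilTwist_one (ω : Dual K ↥(repartitions K F)) : weilTwist ω 1 = ω :=
  LinearMap.ext fun α => by simp [weilTwist_apply]

theorem weilTwist_weilTwist (ω : Dual K ↥(repartitions K F)) (f g : F) :
    weilTwist (weilTwist ω f) g = weilTwist ω (f * g) :=
  LinearMap.ext fun α => by simp [weilTwist_apply, map_mul, mul_assoc]

theorem weilTwist_ne_zero {ω : Dual K ↥(repartitions K F)} (hω : ω ≠ 0) {f : F} (hf : f ≠ 0) :
    weilTwist ω f ≠ 0 := by
  intro h
  apply hω
  rw [← weilTwist_one ω, ← mul_inv_cancel₀ hf, ← weilTwist_weilTwist, h]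
  exact LinearMap.ext fun α => rfl

theorem weilTwist_injective {ω : Dual K ↥(repartitions K F)} (hω : ω ≠ 0) :
    Function.Injective (weilTwist ω) :=
  (injective_iff_map_eq_zero _).2 fun f hf => by
    by_contra h
    exact weilTwist_ne_zero hω h hf

theorem weilTwist_mem {ω : Dual K ↥(repartitions K F)} {D D' : Divisor K F} (hω : ω ∈ weilDiff D)
    {f : F} (hf : f ∈ riemannRochSpace (D - D')) : weilTwist ω f ∈ weilDiff D' := by
  rw [weilDiff, Submodule.mem_dualAnnihilator] at hω ⊢
  intro x hx
  obtain ⟨α, hα, β, hβ, rfl⟩ := Submodule.mem_sup.1 hx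
  have hα' : algebraMap F ↥(repartitions K F) f * α ∈ repartitionsOf D := fun v => by
    show v.adicValuation (f * (α : Place K F → F) v) ≤ exp (D v)
    have h := mul_le_mul' (hf v) (hα v)
    rw [← exp_add, Finsupp.sub_apply, sub_add_cancel] at h
    rwa [map_mul]
  have hβ' : algebraMap F ↥(repartitions K F) f * β ∈ principalRepartitions K F := by
    rw [mem_principalRepartitions_iff] at hβ ⊢
    obtain ⟨b, hb⟩ := hβ
    exact ⟨f * b, funext fun v => by
      show f * (β : Place K F → F) v = f * b
      rw [hb]⟩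
  rw [map_add, weilTwist_apply, weilTwist_apply, hω _ (Submodule.mem_sup_left hα'),
    hω _ (Submodule.mem_sup_right hβ'), add_zero]

theorem mem_weilDiff_sup {ω : Dual K ↥(repartitions K F)} {D D' : Divisor K F}
    (h : ω ∈ weilDiff D) (h' : ω ∈ weilDiff D') : ω ∈ weilDiff (D ⊔ D') := by
  classical
  rw [weilDiff, Submodule.mem_dualAnnihilator] at h h' ⊢
  intro x hx
  obtain ⟨α, hα, β, hβ, rfl⟩ := Submodule.mem_sup.1 hx
  rw [map_add, h β (Submodule.mem_sup_right hβ), add_zero]
  let a : Place K F → F := fun v => if D' v ≤ D v then (α : Place K F → F) v else 0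
  have ha : ∀ v, v.adicValuation (a v) ≤ exp (D v) := fun v => by
    simp only [a]
    split_ifs with hle
    · have := hα v
      rwa [Finsupp.sup_apply, sup_eq_left.2 hle] at this
    · simp
  let a' : ↥(repartitions K F) := ⟨a, mem_repartitions_of_forall_le_exp D a ha⟩
  have hb : α - a' ∈ repartitionsOf D' := fun v => by
    show v.adicValuation ((α : Place K F → F) v - a v) ≤ exp (D' v)
    simp only [a]
    split_ifs with hle
    · simp
    · have := hα v
      rw [Finsupp.sup_apply, sup_eq_right.2 (le_of_not_ge hle)] at this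
      rwa [sub_zero]
  calc ω α = ω a' + ω (α - a') := by simp
    _ = 0 := by
      rw [h a' (Submodule.mem_sup_left ha), h' _ (Submodule.mem_sup_left hb), add_zero]

theorem finrank_weilDiff (D : Divisor K F) [FiniteDimensional K (H1 D)] :
    finrank K (weilDiff D) = finrank K (H1 D) := by
  rw [weilDiff, ← (Submodule.dualQuotEquivDualAnnihilator _).finrank_eq,
    Subspace.dual_finrank_eq]

theorem finiteDimensional_weilDiff (D : Divisor K F) [FiniteDimensional K (H1 D)] :
    FiniteDimensional K (weilDiff D) :=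
  Module.Finite.equiv
    (Submodule.dualQuotEquivDualAnnihilator (repartitionsOf D ⊔ principalRepartitions K F))

theorem exists_weilDiff_ne_zero {D : Divisor K F} [FiniteDimensional K (H1 D)]
    (h : finrank K (H1 D) ≠ 0) : ∃ ω ∈ weilDiff D, ω ≠ 0 := by
  by_contra! h'
  apply h
  rw [← finrank_weilDiff, (Submodule.eq_bot_iff _).2 h', finrank_bot]

variable [IsAlgClosed K] [IsCurveOver K F]

theorem eq_zero_of_nonneg_of_degree_nonpos {E : Divisor K F} (h : 0 ≤ E)
    (hd : Divisor.degree E ≤ 0) : E = 0 := by
  have h0 := le_antisymm hd (degree_nonneg h)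
  rw [degree_eq_sum, Finsupp.sum, Finset.sum_eq_zero_iff_of_nonneg fun v _ => Finsupp.le_def.1 h v]
    at h0
  ext v
  by_cases hv : v ∈ E.support
  · simpa using h0 v hv
  · simpa using hv

variable [IsFunctionField K F]

theorem degree_le_of_weilDiff {ω : Dual K ↥(repartitions K F)} (hω : ω ≠ 0) {D : Divisor K F}
    (h : ω ∈ weilDiff D) : Divisor.degree D ≤ 2 * (genusFF K F : ℤ) - 2 := by
  have := finiteDimensional_weilDiff (0 : Divisor K F)
  have := finiteDimensional_weilDiff D
  have hle : (riemannRochSpace D).map (weilTwist ω) ≤ weilDiff 0 := by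
    rintro - ⟨f, hf, rfl⟩
    exact weilTwist_mem h (by simpa using hf)
  have h1 := Submodule.finrank_mono hle
  rw [← (Submodule.equivMapOfInjective _ (weilTwist_injective hω) _).finrank_eq,
    finrank_weilDiff] at h1
  have h2 := riemannRoch D
  have h3 : finrank K (H1 D) ≠ 0 := by
    rw [← finrank_weilDiff]
    intro h0
    rw [Submodule.finrank_eq_zero] at h0
    rw [h0, Submodule.mem_bot] at h
    exact hω h
  rw [ell] at h2
  change _ ≤ genusFF K F at h1
  omega

/-- Weil differentials form a one dimensional `F`-space. -/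
theorem exists_eq_weilTwist {ω η : Dual K ↥(repartitions K F)} {D E : Divisor K F} (hω : ω ≠ 0)
    (hωD : ω ∈ weilDiff D) (hηE : η ∈ weilDiff E) : ∃ f : F, η = weilTwist ω f := by
  by_cases hη : η = 0
  · exact ⟨0, by simp [hη]⟩
  obtain ⟨P⟩ := IsFunctionField.exists_place (K := K) (F := F)
  obtain ⟨n, hn0, hn⟩ : ∃ n : ℤ, 0 < n ∧
      3 * (genusFF K F : ℤ) - 3 - Divisor.degree D - Divisor.degree E < n :=
    ⟨|3 * (genusFF K F : ℤ) - 3 - Divisor.degree D - Divisor.degree E| + 1, by positivity,
      lt_of_le_of_lt (le_abs_self _) (lt_add_one _)⟩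
  set T : Divisor K F := -Finsupp.single P n with hT
  have hdegT : Divisor.degree T = -n := by
    rw [hT, map_neg, Divisor.degree_single, IsCurveOver.deg_eq_one_of_isAlgClosed P]
    simp
  have := finiteDimensional_weilDiff T
  have hTrr := riemannRoch T
  rw [ell_eq_zero_of_degree_neg (by omega), ← finrank_weilDiff T] at hTrr
  set U := (riemannRochSpace (D - T)).map (weilTwist ω)
  set V := (riemannRochSpace (E - T)).map (weilTwist η)
  have hUV : U ⊔ V ≤ weilDiff T := sup_le
    (by rintro - ⟨f, hf, rfl⟩; exact weilTwist_mem hωD hf)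
    (by rintro - ⟨f, hf, rfl⟩; exact weilTwist_mem hηE hf)
  have hU : finrank K U = ell (D - T) :=
    ((Submodule.equivMapOfInjective _ (weilTwist_injective hω) _).finrank_eq).symm
  have hV : finrank K V = ell (E - T) :=
    ((Submodule.equivMapOfInjective _ (weilTwist_injective hη) _).finrank_eq).symm
  have h1 := Submodule.finrank_sup_add_finrank_inf_eq U V
  have h2 := Submodule.finrank_mono hUV
  have h3 := riemann_inequality (D - T)
  have h4 := riemann_inequality (E - T)
  have h5 : Divisor.degree (D - T) = Divisor.degree D + n := by rw [map_sub, hdegT]; ring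
  have h6 : Divisor.degree (E - T) = Divisor.degree E + n := by rw [map_sub, hdegT]; ring
  have hne : U ⊓ V ≠ ⊥ := by
    intro h0
    rw [h0, finrank_bot] at h1
    omega
  obtain ⟨ζ, ⟨⟨a, -, rfl⟩, ⟨b, -, hb⟩⟩, hζ⟩ := Submodule.exists_mem_ne_zero_of_ne_bot hne
  have hb0 : b ≠ 0 := by
    rintro rfl
    exact hζ (by rw [← hb, map_zero])
  refine ⟨a * b⁻¹, ?_⟩
  rw [← weilTwist_weilTwist, ← hb, weilTwist_weilTwist, mul_inv_cancel₀ hb0, weilTwist_one]

/-- A nonzero Weil differential has a largest divisor. -/
theorem exists_greatest_weilDiff {ω : Dual K ↥(repartitions K F)} (hω : ω ≠ 0) {D₀ : Divisor K F}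
    (h : ω ∈ weilDiff D₀) :
    ∃ W : Divisor K F, ω ∈ weilDiff W ∧ ∀ D, ω ∈ weilDiff D → D ≤ W := by
  obtain ⟨d, ⟨W, hW, rfl⟩, hmax⟩ := Int.exists_greatest_of_bdd
    (P := fun d => ∃ D, ω ∈ weilDiff D ∧ Divisor.degree D = d)
    ⟨2 * (genusFF K F : ℤ) - 2, by
      rintro d ⟨D, hD, rfl⟩; exact degree_le_of_weilDiff hω hD⟩
    ⟨_, D₀, h, rfl⟩
  refine ⟨W, hW, fun D hD => ?_⟩
  have hle : (W : Divisor K F) ≤ D ⊔ W := le_sup_right
  have hdeg := hmax _ ⟨_, mem_weilDiff_sup hD hW, rfl⟩
  have heq := eq_zero_of_nonneg_of_degree_nonpos (E := D ⊔ W - W) (sub_nonneg.2 hle)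
    (by rw [map_sub]; omega)
  calc D ≤ D ⊔ W := le_sup_left
    _ = W := sub_eq_zero.1 heq

theorem exists_canonical :
    ∃ W : Divisor K F, Divisor.degree W = 2 * (genusFF K F : ℤ) - 2 ∧
      ∀ D : Divisor K F, Module.finrank K (H1 D) = ell (W - D) := by
  obtain ⟨P⟩ := IsFunctionField.exists_place (K := K) (F := F)
  obtain ⟨ω, hωT, hω⟩ : ∃ ω ∈ weilDiff (-Finsupp.single P 2 : Divisor K F), ω ≠ 0 := by
    refine exists_weilDiff_ne_zero ?_
    have h := riemannRoch (-Finsupp.single P 2 : Divisor K F)
    have hd : Divisor.degree (-Finsupp.single P 2 : Divisor K F) = -2 := by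
      rw [map_neg, Divisor.degree_single, IsCurveOver.deg_eq_one_of_isAlgClosed P]
      simp
    rw [ell_eq_zero_of_degree_neg (by omega)] at h
    omega
  obtain ⟨W, hW, hmax⟩ := exists_greatest_weilDiff hω hωT
  have hdual : ∀ D : Divisor K F, finrank K (H1 D) = ell (W - D) := fun D => by
    rw [← finrank_weilDiff]
    have hmap : (riemannRochSpace (W - D)).map (weilTwist ω) = weilDiff D := by
      refine le_antisymm (by rintro - ⟨f, hf, rfl⟩; exact weilTwist_mem hW hf) fun η hη => ?_
      obtain ⟨f, rfl⟩ := exists_eq_weilTwist hω hW hη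
      by_cases hf : f = 0
      · exact ⟨0, zero_mem _, by rw [hf]⟩
      refine ⟨f, ?_, rfl⟩
      have hle : D - divFn f ≤ W := by
        refine hmax _ ?_
        have hmem : f⁻¹ ∈ riemannRochSpace (D - (D - divFn f)) := by
          rw [sub_sub_cancel, mem_riemannRochSpace_iff]
          intro v
          exact Or.inr (by rw [Place.ord_inv, divFn_apply])
        simpa [weilTwist_weilTwist, mul_inv_cancel₀ hf, weilTwist_one]
          using weilTwist_mem hη hmem
      refine mem_riemannRochSpace_iff.2 fun v => Or.inr ?_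
      have hv := Finsupp.le_def.1 hle v
      rw [Finsupp.sub_apply, divFn_apply] at hv
      rw [Finsupp.sub_apply]
      omega
    rw [← hmap]
    exact ((Submodule.equivMapOfInjective _ (weilTwist_injective hω) _).finrank_eq).symm
  refine ⟨W, ?_, hdual⟩
  have h0 := hdual 0
  have hWW := hdual W
  rw [sub_zero] at h0
  rw [sub_self, ell_zero] at hWW
  have hrr := riemannRoch W
  change genusFF K F = ell W at h0
  omega

theorem finrank_H1_eq_zero_of_two_mul_genusFF_sub_two_lt {D : Divisor K F}
    (h : 2 * (genusFF K F : ℤ) - 2 < Divisor.degree D) : Module.finrank K (H1 D) = 0 := by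
  obtain ⟨W, hW, hd⟩ := exists_canonical (K := K) (F := F)
  rw [hd]
  exact ell_eq_zero_of_degree_neg (by rw [map_sub]; omega)

theorem ell_eq_of_two_mul_genusFF_sub_two_lt {D : Divisor K F}
    (h : 2 * (genusFF K F : ℤ) - 2 < Divisor.degree D) :
    (ell D : ℤ) = Divisor.degree D + 1 - genusFF K F := by
  have := riemannRoch D
  rw [finrank_H1_eq_zero_of_two_mul_genusFF_sub_two_lt h] at this
  simpa using this

end FLTA.Curves
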