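import Fermat.Agent.Curves.RRDuality
import Mathlib.LinearAlgebra.FiniteDimensional.Lemmas
import Mathlib.Algebra.Module.Submodule.Union
import Mathlib.Algebra.Algebra.Operations

/-! # Base point freeness, multiplication of sections, colon property -/

set_option autoImplicit false

noncomputable section

open AlgebraicCurve Module WithZero

namespace FLTA.Curves

variable {K F : Type*} [Field K] [Field F] [Algebra K F]

local notation "L" => riemannRochSpace

theorem riemannRochSpace_mul_le (D E : Divisor K F) : L D * L E ≤ L (D + E) :=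
  Submodule.mul_le.2 fun _ hf _ hg => mul_mem_riemannRochSpace hf hg

section General

theorem ord_eq_of_notMem_sub_single {D : Divisor K F} {v : Place K F} {f : F}
    (hf : f ∈ L D) (hf' : f ∉ L (D - Finsupp.single v 1)) : f ≠ 0 ∧ v.ord f = -D v := by
  classical
  rw [mem_riemannRochSpace_iff] at hf hf'
  push Not at hf'
  obtain ⟨w, hw0, hw⟩ := hf'
  have hle := (hf w).resolve_left hw0
  by_cases hwv : v = w
  · subst hwv
    refine ⟨hw0, ?_⟩
    rw [Finsupp.sub_apply, Finsupp.single_eq_same] at hw
    omega
  · rw [Finsupp.sub_apply, Finsupp.single_eq_of_ne (Ne.symm hwv)] at hw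
    omega

theorem notMem_sub_single {D : Divisor K F} {v : Place K F} {f : F}
    (hf0 : f ≠ 0) (hf : v.ord f = -D v) : f ∉ L (D - Finsupp.single v 1) := by
  intro h
  have := (mem_riemannRochSpace_iff.1 h v).resolve_left hf0
  rw [Finsupp.sub_apply, Finsupp.single_eq_same] at this
  omega

variable (g : ℤ)
  (hfin : ∀ D : Divisor K F, FiniteDimensional K (L D))
  (hdim : ∀ D : Divisor K F, 2 * g - 1 ≤ Divisor.degree D →
    (finrank K (L D) : ℤ) = Divisor.degree D + 1 - g)
  (hdeg : ∀ v : Place K F, v.deg = 1)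

include hfin hdim hdeg in
theorem rrMult_exists_exact {D : Divisor K F} (hD : 2 * g ≤ Divisor.degree D) (v : Place K F) :
    ∃ f : F, f ∈ L D ∧ f ≠ 0 ∧ v.ord f = -D v := by
  classical
  have hd : Divisor.degree (D - Finsupp.single v 1) = Divisor.degree D - 1 := by
    rw [map_sub, Divisor.degree_single, hdeg v]; simp
  have h1 := hdim D (by omega)
  have h2 := hdim (D - Finsupp.single v 1) (by omega)
  by_contra! hcon
  have hle : L D ≤ L (D - Finsupp.single v 1) := fun f hf => by
    by_contra hf'
    obtain ⟨h0, ho⟩ := ord_eq_of_notMem_sub_single hf hf'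
    exact hcon f hf h0 ho
  have := hfin (D - Finsupp.single v 1)
  have := Submodule.finrank_mono hle
  omega

include hfin hdim hdeg in
theorem rrMult_exists_pencil [Infinite K] [HasPrincipalDivisors K F] {D : Divisor K F} (hD : 2 * g ≤ Divisor.degree D)
    (hg : 0 ≤ g) :
    ∃ s t : F, s ∈ L D ∧ t ∈ L D ∧ s ≠ 0 ∧ t ≠ 0 ∧
      ∀ v : Place K F, v.ord s = -D v ∨ v.ord t = -D v := by
  classical
  have := hfin D
  have h1 := hdim D (by omega)
  obtain ⟨s, hs, hs0⟩ : ∃ s ∈ L D, s ≠ 0 := by
    by_contra! h
    have : L D = ⊥ := (Submodule.eq_bot_iff _).2 h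
    rw [this, finrank_bot] at h1
    omega
  obtain ⟨P, hP, -⟩ := HasPrincipalDivisors.exists_divisor (K := K) s hs0
  let T := (P + D).support
  let p : Option T → Submodule K (L D) := fun i => match i with
    | none => ⊥
    | some v => (L (D - Finsupp.single (v : Place K F) 1)).comap (L D).subtype
  have hp : ∀ i, p i ≠ ⊤ := by
    rintro (_ | v) h
    · exact hs0 (by simpa [p] using (SetLike.ext_iff.1 h ⟨s, hs⟩).2 trivial)
    · obtain ⟨f, hf, hf0, hfo⟩ := rrMult_exists_exact g hfin hdim hdeg hD v
      exact notMem_sub_single hf0 hfo ((SetLike.ext_iff.1 h ⟨f, hf⟩).2 trivial)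
  obtain ⟨⟨t, ht⟩, htp⟩ := Submodule.exists_forall_notMem_of_forall_ne_top p hp
  have ht0 : t ≠ 0 := by simpa [p] using htp none
  refine ⟨s, t, hs, ht, hs0, ht0, fun v => ?_⟩
  by_cases hv : v ∈ T
  · exact Or.inr (ord_eq_of_notMem_sub_single ht fun h => htp (some ⟨v, hv⟩) h).2
  · left
    simp only [T, Finsupp.mem_support_iff, not_not, Finsupp.add_apply, hP v] at hv
    omega

include hfin hdim hdeg in
theorem rrMult_pencil [Infinite K] [HasPrincipalDivisors K F] {D E : Divisor K F} (hg : 0 ≤ g)
    (hD : 2 * g ≤ Divisor.degree D) (hDE : Divisor.degree D + 2 * g - 1 ≤ Divisor.degree E) :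
    L D * L E = L (D + E) := by
  obtain ⟨s, t, hs, ht, hs0, ht0, hst⟩ := rrMult_exists_pencil g hfin hdim hdeg hD hg
  have := hfin E
  have := hfin (E - D)
  have := hfin (D + E)
  let Φ : (L E × L E) →ₗ[K] F :=
    LinearMap.coprod ((LinearMap.mulLeft K s).comp (L E).subtype)
      ((LinearMap.mulLeft K t).comp (L E).subtype)
  have happ : ∀ a b, Φ (a, b) = s * (a : F) + t * (b : F) := fun a b => rfl
  have hrange : LinearMap.range Φ ≤ L D * L E := by
    rintro - ⟨⟨a, b⟩, rfl⟩
    rw [happ]
    exact add_mem (Submodule.mul_mem_mul hs a.2) (Submodule.mul_mem_mul ht b.2)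
  have hker : finrank K (LinearMap.ker Φ) ≤ finrank K (L (E - D)) := by
    let ψ : LinearMap.ker Φ →ₗ[K] L (E - D) :=
      LinearMap.codRestrict _
        (((LinearMap.mulRight K t⁻¹).comp (L E).subtype).comp
          ((LinearMap.fst K (L E) (L E)).comp (LinearMap.ker Φ).subtype)) <| by
        rintro ⟨⟨a, b⟩, hab⟩
        rw [LinearMap.mem_ker, happ] at hab
        show (a : F) * t⁻¹ ∈ L (E - D)
        rw [mem_riemannRochSpace_iff]
        intro v
        by_cases ha : (a : F) = 0
        · simp [ha]
        refine Or.inr ?_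
        have hao := (mem_riemannRochSpace_iff.1 a.2 v).resolve_left ha
        have hb : (b : F) ≠ 0 := fun hb => by
          rw [hb, mul_zero, add_zero] at hab
          exact mul_ne_zero hs0 ha hab
        have hbo := (mem_riemannRochSpace_iff.1 b.2 v).resolve_left hb
        rw [Place.ord_mul _ ha (inv_ne_zero ht0), Place.ord_inv, Finsupp.sub_apply]
        rcases hst v with h | h
        · have he : (a : F) * t⁻¹ = -(b : F) * s⁻¹ := by field_simp; linear_combination hab
          have h' := congrArg v.ord he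
          rw [Place.ord_mul _ ha (inv_ne_zero ht0), Place.ord_inv,
            Place.ord_mul _ (neg_ne_zero.2 hb) (inv_ne_zero hs0), Place.ord_inv] at h'
          have hneg : v.ord (-(b : F)) = v.ord (b : F) := by simp [Place.ord, Valuation.map_neg]
          omega
        · omega
    refine LinearMap.finrank_le_finrank_of_injective (f := ψ) ?_
    rw [injective_iff_map_eq_zero]
    rintro ⟨⟨a, b⟩, hab⟩ h
    have ha : (a : F) * t⁻¹ = 0 := congrArg Subtype.val h
    simp [ht0] at ha
    rw [LinearMap.mem_ker, happ, ha] at hab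
    simp [ht0] at hab
    ext <;> simp [ha, hab]
  refine le_antisymm (riemannRochSpace_mul_le D E) (le_trans (le_of_eq ?_) hrange)
  refine (Submodule.eq_of_le_of_finrank_le (hrange.trans (riemannRochSpace_mul_le D E)) ?_).symm
  have hrn := LinearMap.finrank_range_add_finrank_ker Φ
  rw [Module.finrank_prod] at hrn
  have hd : Divisor.degree (E - D) = Divisor.degree E - Divisor.degree D := map_sub _ _ _
  have hd2 : Divisor.degree (D + E) = Divisor.degree D + Divisor.degree E := map_add _ _ _
  have h1 := hdim E (by omega)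
  have h2 := hdim (E - D) (by omega)
  have h3 := hdim (D + E) (by omega)
  omega

include hfin hdim hdeg in
theorem rrMult_main [Infinite K] [HasPrincipalDivisors K F] (hg : 0 ≤ g) {D E : Divisor K F}
    (hD : 2 * g ≤ Divisor.degree D) (hE : 4 * g - 1 ≤ Divisor.degree E)
    (hE' : 2 * g ≤ Divisor.degree E) : L D * L E = L (D + E) := by
  classical
  obtain ⟨n, hn⟩ : ∃ n : ℕ, (n : ℤ) = Divisor.degree D - 2 * g :=
    ⟨_, Int.toNat_of_nonneg (by omega)⟩
  induction n generalizing D with
  | zero => exact rrMult_pencil g hfin hdim hdeg hg hD (by omega)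
  | succ n ih =>
    have hne : D.support.Nonempty := by
      rw [Finsupp.support_nonempty_iff]
      intro h
      rw [h, map_zero] at hn hD
      omega
    obtain ⟨v, -⟩ := hne
    set D' := D - Finsupp.single v 1 with hD'
    have hd : Divisor.degree D' = Divisor.degree D - 1 := by
      rw [hD', map_sub, Divisor.degree_single, hdeg v]; simp
    have ih' := ih (D := D') (by omega) (by omega)
    refine le_antisymm (riemannRochSpace_mul_le D E) ?_
    obtain ⟨a, ha, ha0, hao⟩ := rrMult_exists_exact g hfin hdim hdeg hD v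
    obtain ⟨b, hb, hb0, hbo⟩ := rrMult_exists_exact g hfin hdim hdeg hE' v
    have hmono : L D' ≤ L D := fun f hf w => (hf w).trans (exp_le_exp.2 (by
      rw [hD', Finsupp.sub_apply, Finsupp.single_apply]; split_ifs <;> omega))
    have hle : L (D' + E) ⊔ Submodule.span K {a * b} ≤ L D * L E := by
      refine sup_le (ih' ▸ mul_le_mul' hmono le_rfl) ?_
      rw [Submodule.span_singleton_le_iff_mem]
      exact Submodule.mul_mem_mul ha hb
    refine le_trans (le_of_eq ?_) hle
    have := hfin (D + E)
    have := hfin (D' + E)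
    refine (Submodule.eq_of_le_of_finrank_le (hle.trans (riemannRochSpace_mul_le D E)) ?_).symm
    have hlt : L (D' + E) < L (D' + E) ⊔ Submodule.span K {a * b} := by
      refine lt_of_le_of_ne le_sup_left fun h => ?_
      have hmem : a * b ∈ L (D' + E) := by
        rw [h]; exact Submodule.mem_sup_right (Submodule.mem_span_singleton_self _)
      have hsub : D' + E = D + E - Finsupp.single v 1 := by rw [hD']; abel
      rw [hsub] at hmem
      refine notMem_sub_single (mul_ne_zero ha0 hb0) ?_ hmem
      rw [Place.ord_mul _ ha0 hb0, hao, hbo, Finsupp.add_apply]; ring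
    have h4 := Submodule.finrank_lt_finrank_of_lt hlt
    have hd2 : Divisor.degree (D' + E) = Divisor.degree D' + Divisor.degree E := map_add _ _ _
    have hd3 : Divisor.degree (D + E) = Divisor.degree D + Divisor.degree E := map_add _ _ _
    have h1 := hdim (D' + E) (by omega)
    have h3 := hdim (D + E) (by omega)
    omega

end General

variable [IsAlgClosed K] [IsCurveOver K F] [IsFunctionField K F]

private theorem rrMult_dim (D : Divisor K F)
    (h : 2 * (genusFF K F : ℤ) - 1 ≤ Divisor.degree D) :
    (finrank K (L D) : ℤ) = Divisor.degree D + 1 - genusFF K F :=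
  ell_eq_of_two_mul_genusFF_sub_two_lt (by omega)

/-- Above degree `2g - 1`, every place is attained with exact order. -/
theorem exists_mem_riemannRochSpace_ord_eq {D : Divisor K F}
    (hD : 2 * (genusFF K F : ℤ) ≤ Divisor.degree D) (P : Place K F) :
    ∃ f : F, f ≠ 0 ∧ f ∈ riemannRochSpace D ∧ P.ord f = -D P := by
  obtain ⟨f, hf, hf0, hfo⟩ := rrMult_exists_exact (genusFF K F : ℤ)
    (fun D => inferInstance) rrMult_dim IsCurveOver.deg_eq_one_of_isAlgClosed hD P
  exact ⟨f, hf0, hf, hfo⟩

/-- Two sections of `D` with no common zero. -/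
theorem exists_pencil {D : Divisor K F} (hD : 2 * (genusFF K F : ℤ) ≤ Divisor.degree D) :
    ∃ s t : F, s ∈ L D ∧ t ∈ L D ∧ s ≠ 0 ∧ t ≠ 0 ∧
      ∀ v : Place K F, v.ord s = -D v ∨ v.ord t = -D v :=
  rrMult_exists_pencil (genusFF K F : ℤ) (fun D => inferInstance) rrMult_dim
    IsCurveOver.deg_eq_one_of_isAlgClosed hD (Int.natCast_nonneg _)

/-- Multiplication of sections is surjective (`hE'` matters in genus `0` only). -/
theorem riemannRochSpace_mul_eq {D E : Divisor K F}
    (hD : 2 * (genusFF K F : ℤ) ≤ Divisor.degree D)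
    (hE : 4 * (genusFF K F : ℤ) - 1 ≤ Divisor.degree E)
    (hE' : 2 * (genusFF K F : ℤ) ≤ Divisor.degree E) :
    riemannRochSpace D * riemannRochSpace E = riemannRochSpace (D + E) :=
  rrMult_main (genusFF K F : ℤ) (fun D => inferInstance) rrMult_dim
    IsCurveOver.deg_eq_one_of_isAlgClosed (Int.natCast_nonneg _) hD hE hE'

/-- Colon property. -/
theorem mem_riemannRochSpace_sub_iff {A B : Divisor K F}
    (hA : 2 * (genusFF K F : ℤ) ≤ Divisor.degree A) {f : F} :
    f ∈ riemannRochSpace (B - A) ↔ ∀ a ∈ riemannRochSpace A, f * a ∈ riemannRochSpace B := by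
  refine ⟨fun hf a ha => ?_, fun h => mem_riemannRochSpace_iff.2 fun v => ?_⟩
  · simpa using mul_mem_riemannRochSpace hf ha
  · by_cases hf : f = 0
    · exact Or.inl hf
    obtain ⟨b, hb0, hb, hbo⟩ := exists_mem_riemannRochSpace_ord_eq hA v
    have := (mem_riemannRochSpace_iff.1 (h b hb) v).resolve_left (mul_ne_zero hf hb0)
    rw [Place.ord_mul _ hf hb0] at this
    rw [Finsupp.sub_apply]
    exact Or.inr (by omega)

end FLTA.Curves
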