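import Fermat.Prelude.Def_AlgebraicCurve_Repartitions
import Fermat.Prelude.Def_AlgebraicCurve_IsCurveOver
import Mathlib.FieldTheory.IntermediateField.Adjoin.Basic
import Mathlib.LinearAlgebra.Dimension.Finrank
import Mathlib.RingTheory.Algebraic.Defs
import Mathlib.LinearAlgebra.FiniteDimensional.Basic

/-! # Riemann-Roch spaces of a one variable function field over an algebraically closed field -/

set_option autoImplicit false

noncomputable section

open AlgebraicCurve

namespace FLTA.Curves

variable (K F : Type*) [Field K] [Field F] [Algebra K F]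

/-- `F` is a function field in one variable over `K`: it has a place and is finite over some
purely transcendental subfield `K(x)`. -/
class IsFunctionField : Prop where
  exists_place : Nonempty (Place K F)
  exists_finite : ∃ x : F, Transcendental K x ∧
    FiniteDimensional (IntermediateField.adjoin K {x}) F

variable {K F}

/-- `l(D)`, the dimension of the Riemann-Roch space. -/
def ell (D : Divisor K F) : ℕ := Module.finrank K (riemannRochSpace D)

/-- The divisor of a function. -/
def divFn [HasPrincipalDivisors K F] (f : F) : Divisor K F :=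
  open Classical in
  if h : f = 0 then 0 else (HasPrincipalDivisors.exists_divisor f h).choose

theorem divFn_apply [HasPrincipalDivisors K F] (f : F) (v : Place K F) :
    divFn f v = v.ord f := by
  unfold divFn
  split_ifs with h
  · simp [h]
  · exact (HasPrincipalDivisors.exists_divisor f h).choose_spec.1 v

theorem degree_divFn [HasPrincipalDivisors K F] (f : F) :
    Divisor.degree (divFn (K := K) f) = 0 := by
  unfold divFn
  split_ifs with h
  · simp
  · exact (HasPrincipalDivisors.exists_divisor (K := K) f h).choose_spec.2

theorem mem_riemannRochSpace_iff_add_nonneg [HasPrincipalDivisors K F] {D : Divisor K F} {f : F}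
    (hf : f ≠ 0) : f ∈ riemannRochSpace D ↔ 0 ≤ divFn f + D := by
  rw [mem_riemannRochSpace_iff, Finsupp.le_def]
  refine forall_congr' fun v => ?_
  rw [or_iff_right hf, Finsupp.add_apply, divFn_apply, Finsupp.zero_apply]
  omega

theorem riemannRochSpace_mono {D E : Divisor K F} (h : D ≤ E) :
    riemannRochSpace D ≤ riemannRochSpace E := by
  exact fun f hf v => (hf v).trans (WithZero.exp_le_exp.mpr (Finsupp.le_def.mp h v))

theorem mul_mem_riemannRochSpace {D E : Divisor K F} {f g : F} (hf : f ∈ riemannRochSpace D)
    (hg : g ∈ riemannRochSpace E) : f * g ∈ riemannRochSpace (D + E) := by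
  intro v
  rw [map_mul, Finsupp.add_apply, WithZero.exp_add]
  exact mul_le_mul' (hf v) (hg v)

theorem ord_algebraMap_eq_zero (v : Place K F) (c : K) : v.ord (algebraMap K F c) = 0 := by
  rcases eq_or_ne c 0 with rfl | hc
  · simp
  · have h1 := v.adicValuation_le_one_iff.mp (v.adicValuation_algebraMap_le_one c)
    have h2 := v.adicValuation_le_one_iff.mp (v.adicValuation_algebraMap_le_one c⁻¹)
    have h3 : algebraMap K F c ≠ 0 := by simpa using hc
    have h4 : algebraMap K F c⁻¹ ≠ 0 := by simpa using hc
    rw [or_iff_right h3] at h1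
    rw [or_iff_right h4, map_inv₀, Place.ord_inv] at h2
    omega

theorem exists_adicValuation_sub_algebraMap_lt [IsAlgClosed K] [IsCurveOver K F] (v : Place K F)
    {h : F} (hh : v.adicValuation h ≤ 1) : ∃ c : K, v.adicValuation (h - algebraMap K F c) < 1 := by
  have hmem : h ∈ v.toValuationSubring := by
    rcases ValuationSubring.mem_or_inv_mem v.toValuationSubring h with hm | hm
    · exact hm
    · by_contra hn
      have h0 : h ≠ 0 := fun e => hn (e ▸ zero_mem _)
      have hu : ¬IsUnit (⟨h⁻¹, hm⟩ : v.toValuationSubring) := by
        rintro ⟨u, hu⟩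
        apply hn
        have hval : ((↑u⁻¹ : v.toValuationSubring) : F) * h⁻¹ = 1 := by
          have := congrArg (Subtype.val (p := fun x => x ∈ v.toValuationSubring)) u.inv_mul
          rw [hu] at this
          simpa using this
        have : ((↑u⁻¹ : v.toValuationSubring) : F) = h := by
          field_simp at hval
          exact hval
        exact this ▸ Subtype.coe_prop _
      have h1 := v.adicValuation_le_one_of_mem hm
      have h2 : v.adicValuation h⁻¹ ≠ 1 := fun e =>
        hu ((v.adicValuation_coe_eq_one_iff ⟨h⁻¹, hm⟩).mp e)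
      have h3 : v.adicValuation h⁻¹ < 1 := lt_of_le_of_ne h1 h2
      rw [map_inv₀, inv_lt_one₀ (zero_lt_iff.mpr (v.adicValuation_ne_zero h0))] at h3
      exact absurd hh (not_le.mpr h3)
  have : Module.Finite K v.ResidueField := IsCurveOver.finiteResidue v
  have : Algebra.IsIntegral K v.ResidueField := Algebra.IsIntegral.of_finite K _
  obtain ⟨c, hc⟩ := (IsAlgClosed.algebraMap_bijective_of_isIntegral (k := K)
    (K := v.ResidueField)).2 (IsLocalRing.residue _ ⟨h, hmem⟩)
  refine ⟨c, lt_of_le_of_ne ?_ ?_⟩
  · exact v.adicValuation_le_one_of_mem (sub_mem hmem (v.algebraMap_mem' c))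
  · intro he
    have hu := (v.adicValuation_coe_eq_one_iff
      (⟨h, hmem⟩ - algebraMap K v.toValuationSubring c)).mp (by simpa using he)
    apply (IsLocalRing.residue_ne_zero_iff_isUnit _).mpr hu
    rw [map_sub, ← hc]
    exact sub_self _

theorem exp_sub_one (n : ℤ) : (WithZero.exp (n - 1)) = WithZero.exp n * WithZero.exp (-1 : ℤ) := by
  rw [← WithZero.exp_add, sub_eq_add_neg]

variable [IsAlgClosed K] [IsCurveOver K F]

theorem degree_eq_sum (D : Divisor K F) : Divisor.degree D = D.sum fun _ n => n := by
  induction D using Finsupp.induction with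
  | zero => simp
  | single_add v n D hv hn ih =>
    classical
    rw [map_add, Divisor.degree_single, IsCurveOver.deg_eq_one_of_isAlgClosed, ih,
      Finsupp.sum_add_index' (fun _ => rfl) (fun _ _ _ => rfl), Finsupp.sum_single_index rfl]
    simp

theorem degree_nonneg {D : Divisor K F} (h : 0 ≤ D) : 0 ≤ Divisor.degree D := by
  rw [degree_eq_sum]
  exact Finset.sum_nonneg fun v _ => h v

theorem degree_mono {D E : Divisor K F} (h : D ≤ E) : Divisor.degree D ≤ Divisor.degree E := by
  have := degree_nonneg (sub_nonneg.mpr h)
  rw [map_sub] at this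
  omega

theorem riemannRochSpace_eq_bot_of_degree_neg {D : Divisor K F} (h : Divisor.degree D < 0) :
    riemannRochSpace D = ⊥ := by
  rw [Submodule.eq_bot_iff]
  intro f hf
  by_contra hf0
  have := degree_nonneg ((mem_riemannRochSpace_iff_add_nonneg hf0).mp hf)
  rw [map_add, degree_divFn] at this
  omega

omit [IsAlgClosed K] [IsCurveOver K F] in
theorem adicValuation_le_exp_sub_one {v : Place K F} {f : F} {n : ℤ}
    (h : v.adicValuation f < WithZero.exp n) : v.adicValuation f ≤ WithZero.exp (n - 1) := by
  rcases eq_or_ne f 0 with rfl | hf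
  · simp
  · rw [v.adicValuation_eq_exp_neg_ord hf, WithZero.exp_lt_exp] at h
    rw [v.adicValuation_eq_exp_neg_ord hf, WithZero.exp_le_exp]
    omega

omit [IsAlgClosed K] [IsCurveOver K F] in
theorem mem_riemannRochSpace_sub_single {D : Divisor K F} {P : Place K F} {f : F}
    (hf : f ∈ riemannRochSpace D) (hP : P.adicValuation f < WithZero.exp (D P)) :
    f ∈ riemannRochSpace (D - Finsupp.single P 1) := by
  classical
  intro v
  rw [Finsupp.sub_apply, Finsupp.single_apply]
  rcases eq_or_ne P v with rfl | hne
  · rw [if_pos rfl]
    exact adicValuation_le_exp_sub_one hP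
  · rw [if_neg hne, sub_zero]
    exact hf v

theorem degree_sub_single (D : Divisor K F) (P : Place K F) :
    Divisor.degree (D - Finsupp.single P 1) = Divisor.degree D - 1 := by
  rw [map_sub, Divisor.degree_single, IsCurveOver.deg_eq_one_of_isAlgClosed]
  simp

theorem exists_le_sub_single_sup_span (D : Divisor K F) (P : Place K F) :
    ∃ g : F, riemannRochSpace D ≤ riemannRochSpace (D - Finsupp.single P 1) ⊔ K ∙ g := by
  by_cases h : ∀ f ∈ riemannRochSpace D, P.adicValuation f < WithZero.exp (D P)
  · exact ⟨0, fun f hf => Submodule.mem_sup_left (mem_riemannRochSpace_sub_single hf (h f hf))⟩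
  · push Not at h
    obtain ⟨g, hg, hgP⟩ := h
    have hgeq : P.adicValuation g = WithZero.exp (D P) := le_antisymm (hg P) hgP
    have hg0 : g ≠ 0 := by rintro rfl; exact WithZero.exp_ne_zero ((hgeq.symm).trans (map_zero _))
    refine ⟨g, fun f hf => ?_⟩
    obtain ⟨c, hc⟩ := exists_adicValuation_sub_algebraMap_lt P (h := f / g) (by
      rw [map_div₀, hgeq]
      exact div_le_one_of_le₀ (hf P) zero_le)
    refine Submodule.mem_sup.mpr ⟨f - c • g, ?_, c • g, Submodule.smul_mem _ _
      (Submodule.mem_span_singleton_self g), sub_add_cancel _ _⟩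
    refine mem_riemannRochSpace_sub_single
      (Submodule.sub_mem _ hf (Submodule.smul_mem _ c hg)) ?_
    have e : f - c • g = (f / g - algebraMap K F c) * g := by
      rw [Algebra.smul_def, sub_mul, div_mul_cancel₀ f hg0]
    rw [e, map_mul, hgeq]
    simpa using mul_lt_mul_of_pos_right hc (WithZero.exp_pos (a := D P))

theorem riemannRochSpace_zero [IsFunctionField K F] :
    riemannRochSpace (0 : Divisor K F) = 1 := by
  obtain ⟨P⟩ := IsFunctionField.exists_place (K := K) (F := F)
  refine le_antisymm (fun f hf => ?_) ?_
  · obtain ⟨c, hc⟩ := exists_adicValuation_sub_algebraMap_lt P (h := f)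
      (by simpa using hf P)
    have hcst : algebraMap K F c ∈ riemannRochSpace (0 : Divisor K F) := fun v => by
      simpa using v.adicValuation_algebraMap_le_one c
    have hm := mem_riemannRochSpace_sub_single (Submodule.sub_mem _ hf hcst)
      (P := P) (by simpa using hc)
    rw [riemannRochSpace_eq_bot_of_degree_neg (by rw [degree_sub_single, map_zero]; omega),
      Submodule.mem_bot, sub_eq_zero] at hm
    exact Submodule.mem_one.mpr ⟨c, hm.symm⟩
  · intro f hf
    obtain ⟨c, rfl⟩ := Submodule.mem_one.mp hf
    exact fun v => by simpa using v.adicValuation_algebraMap_le_one c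

theorem finiteDimensional_and_finrank_le [IsFunctionField K F] (n : ℕ) : ∀ D : Divisor K F,
    Divisor.degree D < n → FiniteDimensional K (riemannRochSpace D) ∧ ell D ≤ n := by
  induction n with
  | zero =>
    intro D hD
    have := riemannRochSpace_eq_bot_of_degree_neg (by simpa using hD)
    unfold ell
    rw [this]
    exact ⟨inferInstance, by simp⟩
  | succ n ih =>
    intro D hD
    obtain ⟨P⟩ := IsFunctionField.exists_place (K := K) (F := F)
    obtain ⟨hfin, hle⟩ := ih (D - Finsupp.single P 1) (by rw [degree_sub_single]; omega)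
    obtain ⟨g, hg⟩ := exists_le_sub_single_sup_span D P
    refine ⟨Submodule.finiteDimensional_of_le hg, ?_⟩
    have h1 := Submodule.finrank_mono hg
    have h2 := Submodule.finrank_add_le_finrank_add_finrank
      (riemannRochSpace (D - Finsupp.single P 1)) (K ∙ g)
    have h3 : Module.finrank K (K ∙ g) ≤ 1 :=
    (finrank_span_le_card ({g} : Set F)).trans (by simp)
    unfold ell at hle ⊢
    omega

instance finiteDimensional_riemannRochSpace [IsFunctionField K F] (D : Divisor K F) :
    FiniteDimensional K (riemannRochSpace D) := by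
  exact (finiteDimensional_and_finrank_le ((Divisor.degree D).toNat + 1) D
    (by push_cast; omega)).1

theorem ell_zero [IsFunctionField K F] : ell (0 : Divisor K F) = 1 := by
  unfold ell
  rw [riemannRochSpace_zero, Submodule.one_eq_span, finrank_span_singleton one_ne_zero]

theorem ell_eq_zero_of_degree_neg {D : Divisor K F} (h : Divisor.degree D < 0) : ell D = 0 := by
  unfold ell
  rw [riemannRochSpace_eq_bot_of_degree_neg h, finrank_bot]

theorem ell_le_degree_add_one [IsFunctionField K F] {D : Divisor K F}
    (h : 0 ≤ Divisor.degree D) : (ell D : ℤ) ≤ Divisor.degree D + 1 := by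
  have := (finiteDimensional_and_finrank_le ((Divisor.degree D).toNat + 1) D
    (by push_cast; omega)).2
  omega

theorem ell_mono [IsFunctionField K F] {D E : Divisor K F} (h : D ≤ E) : ell D ≤ ell E := by
  exact Submodule.finrank_mono (riemannRochSpace_mono h)

theorem ell_le_ell_sub_single_add_one [IsFunctionField K F] (D : Divisor K F) (P : Place K F) :
    ell D ≤ ell (D - Finsupp.single P 1) + 1 := by
  obtain ⟨g, hg⟩ := exists_le_sub_single_sup_span D P
  have h1 := Submodule.finrank_mono hg
  have h2 := Submodule.finrank_add_le_finrank_add_finrank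
    (riemannRochSpace (D - Finsupp.single P 1)) (K ∙ g)
  have h3 : Module.finrank K (K ∙ g) ≤ 1 :=
    (finrank_span_le_card ({g} : Set F)).trans (by simp)
  unfold ell
  omega

omit [IsAlgClosed K] in
/-- Multiplication by `f` identifies `L(D + div f)` with `L(D)`. -/
theorem ell_add_divFn {f : F} (hf : f ≠ 0) (D : Divisor K F) :
    ell (D + divFn f) = ell D := by
  let e : F ≃ₗ[K] F :=
    { LinearMap.mulLeft K f with
      invFun := fun g => f⁻¹ * g
      left_inv := fun g => by simp [hf]
      right_inv := fun g => by simp [hf] }
  have h : (riemannRochSpace (D + divFn f)).map (e : F →ₗ[K] F) = riemannRochSpace D := by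
    ext g
    rw [Submodule.mem_map_equiv]
    refine forall_congr' fun v => ?_
    show v.adicValuation (f⁻¹ * g) ≤ _ ↔ _
    rw [map_mul, map_inv₀, v.adicValuation_eq_exp_neg_ord hf, Finsupp.add_apply, divFn_apply,
      WithZero.exp_neg, inv_inv, add_comm (D v), WithZero.exp_add,
      mul_le_mul_iff_right₀ WithZero.exp_pos]
  unfold ell
  rw [← h]
  exact (e.submoduleMap _).finrank_eq

end FLTA.Curves
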