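import Fermat.Agent.Curves.RRDescent
import Mathlib.RingTheory.Valuation.LocalSubring
import Mathlib.RingTheory.Adjoin.Basic
import Mathlib.LinearAlgebra.LinearIndependent.Lemmas
import Mathlib.Algebra.Polynomial.Eval.Degree

/-! # Constant extension of a Riemann-Roch space `L(m·(x)_∞)`

Inside a big field `L` containing the bigger constants `C`, every element of the `C`-span of `F`
satisfying a monic equation with coefficients in `C[x]` of degrees `≤ m k` lies in the `C`-span of
`L(m·(x)_∞)`.  Every place is extended to a valuation ring of `L` containing `C` (Chevalley). -/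

set_option autoImplicit false

noncomputable section

open AlgebraicCurve Module WithZero

namespace FLTA.Curves

variable {K F : Type*} [Field K] [Field F] [Algebra K F]
variable {C L : Type*} [Field C] [Algebra K C] [Field L] [Algebra K L] [Algebra C L]
  [IsScalarTower K C L]
variable (ι : F →ₐ[K] L)

/-- `1` is not in the extended maximal ideal. -/
theorem one_notMem_span_image_maximal
    (hind : ∀ (n : ℕ) (f : Fin n → F), LinearIndependent K f →
      LinearIndependent C (fun i => ι (f i)))
    (v : Place K F) :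
    (1 : L) ∉ Submodule.span C (ι '' {f : F | v.adicValuation f < 1}) := by
  classical
  intro h
  obtain ⟨T, hT, hmem⟩ := Submodule.mem_span_finite_of_mem_span h
  have hpre : ∀ t ∈ T, ∃ f : F, v.adicValuation f < 1 ∧ ι f = t := fun t ht => hT ht
  choose g hg hgt using hpre
  let M : Submodule K F := Submodule.span K (Set.range fun t : T => g t t.2)
  have hM : ∀ f ∈ M, v.adicValuation f < 1 := fun f hf => by
    induction hf using Submodule.span_induction with
    | mem x hx => obtain ⟨t, rfl⟩ := hx; exact hg _ _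
    | zero => simp
    | add a b _ _ ha hb => exact v.adicValuation.map_add_lt ha hb
    | smul c a _ ha =>
      rw [Algebra.smul_def, map_mul]
      exact lt_of_le_of_lt (mul_le_of_le_one_left' (v.adicValuation_algebraMap_le_one c)) ha
  have : FiniteDimensional K M := FiniteDimensional.span_of_finite K (Set.finite_range _)
  let b := Module.finBasis K M
  have hrange : Submodule.span K (Set.range fun i => (b i : F)) = M := by
    conv_rhs => rw [← Submodule.map_subtype_top M, ← b.span_eq, Submodule.map_span, ← Set.range_comp]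
    rfl
  have hli : LinearIndependent K (Fin.cons (1 : F) fun i => (b i : F)) := by
    refine linearIndependent_finCons.2
      ⟨b.linearIndependent.map' _ (Submodule.ker_subtype _), fun h1 => ?_⟩
    rw [hrange] at h1
    simpa using hM 1 h1
  have hliC := hind _ _ hli
  have hcons : (fun i => ι ((Fin.cons (1 : F) fun i => (b i : F) : Fin _ → F) i))
      = Fin.cons (1 : L) fun i => ι (b i : F) := by
    funext i
    refine Fin.cases ?_ (fun j => ?_) i <;> simp
  rw [hcons, linearIndependent_finCons] at hliC
  refine hliC.2 (Submodule.span_le.2 ?_ hmem)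
  intro t ht
  rw [SetLike.mem_coe, ← hgt t ht]
  have hgM : g t ht ∈ Submodule.span K (Set.range fun i => (b i : F)) := by
    rw [hrange]
    exact Submodule.subset_span ⟨⟨t, ht⟩, rfl⟩
  revert hgM
  generalize g t ht = f
  intro hf
  induction hf using Submodule.span_induction with
  | mem x hx => obtain ⟨i, rfl⟩ := hx; exact Submodule.subset_span ⟨i, rfl⟩
  | zero => simp
  | add a c _ _ ha hc => rw [map_add]; exact add_mem ha hc
  | smul c a _ ha =>
    rw [map_smul, ← algebraMap_smul C c (ι a)]
    exact Submodule.smul_mem _ _ ha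

/-- Every place extends to a valuation ring of `L` containing the constants `C`. -/
theorem exists_valuationSubring_extending
    (hind : ∀ (n : ℕ) (f : Fin n → F), LinearIndependent K f →
      LinearIndependent C (fun i => ι (f i)))
    (v : Place K F) :
    ∃ V : ValuationSubring L, (∀ c : C, algebraMap C L c ∈ V) ∧
      (∀ f : F, v.adicValuation f ≤ 1 → ι f ∈ V) ∧
      ∀ f : F, v.adicValuation f < 1 → ι f ∈ V.nonunits := by
  let A : Subalgebra C L := Algebra.adjoin C (ι '' {f : F | v.adicValuation f ≤ 1})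
  let J : Submodule C L := Submodule.span C (ι '' {f : F | v.adicValuation f < 1})
  have hAJ : ∀ a ∈ A, ∀ x ∈ J, a * x ∈ J := fun a ha => by
    induction ha using Algebra.adjoin_induction with
    | mem a ha =>
      obtain ⟨f, hf, rfl⟩ := ha
      intro x hx
      induction hx using Submodule.span_induction with
      | mem x hx =>
        obtain ⟨g, hg, rfl⟩ := hx
        refine Submodule.subset_span ⟨f * g, ?_, map_mul ι f g⟩
        show v.adicValuation (f * g) < 1
        rw [map_mul]
        exact lt_of_le_of_lt (mul_le_of_le_one_left' hf) hg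
      | zero => simp
      | add y z _ _ hy hz => rw [mul_add]; exact add_mem hy hz
      | smul c y _ hy => rw [mul_smul_comm]; exact Submodule.smul_mem _ _ hy
    | algebraMap c => intro x hx; rw [← Algebra.smul_def]; exact Submodule.smul_mem _ _ hx
    | add a b _ _ ha hb => intro x hx; rw [add_mul]; exact add_mem (ha x hx) (hb x hx)
    | mul a b _ _ ha hb => intro x hx; rw [mul_assoc]; exact ha _ (hb x hx)
  let I : Ideal A.toSubring :=
    { carrier := {a | (a : L) ∈ J}
      add_mem' := fun ha hb => J.add_mem ha hb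
      zero_mem' := J.zero_mem
      smul_mem' := fun a x hx => hAJ (a : L) a.2 x hx }
  have hI : I ≠ ⊤ := fun h => one_notMem_span_image_maximal ι hind v
    (show ((1 : A.toSubring) : L) ∈ J from (Ideal.eq_top_iff_one I).1 h)
  obtain ⟨V, hAV, hIV⟩ := I.image_subset_nonunits_valuationSubring hI
  refine ⟨V, fun c => hAV (A.algebraMap_mem c), fun f hf => hAV (Algebra.subset_adjoin ⟨f, hf, rfl⟩),
    fun f hf => hIV ⟨⟨ι f, Algebra.subset_adjoin ⟨f, le_of_lt hf, rfl⟩⟩, ?_, rfl⟩⟩
  exact Submodule.subset_span ⟨f, hf, rfl⟩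

variable [IsAlgClosed K] [IsCurveOver K F] [IsFunctionField K F]

theorem exists_mem_span_image_riemannRochSpace {y : L}
    (hy : y ∈ Submodule.span C (Set.range ι)) :
    ∃ E : Divisor K F, y ∈ Submodule.span C (ι '' riemannRochSpace E) := by
  induction hy using Submodule.span_induction with
  | mem x hx =>
    obtain ⟨f, rfl⟩ := hx
    refine ⟨-divFn f, Submodule.subset_span ⟨f, mem_riemannRochSpace_iff.2 fun v => Or.inr ?_, rfl⟩⟩
    rw [Finsupp.neg_apply, divFn_apply, neg_neg]
  | zero => exact ⟨0, zero_mem _⟩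
  | add a b _ _ ha hb =>
    obtain ⟨E, hE⟩ := ha
    obtain ⟨E', hE'⟩ := hb
    exact ⟨E ⊔ E', add_mem
      (Submodule.span_mono (Set.image_mono (riemannRochSpace_mono le_sup_left)) hE)
      (Submodule.span_mono (Set.image_mono (riemannRochSpace_mono le_sup_right)) hE')⟩
  | smul c a _ ha =>
    obtain ⟨E, hE⟩ := ha
    exact ⟨E, Submodule.smul_mem _ _ hE⟩

open Polynomial in
/-- A monic equation over `C[x]` with degrees `≤ m k` puts an element of the `C`-span of `F` in the
`C`-span of `L(m·(x)_∞)`. -/
theorem mem_span_image_rrSpace_of_monic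
    (hind : ∀ (n : ℕ) (f : Fin n → F), LinearIndependent K f →
      LinearIndependent C (fun i => ι (f i)))
    {x : F} {B : Divisor K F} (hB : ∀ v : Place K F, B v = max 0 (-v.ord x)) {m : ℕ} {y : L}
    (hy : y ∈ Submodule.span C (Set.range ι)) (p : Polynomial (Polynomial C)) (hp : p.Monic)
    (hdeg : ∀ k, (p.coeff k).natDegree ≤ m * (p.natDegree - k))
    (hroot : p.eval₂ (aeval (ι x) : Polynomial C →ₐ[C] L).toRingHom y = 0) :
    y ∈ Submodule.span C (ι '' riemannRochSpace ((m : ℤ) • B)) := by
  classical
  choose V hVC hVO hVm using fun v => exists_valuationSubring_extending ι hind v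
  choose t ht0 ht using fun v : Place K F =>
    (show ∃ t : F, t ≠ 0 ∧ v.ord t = 1 from
      ⟨_, by simpa using (IsDiscreteValuationRing.exists_irreducible
        v.toValuationSubring).choose_spec.ne_zero,
        v.ord_coe_irreducible (IsDiscreteValuationRing.exists_irreducible
          v.toValuationSubring).choose_spec⟩)
  let w := fun v : Place K F => (V v).valuation
  have hwC : ∀ v (c : C), w v (algebraMap C L c) ≤ 1 := fun v c =>
    ((V v).valuation_le_one_iff _).2 (hVC v c)
  have hT0 : ∀ v, w v (ι (t v)) ≠ 0 := fun v =>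
    (Valuation.ne_zero_iff _).2 ((map_ne_zero_iff _ ι.injective).2 (ht0 v))
  have hT1 : ∀ v, w v (ι (t v)) < 1 := fun v =>
    (V v).mem_nonunits_iff.1 (hVm v (t v) (by
      rw [v.adicValuation_eq_exp_neg_ord (ht0 v), ht v, ← exp_zero, exp_lt_exp]; norm_num))
  have hwf : ∀ v (f : F), f ≠ 0 → w v (ι f) = w v (ι (t v)) ^ (v.ord f) := fun v f hf => by
    have hu : ∀ u : F, u ≠ 0 → v.ord u = 0 → w v (ι u) = 1 := fun u hu0 hu => by
      refine le_antisymm (((V v).valuation_le_one_iff _).2 (hVO v u ?_)) ?_
      · rw [v.adicValuation_eq_exp_neg_ord hu0, hu]; simp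
      · have h1 := ((V v).valuation_le_one_iff _).2 (hVO v u⁻¹
          (by rw [map_inv₀, v.adicValuation_eq_exp_neg_ord hu0, hu]; simp))
        rw [map_inv₀, map_inv₀] at h1
        exact (inv_le_one₀ (zero_lt_iff.2 ((Valuation.ne_zero_iff _).2
          ((map_ne_zero_iff _ ι.injective).2 hu0)))).1 h1
    have hz : t v ^ v.ord f ≠ 0 := zpow_ne_zero _ (ht0 v)
    have hdiv : f / t v ^ v.ord f ≠ 0 := div_ne_zero hf hz
    have hord : v.ord (f / t v ^ v.ord f) = 0 := by
      rw [div_eq_mul_inv, v.ord_mul hf (inv_ne_zero hz), v.ord_inv, v.ord_zpow, ht v]; ring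
    have h := hu _ hdiv hord
    rw [map_div₀, map_div₀, map_zpow₀, map_zpow₀, div_eq_one_iff_eq (zpow_ne_zero _ (hT0 v))] at h
    exact h
  let W : Place K F → ℤ → Submodule C L := fun v n =>
    { carrier := {z | w v z ≤ w v (ι (t v)) ^ n}
      zero_mem' := by simp
      add_mem' := fun ha hb => ((w v).map_add _ _).trans (max_le ha hb)
      smul_mem' := fun c z hz => by
        show w v (c • z) ≤ _
        rw [Algebra.smul_def, map_mul]
        exact (mul_le_of_le_one_left' (hwC v c)).trans hz }
  obtain ⟨E, hE⟩ := exists_mem_span_image_riemannRochSpace ι hy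
  refine mem_span_image_riemannRochSpace (C := C) ι.toLinearMap W ?_ ?_ ?_ (E := E) hE ?_
  · intro v a b hab z hz
    have hz' : w v z ≤ w v (ι (t v)) ^ b := hz
    exact le_trans hz' ((zpow_le_zpow_iff_right_of_lt_one₀ (zero_lt_iff.2 (hT0 v)) (hT1 v)).2 hab)
  · intro v f hf
    exact le_of_eq (hwf v f hf)
  · intro v f hf h
    have h' : w v (ι (t v)) ^ v.ord f ≤ w v (ι (t v)) ^ (v.ord f + 1) := (hwf v f hf) ▸ h
    have := (zpow_le_zpow_iff_right_of_lt_one₀ (zero_lt_iff.2 (hT0 v)) (hT1 v)).1 h'
    omega
  intro v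
  show w v y ≤ w v (ι (t v)) ^ (-(((m : ℤ) • B) v))
  rw [Finsupp.smul_apply, smul_eq_mul]
  set b := B v with hb
  set G := w v (ι (t v)) ^ (-b) with hG
  have hG1 : 1 ≤ G := one_le_zpow_of_nonpos₀ (zero_lt_iff.2 (hT0 v)) (hT1 v).le (by
    rw [hb, hB v]; omega)
  have hxG : w v (ι x) ≤ G := by
    by_cases hx : x = 0
    · simp [hx]
    rw [hwf v x hx, hG]
    refine (zpow_le_zpow_iff_right_of_lt_one₀ (zero_lt_iff.2 (hT0 v)) (hT1 v)).2 ?_
    rw [hb, hB v]; omega
  rw [show -((m : ℤ) * b) = (-b) * (m : ℤ) by ring, zpow_mul, zpow_natCast, ← hG]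
  have hcoef : ∀ k, w v (aeval (ι x) (p.coeff k)) ≤ (G ^ m) ^ (p.natDegree - k) := fun k => by
    rw [aeval_eq_sum_range, ← pow_mul]
    refine (w v).map_sum_le fun i hi => ?_
    rw [Algebra.smul_def, map_mul, map_pow]
    refine (mul_le_of_le_one_left' (hwC v _)).trans ((pow_le_pow_left' hxG i).trans ?_)
    exact pow_le_pow_right' hG1 (le_trans (Nat.lt_succ_iff.1 (Finset.mem_range.1 hi)) (hdeg k))
  by_contra hlt
  rw [not_le] at hlt
  rw [eval₂_eq_sum_range, Finset.sum_range_succ] at hroot
  have hlead : p.coeff p.natDegree = 1 := hp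
  rw [hlead, map_one, one_mul, add_eq_zero_iff_eq_neg] at hroot
  have hd0 : w v y ^ p.natDegree ≠ 0 :=
    pow_ne_zero _ (ne_of_gt (lt_of_le_of_lt zero_le hlt))
  have hsum : w v (∑ i ∈ Finset.range p.natDegree,
      (aeval (ι x)).toRingHom (p.coeff i) * y ^ i) < w v y ^ p.natDegree := by
    refine (w v).map_sum_lt hd0 fun i hi => ?_
    have hlt' : i < p.natDegree := Finset.mem_range.1 hi
    rw [map_mul, map_pow]
    refine lt_of_le_of_lt (mul_le_mul' (hcoef i) le_rfl) ?_
    calc (G ^ m) ^ (p.natDegree - i) * w v y ^ i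
        < w v y ^ (p.natDegree - i) * w v y ^ i :=
          mul_lt_mul_of_pos_right (pow_lt_pow_left₀ hlt zero_le (by omega))
            (zero_lt_iff.2 (pow_ne_zero _ (ne_of_gt (lt_of_le_of_lt zero_le hlt))))
      _ = w v y ^ p.natDegree := by rw [← pow_add]; congr 1; omega
  rw [hroot, Valuation.map_neg, map_pow] at hsum
  exact lt_irrefl _ hsum

end FLTA.Curves
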