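import Fermat.Agent.Curves.RRPoleDegree

/-! # Riemann's inequality and finiteness of `H1` -/

set_option autoImplicit false

noncomputable section

open AlgebraicCurve

namespace FLTA.Curves

variable {K F : Type*} [Field K] [Field F] [Algebra K F]
variable [IsAlgClosed K] [IsCurveOver K F] [IsFunctionField K F]

omit [IsAlgClosed K] [IsFunctionField K F] in
theorem mem_repartitions_iff_finite {α : Place K F → F} :
    α ∈ repartitions K F ↔ {v : Place K F | v.ord (α v) < 0}.Finite := by
  refine ⟨fun h => ?_, mem_repartitions_of_finite_ord⟩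
  suffices hs : {v : Place K F | ¬v.adicValuation (α v) ≤ 1}.Finite from
    hs.subset fun v hv => v.not_adicValuation_le_one_iff.mpr hv
  refine Algebra.adjoin_induction (fun x hx => hx) (fun f => ?_)
    (fun x y _ _ hx hy => ?_) (fun x y _ _ hx hy => ?_) h
  · refine (divFn (K := K) f).support.finite_toSet.subset fun v hv => ?_
    have hv' := v.not_adicValuation_le_one_iff.mp hv
    rw [Finset.mem_coe, Finsupp.mem_support_iff, divFn_apply]
    exact ne_of_lt hv'
  · refine (hx.union hy).subset fun v hv => ?_
    by_contra hn
    simp only [Set.mem_union, Set.mem_ofPred_eq, not_or, not_not] at hn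
    exact hv ((Valuation.map_add _ _ _).trans (max_le hn.1 hn.2))
  · refine (hx.union hy).subset fun v hv => ?_
    by_contra hn
    simp only [Set.mem_union, Set.mem_ofPred_eq, not_or, not_not] at hn
    exact hv (by rw [Pi.mul_apply, map_mul]; exact mul_le_one' hn.1 hn.2)

namespace RR

/-- `deg D - l(D)`. -/
def defect (D : Divisor K F) : ℤ := Divisor.degree D - ell D

omit [IsFunctionField K F] in
theorem degree_add_single (D : Divisor K F) (P : Place K F) :
    Divisor.degree (D + Finsupp.single P 1) = Divisor.degree D + 1 := by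
  rw [map_add, Divisor.degree_single, IsCurveOver.deg_eq_one_of_isAlgClosed]
  simp

omit [IsFunctionField K F] in
omit [IsAlgClosed K] in
theorem defect_add_divFn {f : F} (hf : f ≠ 0) (D : Divisor K F) :
    defect (D + divFn f) = defect D := by
  simp only [defect, ell_add_divFn hf, map_add, degree_divFn, add_zero]

omit [IsFunctionField K F] in
/-- Induction on divisors above a given one, adding one place at a time. -/
theorem divisor_le_induction {motive : Divisor K F → Prop} {D E : Divisor K F} (h : D ≤ E)
    (base : motive D)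
    (step : ∀ (G : Divisor K F) (P : Place K F), D ≤ G → G + Finsupp.single P 1 ≤ E →
      motive G → motive (G + Finsupp.single P 1)) :
    motive E := by
  classical
  obtain ⟨n, hn⟩ : ∃ n, (Divisor.degree (E - D)).toNat = n := ⟨_, rfl⟩
  induction n generalizing E with
  | zero =>
    have h0 := degree_nonneg (sub_nonneg.mpr h)
    have hd : Divisor.degree (E - D) = 0 := by omega
    have hDE : E = D := by
      ext v
      by_contra hne
      rw [degree_eq_sum] at hd
      have h1 := (Finset.sum_eq_zero_iff_of_nonneg fun v _ => (sub_nonneg.mpr h : 0 ≤ E - D) v).mp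
        hd v (Finsupp.mem_support_iff.mpr (by simpa [sub_eq_zero] using hne))
      exact hne (by simpa [sub_eq_zero] using h1)
    exact hDE ▸ base
  | succ n ih =>
    have hne : E - D ≠ 0 := fun e => by simp [e] at hn
    obtain ⟨P, hP⟩ := Finsupp.support_nonempty_iff.mpr hne
    have hle : D ≤ E - Finsupp.single P 1 := by
      intro v
      have h1 := h v
      have h2 := Finsupp.mem_support_iff.mp hP
      simp only [Finsupp.sub_apply, Finsupp.single_apply] at h2 ⊢
      split_ifs with hv
      · subst hv
        omega
      · omega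
    have hdeg : Divisor.degree (E - Finsupp.single P 1 - D) = Divisor.degree (E - D) - 1 := by
      rw [sub_right_comm, degree_sub_single]
    have := step (E - Finsupp.single P 1) P hle (by simp)
      (ih hle (fun G Q h1 h2 => step G Q h1 (h2.trans (sub_le_self E
        (Finsupp.single_nonneg.mpr zero_le_one)))) (by omega))
    simpa using this

theorem defect_mono {D E : Divisor K F} (h : D ≤ E) : defect D ≤ defect E := by
  refine divisor_le_induction (motive := fun G => defect D ≤ defect G) h le_rfl
    fun G P _ _ ih => ih.trans ?_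
  have := ell_le_ell_sub_single_add_one (G + Finsupp.single P 1) P
  rw [add_sub_cancel_right] at this
  simp only [defect, degree_add_single]
  omega

theorem exists_defect_le : ∃ γ : ℤ, ∀ D : Divisor K F, defect D ≤ γ := by
  obtain ⟨B, hB0, hB, γ, hγ⟩ := exists_degree_sub_ell_le_multiples (K := K) (F := F)
  refine ⟨γ, fun D => ?_⟩
  classical
  let D₁ : Divisor K F := D.mapRange (fun n => max n 0) (by simp)
  have hD₁ : ∀ v, D₁ v = max (D v) 0 := fun v => Finsupp.mapRange_apply
  have hle : D ≤ D₁ := fun v => by rw [hD₁]; exact le_max_left _ _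
  have h0 : (0 : Divisor K F) ≤ D₁ := fun v => by rw [hD₁]; exact le_max_right _ _
  obtain ⟨m, hm⟩ : ∃ m : ℕ, γ + Divisor.degree D₁ < m * Divisor.degree B :=
    ⟨(γ + Divisor.degree D₁).toNat + 1, by push_cast; nlinarith [Int.self_le_toNat (γ + Divisor.degree D₁)]⟩
  have hmB := hγ m
  have hlow := defect_mono (sub_le_self ((m : ℤ) • B) h0)
  simp only [defect, map_sub, map_zsmul, smul_eq_mul] at hmB hlow
  have hpos : 0 < ell ((m : ℤ) • B - D₁) := by omega
  have : riemannRochSpace ((m : ℤ) • B - D₁) ≠ ⊥ := fun e => by
    unfold ell at hpos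
    rw [e, finrank_bot] at hpos
    exact lt_irrefl _ hpos
  obtain ⟨f, hf, hf0⟩ := Submodule.exists_mem_ne_zero_of_ne_bot this
  have hge := (mem_riemannRochSpace_iff_add_nonneg hf0).mp hf
  have hle' : D₁ + -divFn f ≤ (m : ℤ) • B := fun v => by
    have := hge v
    simp only [Finsupp.zero_apply, Finsupp.add_apply, Finsupp.sub_apply, Finsupp.neg_apply] at this ⊢
    omega
  refine (defect_mono hle).trans ?_
  have := defect_add_divFn hf0 (D₁ + -divFn f)
  rw [neg_add_cancel_right] at this
  rw [this]
  exact (defect_mono hle').trans (hγ m)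

omit [IsFunctionField K F] in
/-- The kernel of `H1(D) → H1(D + P)`, in the case where some section has exact order at `P`. -/
theorem repartitionsOf_add_single_le_of_exists {D : Divisor K F} {P : Place K F} {f : F}
    (hf : f ∈ riemannRochSpace (D + Finsupp.single P 1))
    (hfP : P.adicValuation f = WithZero.exp (D P + 1)) :
    repartitionsOf (D + Finsupp.single P 1) ≤ repartitionsOf D ⊔ principalRepartitions K F := by
  classical
  intro α hα
  have hf0 : f ≠ 0 := fun h => WithZero.exp_ne_zero (hfP.symm.trans (h ▸ map_zero _))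
  have hαP : P.adicValuation ((α : Place K F → F) P / f) ≤ 1 := by
    rw [map_div₀, hfP]
    exact div_le_one_of_le₀ (by simpa using hα P) zero_le
  obtain ⟨c, hc⟩ := exists_adicValuation_sub_algebraMap_lt P hαP
  let k : ↥(repartitions K F) := algebraMap F ↥(repartitions K F) (algebraMap K F c * f)
  refine Submodule.mem_sup.mpr ⟨α - k, ?_, k, ⟨_, rfl⟩, sub_add_cancel _ _⟩
  intro v
  show v.adicValuation ((α : Place K F → F) v - algebraMap K F c * f) ≤ _
  rcases eq_or_ne P v with rfl | hne
  · have e : (α : Place K F → F) P - algebraMap K F c * f =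
        ((α : Place K F → F) P / f - algebraMap K F c) * f := by
      rw [sub_mul, div_mul_cancel₀ _ hf0]
    rw [e, map_mul, hfP]
    have := adicValuation_le_exp_sub_one (v := P)
      (f := ((α : Place K F → F) P / f - algebraMap K F c) * f) (n := D P + 1) (by
        rw [map_mul, hfP]
        simpa using mul_lt_mul_of_pos_right hc (WithZero.exp_pos (a := D P + 1)))
    simpa [map_mul, hfP] using this
  · have h1 := hα v
    have h2 := hf v
    simp only [Finsupp.add_apply, Finsupp.single_eq_of_ne (Ne.symm hne), add_zero] at h1 h2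
    refine (Valuation.map_sub _ _ _).trans (max_le h1 ?_)
    rw [map_mul]
    exact (mul_le_of_le_one_left' (v.adicValuation_algebraMap_le_one c)).trans h2

omit [IsFunctionField K F] in
theorem exists_le_sup_span (D : Divisor K F) (P : Place K F) :
    ∃ s : ↥(repartitions K F),
      P.adicValuation ((s : Place K F → F) P) = WithZero.exp (D P + 1) ∧
      s ∈ repartitionsOf (D + Finsupp.single P 1) ∧
      repartitionsOf (D + Finsupp.single P 1) ≤ repartitionsOf D ⊔ K ∙ s := by
  classical
  obtain ⟨π, hπ⟩ := RR.exists_uniformizer P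
  have hπ0 : π ≠ 0 := fun h => WithZero.exp_ne_zero ((hπ.symm).trans (h ▸ map_zero _))
  have hy : P.adicValuation (π ^ (-(D P + 1))) = WithZero.exp (D P + 1) := by
    rw [map_zpow₀, hπ, ← WithZero.exp_zsmul]
    simp
  have hmem : Pi.single P (π ^ (-(D P + 1))) ∈ repartitions K F :=
    mem_repartitions_of_forall_le_exp (Finsupp.single P (D P + 1)) _
      fun v => by
        rcases eq_or_ne P v with rfl | hne
        · rw [Pi.single_eq_same, hy]; simp [add_comm]
        · simp [Pi.single_eq_of_ne (Ne.symm hne)]
  refine ⟨⟨_, hmem⟩, by simpa using hy, fun v => ?_, fun α hα => ?_⟩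
  · show v.adicValuation (Pi.single (M := fun _ => F) P (π ^ (-(D P + 1))) v) ≤ _
    rcases eq_or_ne P v with rfl | hne
    · rw [Pi.single_eq_same, hy]; simp
    · simp [Pi.single_eq_of_ne (Ne.symm hne)]
  · have hαP : P.adicValuation ((α : Place K F → F) P / π ^ (-(D P + 1))) ≤ 1 := by
      rw [map_div₀, hy]
      exact div_le_one_of_le₀ (by simpa using hα P) zero_le
    obtain ⟨c, hc⟩ := exists_adicValuation_sub_algebraMap_lt P hαP
    refine Submodule.mem_sup.mpr ⟨α - c • ⟨_, hmem⟩, fun v => ?_, c • ⟨_, hmem⟩,
      Submodule.smul_mem _ _ (Submodule.mem_span_singleton_self _), sub_add_cancel _ _⟩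
    show v.adicValuation ((α : Place K F → F) v -
      c • Pi.single (M := fun _ => F) P (π ^ (-(D P + 1))) v) ≤ _
    rcases eq_or_ne P v with rfl | hne
    · rw [Pi.single_eq_same, Algebra.smul_def]
      have e : (α : Place K F → F) P - algebraMap K F c * π ^ (-(D P + 1)) =
          ((α : Place K F → F) P / π ^ (-(D P + 1)) - algebraMap K F c) * π ^ (-(D P + 1)) := by
        rw [sub_mul, div_mul_cancel₀ _ (zpow_ne_zero _ hπ0)]
      have := adicValuation_le_exp_sub_one (v := P)
        (f := ((α : Place K F → F) P / π ^ (-(D P + 1)) - algebraMap K F c) * π ^ (-(D P + 1)))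
        (n := D P + 1) (by
          rw [map_mul, hy]
          simpa using mul_lt_mul_of_pos_right hc (WithZero.exp_pos (a := D P + 1)))
      rw [e]
      simpa using this
    · have h1 := hα v
      simp only [Finsupp.add_apply, Finsupp.single_eq_of_ne (Ne.symm hne), add_zero] at h1
      simpa [Pi.single_eq_of_ne (Ne.symm hne)] using h1

/-- One step: finiteness descends and `h1 + defect` is constant. -/
theorem finite_and_add_defect_of_add_single (D : Divisor K F) (P : Place K F)
    (hfin : FiniteDimensional K (H1 (D + Finsupp.single P 1))) :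
    FiniteDimensional K (H1 D) ∧
      (Module.finrank K (H1 D) : ℤ) + defect D =
        Module.finrank K (H1 (D + Finsupp.single P 1)) + defect (D + Finsupp.single P 1) := by
  classical
  set E := D + Finsupp.single P 1 with hE
  have hDE : D ≤ E := le_add_of_nonneg_right (Finsupp.single_nonneg.mpr zero_le_one)
  have hle : repartitionsOf D ⊔ principalRepartitions K F ≤
      repartitionsOf E ⊔ principalRepartitions K F :=
    sup_le_sup_right (repartitionsOf_mono hDE) _
  let q : H1 D →ₗ[K] H1 E := Submodule.mapQ _ _ LinearMap.id (by simpa using hle)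
  have hq : Function.Surjective q := fun y => by
    obtain ⟨z, rfl⟩ := Submodule.Quotient.mk_surjective _ y
    exact ⟨Submodule.Quotient.mk z, rfl⟩
  have hker : LinearMap.ker q = (repartitionsOf E ⊔ principalRepartitions K F).map
      (repartitionsOf D ⊔ principalRepartitions K F).mkQ := by
    rw [Submodule.ker_mapQ, Submodule.comap_id]
  have hellDE := ell_le_ell_sub_single_add_one E P
  rw [hE, add_sub_cancel_right, ← hE] at hellDE
  by_cases hex : ∃ f ∈ riemannRochSpace E, P.adicValuation f = WithZero.exp (D P + 1)
  · obtain ⟨f, hf, hfP⟩ := hex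
    have heq : repartitionsOf D ⊔ principalRepartitions K F =
        repartitionsOf E ⊔ principalRepartitions K F :=
      le_antisymm hle (sup_le (repartitionsOf_add_single_le_of_exists hf hfP) le_sup_right)
    let e : H1 D ≃ₗ[K] H1 E := Submodule.quotEquivOfEq _ _ heq
    have hlt : ell D < ell E := by
      refine Submodule.finrank_lt_finrank_of_lt (lt_of_le_of_ne (riemannRochSpace_mono hDE) ?_)
      intro hh
      have := (hh ▸ hf : f ∈ riemannRochSpace D) P
      rw [hfP, WithZero.exp_le_exp] at this
      omega
    refine ⟨e.symm.finiteDimensional, ?_⟩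
    rw [e.finrank_eq]
    simp only [defect, hE, degree_add_single] at *
    omega
  · obtain ⟨s, hsP, hsE, hspan⟩ := exists_le_sup_span D P
    rw [← hE] at hsE hspan
    have heq : ell E = ell D := by
      refine le_antisymm (Submodule.finrank_mono fun f hf => ?_) (ell_mono hDE)
      have h1 : f ∈ riemannRochSpace (E - Finsupp.single P 1) :=
        mem_riemannRochSpace_sub_single hf (lt_of_le_of_ne (hf P) fun e => hex ⟨f, hf, by
          simpa [hE] using e⟩)
      rwa [hE, add_sub_cancel_right] at h1
    have hker' : LinearMap.ker q =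
        K ∙ (repartitionsOf D ⊔ principalRepartitions K F).mkQ s := by
      rw [hker]
      refine le_antisymm ?_ ((Submodule.span_singleton_le_iff_mem _ _).mpr
        ⟨s, Submodule.mem_sup_left hsE, rfl⟩)
      rw [← Set.image_singleton, ← Submodule.map_span, Submodule.map_le_iff_le_comap,
        Submodule.comap_map_mkQ]
      exact sup_le (hspan.trans (sup_le (le_sup_of_le_left le_sup_left) le_sup_right))
        (le_sup_of_le_left le_sup_right)
    have hsne : (repartitionsOf D ⊔ principalRepartitions K F).mkQ s ≠ 0 := by
      intro h0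
      rw [Submodule.mkQ_apply, Submodule.Quotient.mk_eq_zero, Submodule.mem_sup] at h0
      obtain ⟨α, hα, k, hk, hsum⟩ := h0
      obtain ⟨f, hfk⟩ := mem_principalRepartitions_iff.mp hk
      have hfv : ∀ v, f = (s : Place K F → F) v - (α : Place K F → F) v := fun v => by
        have h1 := congrArg (fun z : ↥(repartitions K F) => (z : Place K F → F) v) hsum
        have h2 := congrFun hfk v
        simp only [Subalgebra.coe_add, Pi.add_apply] at h1
        rw [← h1, h2]
        ring
      have hαv : ∀ v, v.adicValuation ((α : Place K F → F) v) ≤ WithZero.exp (D v) := hα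
      refine hex ⟨f, fun v => ?_, ?_⟩
      · rw [hfv v]
        exact (Valuation.map_sub _ _ _).trans (max_le (hsE v) ((hαv v).trans
          (WithZero.exp_le_exp.mpr (hDE v))))
      · rw [hfv P, Valuation.map_sub_eq_of_lt_left _ (by
          rw [hsP]
          exact lt_of_le_of_lt (hαv P) (WithZero.exp_lt_exp.mpr (by omega))), hsP]
    have hkfin : FiniteDimensional K (LinearMap.ker q) := by rw [hker']; infer_instance
    have hqe : (H1 D ⧸ LinearMap.ker q) ≃ₗ[K] H1 E :=
      LinearMap.quotKerEquivOfSurjective q hq
    have : FiniteDimensional K (H1 D ⧸ LinearMap.ker q) := hqe.symm.finiteDimensional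
    have hfinD : FiniteDimensional K (H1 D) :=
      Module.Finite.of_submodule_quotient (LinearMap.ker q)
    refine ⟨hfinD, ?_⟩
    have h1 := LinearMap.finrank_range_add_finrank_ker q
    rw [LinearMap.range_eq_top.mpr hq, finrank_top, hker', finrank_span_singleton hsne] at h1
    simp only [defect, hE, degree_add_single] at *
    omega

theorem exists_maximal_defect : ∃ D₀ : Divisor K F, ∀ D : Divisor K F, defect D ≤ defect D₀ := by
  obtain ⟨γ, hγ⟩ := exists_defect_le (K := K) (F := F)
  obtain ⟨z, ⟨D₀, rfl⟩, hz⟩ := Int.exists_greatest_of_bdd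
    (P := fun z => ∃ D : Divisor K F, defect D = z)
    ⟨γ, fun z ⟨D, hD⟩ => hD ▸ hγ D⟩ ⟨_, 0, rfl⟩
  exact ⟨D₀, fun D => hz _ ⟨D, rfl⟩⟩

theorem sup_eq_top_of_maximal {D₀ : Divisor K F} (h : ∀ D : Divisor K F, defect D ≤ defect D₀) :
    repartitionsOf D₀ ⊔ principalRepartitions K F = ⊤ := by
  classical
  refine Submodule.eq_top_iff'.mpr fun α => ?_
  have hα := mem_repartitions_iff_finite.mp α.2
  let G : Divisor K F := Finsupp.onFinset (hα.toFinset ∪ D₀.support)
    (fun v => max (max (-v.ord ((α : Place K F → F) v)) 0) (D₀ v)) fun v hv => by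
      simp only [Finset.mem_union, Set.Finite.mem_toFinset, Set.mem_ofPred_eq,
        Finsupp.mem_support_iff]
      omega
  have hG : ∀ v, G v = max (max (-v.ord ((α : Place K F → F) v)) 0) (D₀ v) := fun v => rfl
  have hαG : α ∈ repartitionsOf G := mem_repartitionsOf_iff.mpr fun v => Or.inr (by
    rw [hG]; omega)
  have key : repartitionsOf G ⊔ principalRepartitions K F ≤
      repartitionsOf D₀ ⊔ principalRepartitions K F := by
    refine divisor_le_induction (motive := fun H => repartitionsOf H ⊔ principalRepartitions K F ≤
      repartitionsOf D₀ ⊔ principalRepartitions K F) (D := D₀) (E := G)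
      (fun v => by rw [hG]; exact le_max_right _ _) le_rfl fun H P hH _ ih => ?_
    refine (sup_le ?_ le_sup_right).trans ih
    -- the defect cannot increase, so some section has exact order at `P`
    by_cases hex : ∃ f ∈ riemannRochSpace (H + Finsupp.single P 1),
        P.adicValuation f = WithZero.exp (H P + 1)
    · obtain ⟨f, hf, hfP⟩ := hex
      exact repartitionsOf_add_single_le_of_exists hf hfP
    · exfalso
      have hle : ell (H + Finsupp.single P 1) ≤ ell H := Submodule.finrank_mono fun f hf => by
        have h1 := mem_riemannRochSpace_sub_single hf (lt_of_le_of_ne (hf P) fun e => hex ⟨f, hf, by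
          simpa using e⟩)
        rwa [add_sub_cancel_right] at h1
      have h1 := h (H + Finsupp.single P 1)
      have h2 := defect_mono hH
      simp only [defect, degree_add_single] at h1 h2
      omega
  exact key (Submodule.mem_sup_left hαG)

theorem finite_and_finrank_H1 (D : Divisor K F) :
    FiniteDimensional K (H1 D) ∧
      ∀ D₀ : Divisor K F, (∀ E : Divisor K F, defect E ≤ defect D₀) →
        (Module.finrank K (H1 D) : ℤ) + defect D = defect D₀ := by
  classical
  obtain ⟨D₀, hD₀⟩ := exists_maximal_defect (K := K) (F := F)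
  let G : Divisor K F := Finsupp.onFinset (D.support ∪ D₀.support)
    (fun v => max (D v) (D₀ v)) fun v hv => by
      simp only [Finset.mem_union, Finsupp.mem_support_iff]
      omega
  have hDG : D ≤ G := fun v => le_max_left _ _
  have hD₀G : D₀ ≤ G := fun v => le_max_right _ _
  have htop : repartitionsOf G ⊔ principalRepartitions K F = ⊤ := top_le_iff.mp
    ((sup_eq_top_of_maximal hD₀).ge.trans (sup_le_sup_right (repartitionsOf_mono hD₀G) _))
  have : Subsingleton (H1 G) := Submodule.Quotient.subsingleton_iff.mpr htop
  have hdG : defect G = defect D₀ := le_antisymm (hD₀ G) (defect_mono hD₀G)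
  have key : ∀ n : ℕ, ∀ H : Divisor K F, H ≤ G → (Divisor.degree (G - H)).toNat ≤ n →
      FiniteDimensional K (H1 H) ∧ (Module.finrank K (H1 H) : ℤ) + defect H = defect D₀ := by
    intro n
    induction n with
    | zero =>
      intro H hH hn
      have h0 := degree_nonneg (sub_nonneg.mpr hH)
      have hd : Divisor.degree (G - H) = 0 := by omega
      have hHG : H = G := by
        ext v
        rw [degree_eq_sum] at hd
        by_contra hne
        have h1 := (Finset.sum_eq_zero_iff_of_nonneg fun v _ =>
          (sub_nonneg.mpr hH : 0 ≤ G - H) v).mp hd v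
            (Finsupp.mem_support_iff.mpr (by simpa [sub_eq_zero] using Ne.symm hne))
        rw [Finsupp.sub_apply] at h1
        exact hne (by omega)
      subst hHG
      refine ⟨inferInstance, ?_⟩
      rw [Module.finrank_zero_of_subsingleton, hdG]
      simp
    | succ n ih =>
      intro H hH hn
      by_cases hsmall : (Divisor.degree (G - H)).toNat ≤ n
      · exact ih H hH hsmall
      have hne : G - H ≠ 0 := fun e => by simp [e] at hsmall
      obtain ⟨P, hP⟩ := Finsupp.support_nonempty_iff.mpr hne
      have hle : H + Finsupp.single P 1 ≤ G := by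
        intro v
        have h1 := hH v
        have h2 := Finsupp.mem_support_iff.mp hP
        simp only [Finsupp.sub_apply, Finsupp.add_apply, Finsupp.single_apply] at h2 ⊢
        split_ifs with hv
        · subst hv
          omega
        · omega
      obtain ⟨hf, he⟩ := ih _ hle (by
        have : Divisor.degree (G - (H + Finsupp.single P 1)) = Divisor.degree (G - H) - 1 := by
          rw [← sub_sub, degree_sub_single]
        omega)
      obtain ⟨hf', he'⟩ := finite_and_add_defect_of_add_single H P hf
      exact ⟨hf', he'.trans he⟩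
  refine ⟨(key _ D hDG le_rfl).1, fun D₁ hD₁ => ?_⟩
  rw [(key _ D hDG le_rfl).2]
  exact le_antisymm (hD₁ _) (hD₀ _)

theorem defect_maximal_eq {D₀ : Divisor K F} (h : ∀ E : Divisor K F, defect E ≤ defect D₀) :
    defect D₀ = (genusFF K F : ℤ) - 1 := by
  have := (finite_and_finrank_H1 (0 : Divisor K F)).2 D₀ h
  simp only [defect, map_zero, ell_zero] at this ⊢
  unfold genusFF
  omega

end RR

instance finiteDimensional_H1 (D : Divisor K F) : FiniteDimensional K (H1 D) :=
  (RR.finite_and_finrank_H1 D).1

/-- Riemann-Roch, first form. -/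
theorem riemannRoch (D : Divisor K F) :
    (ell D : ℤ) = Divisor.degree D + 1 - genusFF K F + Module.finrank K (H1 D) := by
  obtain ⟨D₀, h⟩ := RR.exists_maximal_defect (K := K) (F := F)
  have h1 := (RR.finite_and_finrank_H1 D).2 D₀ h
  rw [RR.defect_maximal_eq h] at h1
  simp only [RR.defect] at h1
  omega

theorem riemann_inequality (D : Divisor K F) :
    Divisor.degree D + 1 - genusFF K F ≤ (ell D : ℤ) := by
  have := riemannRoch D
  omega

/-- Riemann's inequality, in boundedness form. -/
theorem exists_degree_sub_ell_le :
    ∃ γ : ℤ, ∀ D : Divisor K F, Divisor.degree D - ell D ≤ γ :=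
  RR.exists_defect_le

theorem exists_forall_finrank_H1_eq_zero :
    ∃ c : ℤ, ∀ D : Divisor K F, c ≤ Divisor.degree D → Module.finrank K (H1 D) = 0 := by
  obtain ⟨D₀, h⟩ := RR.exists_maximal_defect (K := K) (F := F)
  refine ⟨Divisor.degree D₀ + genusFF K F, fun D hD => ?_⟩
  have hpos := riemann_inequality (D - D₀)
  rw [map_sub] at hpos
  have : riemannRochSpace (D - D₀) ≠ ⊥ := fun e => by
    unfold ell at hpos
    rw [e, finrank_bot] at hpos
    omega
  obtain ⟨f, hf, hf0⟩ := Submodule.exists_mem_ne_zero_of_ne_bot this
  have hge := (mem_riemannRochSpace_iff_add_nonneg hf0).mp hf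
  have hle : D₀ ≤ D + divFn f := fun v => by
    have := hge v
    simp only [Finsupp.zero_apply, Finsupp.add_apply, Finsupp.sub_apply] at this ⊢
    omega
  have h1 := RR.defect_mono hle
  have h2 := h (D + divFn f)
  rw [RR.defect_add_divFn hf0] at h1 h2
  have h3 := (RR.finite_and_finrank_H1 D).2 D₀ h
  omega

/-- The genus is read off from the Riemann-Roch dimensions of large multiples of a divisor
of positive degree. -/
theorem genusFF_eq_of_forall_ell {B : Divisor K F} (hB : 0 < Divisor.degree B) {g : ℤ} {m₀ : ℕ}
    (h : ∀ m : ℕ, m₀ ≤ m → (ell ((m : ℤ) • B) : ℤ) = m * Divisor.degree B + 1 - g) :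
    (genusFF K F : ℤ) = g := by
  obtain ⟨c, hc⟩ := exists_forall_finrank_H1_eq_zero (K := K) (F := F)
  have h1 := h (max m₀ c.toNat) (le_max_left _ _)
  have h2 : c ≤ ((max m₀ c.toNat : ℕ) : ℤ) := by omega
  have h3 : ((max m₀ c.toNat : ℕ) : ℤ) ≤ (max m₀ c.toNat : ℕ) * Divisor.degree B :=
    le_mul_of_one_le_right (Int.natCast_nonneg _) hB
  have hdeg : Divisor.degree (((max m₀ c.toNat : ℕ) : ℤ) • B) =
      (max m₀ c.toNat : ℕ) * Divisor.degree B := by rw [map_zsmul, smul_eq_mul]
  have h4 := riemannRoch (((max m₀ c.toNat : ℕ) : ℤ) • B)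
  rw [hc _ (by omega), hdeg] at h4
  omega

end FLTA.Curves
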