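import Fermat.Agent.Curves.RRModularPoly
import Mathlib.Algebra.Polynomial.BigOperators
import Mathlib.RingTheory.Adjoin.Basic
import Mathlib.Algebra.Ring.GeomSum

/-! # Holomorphic modular functions lie in the `ℂ`-span of the function field over `L`

Lagrange interpolation over the cosets: if `P` is the equation of `j_N` over `ℂ[j]` then
`A * P'(j_N)` is a polynomial in `j, j_N`, and `P'(j_N)` is the expansion of a nonzero element of
the small field. -/

set_option autoImplicit false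

noncomputable section

set_option synthInstance.maxHeartbeats 200000
set_option maxHeartbeats 1000000

open Polynomial ModularCurve CongruenceSubgroup
open scoped MatrixGroups

namespace FLTA.Curves

variable (N : ℕ)

/-- Evaluation of a modular function at a point. -/
def rrEvalAt (τ : UpperHalfPlane) : Bridge.ModHol N →ₐ[ℂ] ℂ :=
  (Pi.evalAlgHom ℂ (fun _ : UpperHalfPlane => ℂ) τ).comp (Bridge.ModHol N).val

theorem rrEvalAt_apply (τ : UpperHalfPlane) (F : Bridge.ModHol N) :
    rrEvalAt N τ F = (F : UpperHalfPlane → ℂ) τ := rfl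

theorem rrEvalAt_aeval_jMod (τ : UpperHalfPlane) (p : ℂ[X]) :
    rrEvalAt N τ (aeval (Bridge.jMod N) p) = p.eval (Bridge.jInv τ) := by
  rw [← aeval_algHom_apply, coe_aeval_eq_eval]
  rfl

theorem jAt_one_eq_jMod (h : 1 ∣ N) : Bridge.jAt N 1 h = Bridge.jMod N := by
  refine Subtype.ext (funext fun τ => ?_)
  show Bridge.jInv (Bridge.scaleTau 1 τ) = Bridge.jInv τ
  congr 1
  ext
  simp [Bridge.coe_scaleTau]

variable [NeZero N]

/-- Expansion at infinity into `LSC`. -/
def rrQexp : Bridge.ModHol N →ₐ[ℂ] LSC where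
  toRingHom := (toLSC : LaurentSeries ℂ →+* LSC).comp (Bridge.qexp N).toRingHom
  commutes' c := by
    show toLSC (Bridge.qexp N (algebraMap ℂ _ c)) = _
    rw [AlgHom.commutes, toLSC_algebraMap]

theorem rrQexp_apply (F : Bridge.ModHol N) : rrQexp N F = toLSC (Bridge.qexp N F) := rfl

theorem rrQexp_injective : Function.Injective (rrQexp N) :=
  toLSC.injective.comp (Bridge.qexp_injective N)

/-- Sums over cosets of modular functions are polynomials in `j`. -/
theorem exists_polynomial_sum_cosets [Fintype (SL(2, ℤ) ⧸ Gamma0 N)] (F : Bridge.ModHol N) :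
    ∃ p : ℂ[X], ∀ τ : UpperHalfPlane,
      ∑ c : SL(2, ℤ) ⧸ Gamma0 N, (F : UpperHalfPlane → ℂ) (c.out⁻¹ • τ) =
        p.eval (Bridge.jInv τ) := by
  obtain ⟨Q, hQ, -, hQp⟩ := Bridge.exists_monic_eval_eq_prod N F.2
  refine ⟨-Q.nextCoeff, fun τ => ?_⟩
  have h : (Q.map (evalRingHom (Bridge.jInv τ))).nextCoeff = Q.nextCoeff.eval (Bridge.jInv τ) := by
    rw [nextCoeff, nextCoeff, hQ.natDegree_map]
    split_ifs <;> simp
  rw [hQp, finprod_eq_prod_of_fintype, prod_X_sub_C_nextCoeff] at h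
  rw [eval_neg, ← h, neg_neg]

omit [NeZero N] in
theorem interpolation_eval {ι : Type*} [Fintype ι] (s : ι → ℂ) (c₀ : ι)
    (c : ι) (P : ℂ[X]) (hP : P = ∏ i, (X - C (s i))) {n : ℕ} (hn : P.natDegree < n) :
    ∑ i ∈ Finset.range n, P.coeff i * ∑ l ∈ Finset.range i, s c ^ l * s c₀ ^ (i - 1 - l) =
      if s c = s c₀ then P.derivative.eval (s c₀) else 0 := by
  classical
  split_ifs with h
  · rw [h]
    have hd : ∀ i : ℕ, ∑ l ∈ Finset.range i, s c₀ ^ l * s c₀ ^ (i - 1 - l) =
        (i : ℂ) * s c₀ ^ (i - 1) := fun i => geom_sum₂_self _ _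
    simp only [hd]
    rw [derivative_eval, sum_over_range' P (by simp) n hn]
    exact Finset.sum_congr rfl fun i _ => by ring
  · have hroot : ∀ i : ι, P.eval (s i) = 0 := fun i => by
      rw [hP, eval_prod, Finset.prod_eq_zero (Finset.mem_univ i)]
      simp
    have hmul : (∑ i ∈ Finset.range n,
        P.coeff i * ∑ l ∈ Finset.range i, s c ^ l * s c₀ ^ (i - 1 - l)) * (s c - s c₀) = 0 := by
      rw [Finset.sum_mul]
      calc ∑ i ∈ Finset.range n, P.coeff i *
            (∑ l ∈ Finset.range i, s c ^ l * s c₀ ^ (i - 1 - l)) * (s c - s c₀)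
          = ∑ i ∈ Finset.range n, (P.coeff i * s c ^ i - P.coeff i * s c₀ ^ i) :=
            Finset.sum_congr rfl fun i _ => by rw [mul_assoc, geom_sum₂_mul, mul_sub]
        _ = 0 := by
            rw [Finset.sum_sub_distrib, ← eval_eq_sum_range' hn, ← eval_eq_sum_range' hn,
              hroot, hroot, sub_zero]
    exact (mul_eq_zero.1 hmul).resolve_right (sub_ne_zero.2 h)

omit [NeZero N] in
theorem derivative_eval_eq_zero_of_eq {ι : Type*} [Fintype ι] (s : ι → ℂ) {c c₀ : ι}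
    (hc : c ≠ c₀) (h : s c = s c₀) (P : ℂ[X]) (hP : P = ∏ i, (X - C (s i))) :
    P.derivative.eval (s c₀) = 0 := by
  classical
  rw [hP, ← Finset.mul_prod_erase _ _ (Finset.mem_univ c₀),
    ← Finset.mul_prod_erase _ _ (Finset.mem_erase.2 ⟨hc, Finset.mem_univ c⟩)]
  simp [derivative_mul, h]

variable (L : Type*) [Field L] [Algebra ℚ L] [Algebra L ℂ]

/-- Every holomorphic modular function is in the `ℂ`-span of the function field over `L`. -/
theorem rrQexp_mem_span (A : Bridge.ModHol N) :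
    rrQexp N A ∈ Submodule.span ℂ (Set.range (rrEvC N L)) := by
  classical
  have hidx := Bridge.index_Gamma0_eq_dedekindPsi N
  have hψ : 0 < dedekindPsi N := by
    rw [← hidx]; exact Nat.pos_of_ne_zero Subgroup.FiniteIndex.index_ne_zero
  let _ : Fintype (SL(2, ℤ) ⧸ Gamma0 N) := Subgroup.fintypeQuotientOfFiniteIndex
  set θm := Bridge.jAt N N dvd_rfl with hθm
  obtain ⟨P, hP, hdeg, hPp⟩ := Bridge.exists_monic_eval_eq_prod N θm.2
  choose T hT using fun l : ℕ => exists_polynomial_sum_cosets N (A * θm ^ l)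
  let G : Bridge.ModHol N := ∑ i ∈ Finset.range (dedekindPsi N + 1), ∑ l ∈ Finset.range i,
    aeval (Bridge.jMod N) (P.coeff i * T l) * θm ^ (i - 1 - l)
  let Dθ : Bridge.ModHol N :=
    P.derivative.eval₂ (aeval (Bridge.jMod N) : ℂ[X] →ₐ[ℂ] Bridge.ModHol N).toRingHom θm
  have hev : ∀ (τ : UpperHalfPlane) (R : Polynomial ℂ[X]) (F : Bridge.ModHol N),
      rrEvalAt N τ (R.eval₂ (aeval (Bridge.jMod N) : ℂ[X] →ₐ[ℂ] Bridge.ModHol N).toRingHom F) =
        (R.map (evalRingHom (Bridge.jInv τ))).eval ((F : UpperHalfPlane → ℂ) τ) := fun τ R F => by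
    rw [eval_map]
    show (rrEvalAt N τ).toRingHom _ = _
    rw [hom_eval₂]
    congr 1
    exact RingHom.ext fun p => rrEvalAt_aeval_jMod N τ p
  have hPτ : ∀ τ : UpperHalfPlane, P.map (evalRingHom (Bridge.jInv τ)) =
      ∏ c : SL(2, ℤ) ⧸ Gamma0 N,
        (X - C ((θm : UpperHalfPlane → ℂ) (c.out⁻¹ • τ))) := fun τ => by
    rw [hPp, finprod_eq_prod_of_fintype]
  have hinv : ∀ (F : Bridge.ModHol N) (τ : UpperHalfPlane),
      (F : UpperHalfPlane → ℂ) ((((1 : SL(2, ℤ)) : SL(2, ℤ) ⧸ Gamma0 N)).out⁻¹ • τ) =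
        (F : UpperHalfPlane → ℂ) τ := fun F τ => by
    obtain ⟨γ, hγ⟩ := QuotientGroup.mk_out_eq_mul (Gamma0 N) (1 : SL(2, ℤ))
    rw [hγ, one_mul]
    exact F.2.2.1 _ (inv_mem γ.2) τ
  have hident : G = A * Dθ := by
    refine Subtype.ext (funext fun τ => ?_)
    show rrEvalAt N τ G = rrEvalAt N τ (A * Dθ)
    rw [map_mul, hev, ← derivative_map]
    set Pτ := P.map (evalRingHom (Bridge.jInv τ)) with hPτdef
    let s : SL(2, ℤ) ⧸ Gamma0 N → ℂ := fun c => (θm : UpperHalfPlane → ℂ) (c.out⁻¹ • τ)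
    let y : SL(2, ℤ) ⧸ Gamma0 N → ℂ := fun c => (A : UpperHalfPlane → ℂ) (c.out⁻¹ • τ)
    set c₀ : SL(2, ℤ) ⧸ Gamma0 N := ((1 : SL(2, ℤ)) : SL(2, ℤ) ⧸ Gamma0 N) with hc₀
    have hs : s c₀ = (θm : UpperHalfPlane → ℂ) τ := hinv θm τ
    have hy : y c₀ = (A : UpperHalfPlane → ℂ) τ := hinv A τ
    have hn : Pτ.natDegree < dedekindPsi N + 1 := by
      rw [hPτdef, hP.natDegree_map, hdeg]; omega
    calc rrEvalAt N τ G
        = ∑ i ∈ Finset.range (dedekindPsi N + 1), ∑ l ∈ Finset.range i,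
            Pτ.coeff i * (∑ c, y c * s c ^ l) * s c₀ ^ (i - 1 - l) := by
          simp only [G, map_sum, map_mul, map_pow]
          refine Finset.sum_congr rfl fun i _ => Finset.sum_congr rfl fun l _ => ?_
          rw [rrEvalAt_aeval_jMod, rrEvalAt_aeval_jMod, rrEvalAt_apply, ← hs, ← hT,
            hPτdef, Polynomial.coeff_map, coe_evalRingHom]
          simp [s, y]
      _ = ∑ c, y c * ∑ i ∈ Finset.range (dedekindPsi N + 1),
            Pτ.coeff i * ∑ l ∈ Finset.range i, s c ^ l * s c₀ ^ (i - 1 - l) := by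
          simp only [Finset.mul_sum, Finset.sum_mul]
          rw [Finset.sum_comm (γ := SL(2, ℤ) ⧸ Gamma0 N) (s := Finset.univ)]
          refine Finset.sum_congr rfl fun i _ => ?_
          rw [Finset.sum_comm]
          exact Finset.sum_congr rfl fun c _ => Finset.sum_congr rfl fun l _ => by ring
      _ = rrEvalAt N τ A * Pτ.derivative.eval ((θm : UpperHalfPlane → ℂ) τ) := by
          rw [Finset.sum_eq_single c₀, interpolation_eval s c₀ c₀ Pτ (hPτ τ) hn, if_pos rfl, hy,
            hs]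
          · rfl
          · intro c _ hc
            rw [interpolation_eval s c₀ c Pτ (hPτ τ) hn]
            split_ifs with h
            · rw [derivative_eval_eq_zero_of_eq s hc h Pτ (hPτ τ), mul_zero]
            · rw [mul_zero]
          · simp
  have hj : rrQexp N (Bridge.jMod N) = rrEvC N L (Bridge.jF N L) := by
    rw [rrEvC_jElt, jAt_one_eq_jMod, rrQexp_apply]
  have hθ : rrQexp N θm = rrEvC N L (Bridge.jNF N L) := by
    rw [rrEvC_jElt, rrQexp_apply]
  have hrel : P.eval₂ (aeval (Bridge.jMod N) : ℂ[X] →ₐ[ℂ] Bridge.ModHol N).toRingHom θm = 0 := by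
    refine Subtype.ext (funext fun τ => ?_)
    show rrEvalAt N τ _ = 0
    rw [hev, hPτ, eval_prod,
      Finset.prod_eq_zero (Finset.mem_univ ((1 : SL(2, ℤ)) : SL(2, ℤ) ⧸ Gamma0 N))]
    rw [eval_sub, eval_X, eval_C, hinv, sub_self]
  have hcomp : (rrQexp N).toRingHom.comp
      (aeval (Bridge.jMod N) : ℂ[X] →ₐ[ℂ] Bridge.ModHol N).toRingHom =
      (aeval (rrEvC N L (Bridge.jF N L)) : ℂ[X] →ₐ[ℂ] LSC).toRingHom := by
    refine RingHom.ext fun p => ?_
    show rrQexp N (aeval (Bridge.jMod N) p) = aeval _ p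
    rw [← aeval_algHom_apply, hj]
  obtain ⟨d, hd0, hd⟩ := exists_derivative_eq N (L := L) hP hdeg (by
    rw [← hcomp, ← hθ]
    show P.eval₂ ((rrQexp N).toRingHom.comp _) ((rrQexp N).toRingHom θm) = 0
    rw [← hom_eval₂, hrel, map_zero])
  have hD : rrQexp N Dθ = rrEvC N L d := by
    rw [← hd, ← hcomp, ← hθ]
    exact hom_eval₂ _ _ _ _
  let S : Subalgebra ℂ LSC := Algebra.adjoin ℂ (Set.range (rrEvC N L))
  have hS : Subalgebra.toSubmodule S ≤ Submodule.span ℂ (Set.range (rrEvC N L)) := by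
    rw [Algebra.adjoin_eq_span]
    refine Submodule.span_mono ?_
    show ((Submonoid.closure _ : Submonoid LSC) : Set LSC) ⊆ _
    rw [show Set.range (rrEvC N L) = ((MonoidHom.mrange ((rrEvC N L).toRingHom.toMonoidHom)) :
      Set LSC) from rfl, Submonoid.closure_eq]
  refine hS ?_
  have hG : rrQexp N G ∈ S := by
    simp only [G, map_sum, map_mul, map_pow, ← aeval_algHom_apply, hj, hθ]
    refine S.sum_mem fun i _ => S.sum_mem fun l _ => S.mul_mem (S.mul_mem ?_ ?_)
      (S.pow_mem (Algebra.subset_adjoin (Set.mem_range_self _)) _) <;>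
    exact Algebra.adjoin_mono (Set.singleton_subset_iff.2 (Set.mem_range_self _))
      (aeval_mem_adjoin_singleton ℂ _)
  have hA : rrQexp N A = rrQexp N G * rrEvC N L d⁻¹ := by
    rw [hident, map_mul, hD, mul_assoc, ← map_mul, mul_inv_cancel₀ hd0, map_one, mul_one]
  show rrQexp N A ∈ S
  rw [hA]
  exact S.mul_mem hG (Algebra.subset_adjoin (Set.mem_range_self _))

end FLTA.Curves
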