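import Fermat.Agent.Curves.RRModularForms
import Fermat.Agent.Curves.RRModularSpan
import Fermat.Agent.Curves.RRBaseChange
import Fermat.Agent.Curves.RRInstances
import Fermat.Agent.Curves.RRGenus
import Fermat.Agent.Dim.Genus

/-! # `L(m·(j)_∞)` is `M_{12m}(Γ₀(N))`, and the genus of the function field of `X₀(N)` -/

set_option autoImplicit false

noncomputable section

set_option synthInstance.maxHeartbeats 200000
set_option maxHeartbeats 1000000

open UpperHalfPlane CongruenceSubgroup AlgebraicCurve ModularCurve Polynomial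
open scoped MatrixGroups IntermediateField ModularForm

namespace FLTA.Curves

variable (N : ℕ) [NeZero N] (L : Type*) [Field L] [Algebra ℚ L] [IsAlgClosed L] [Algebra L ℂ]

local notation "FN" => laurentBaseChange L (modularFunctionFieldFull N)

omit [IsAlgClosed L] in
theorem rrQexp_jMod : rrQexp N (Bridge.jMod N) = rrEvC N L (Bridge.jF N L) := by
  rw [rrEvC_jElt, jAt_one_eq_jMod, rrQexp_apply]

omit [IsAlgClosed L] in
theorem evFrac_eq_algebraMap {x : laurentBaseChange L (modularFunctionFieldFull N)}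
    {A : Bridge.ModHol N}
    (h : coeffMap (algebraMap L ℂ) (x : LaurentSeries L) = Bridge.qexp N A) :
    Bridge.evFrac N (algebraMap L ℂ) x = algebraMap (Bridge.ModHol N) (Bridge.ModFrac N) A := by
  refine Bridge.qexpFrac_injective N ?_
  rw [Bridge.qexpFrac_evFrac, h, Bridge.qexpFrac, IsFractionRing.lift_algebraMap]
  rfl

omit [IsAlgClosed L] in
theorem ordCusp_eq_order_qexpAt (g : SL(2, ℤ))
    {x : laurentBaseChange L (modularFunctionFieldFull N)} {A : Bridge.ModHol N}
    (h : coeffMap (algebraMap L ℂ) (x : LaurentSeries L) = Bridge.qexp N A) :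
    Bridge.ordCusp N (algebraMap L ℂ) g x = (Bridge.qexpAt N g A).order := by
  rw [Bridge.ordCusp, evFrac_eq_algebraMap N L h, Bridge.qexpFracAt,
    IsFractionRing.lift_algebraMap]
  rfl

theorem isBounded_discriminant_pow_mul (m : ℕ) (g : SL(2, ℤ)) (A : Bridge.ModHol N)
    (h : -((m * N : ℕ) : ℤ) ≤ (Bridge.qexpAt N g A).order) :
    IsBoundedAtImInfty
      (fun τ : ℍ => ModularForm.discriminant τ ^ m * (A : ℍ → ℂ) (g • τ)) := by
  let q : Bridge.HolInfty N :=
    ⟨fun τ : ℍ => Function.Periodic.qParam 1 τ ^ m, Bridge.qParam_pow_mem_holInfty N m⟩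
  let G : Bridge.HolInfty N := q * Bridge.modHolToHolInfty N g A
  have hq : Bridge.expansion N q = HahnSeries.single ((m * N : ℕ) : ℤ) (1 : ℂ) := by
    show Bridge.expansionFun N _ = _
    rw [Bridge.expansionFun_of_bounded N q.2 (Bridge.isBoundedAtImInfty_qParam_pow m),
      Bridge.qExpansion_qParam_pow, HahnSeries.ofPowerSeries_X_pow]
  have hG : 0 ≤ (Bridge.expansion N G).order := by
    show 0 ≤ (Bridge.expansion N (q * Bridge.modHolToHolInfty N g A)).order
    rw [map_mul, hq]
    change 0 ≤ (HahnSeries.single ((m * N : ℕ) : ℤ) (1 : ℂ) * Bridge.qexpAt N g A).order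
    by_cases hA : Bridge.qexpAt N g A = 0
    · rw [hA, mul_zero, HahnSeries.order_zero]
    · rw [HahnSeries.order_mul (by simp) hA, HahnSeries.order_single one_ne_zero]
      omega
  have hb := (Bridge.isBoundedAtImInfty_iff_order N G).2 hG
  have hd : IsBoundedAtImInfty
      (fun τ : ℍ => (ModularForm.discriminant τ / Function.Periodic.qParam 1 τ) ^ m) :=
    Filter.Tendsto.isBigO_one ℝ (tendsto_discriminant_div_qParam.pow m)
  refine (hd.mul hb).congr (fun τ => ?_) fun τ => by simp
  show (ModularForm.discriminant τ / Function.Periodic.qParam 1 τ) ^ m *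
    (Function.Periodic.qParam 1 τ ^ m * (A : ℍ → ℂ) (g • τ)) = _
  rw [← mul_assoc, ← mul_pow,
    div_mul_cancel₀ _ (Function.Periodic.qParam_ne_zero (τ : ℂ))]

/-- An element of `L(m·(j)_∞)` is a modular form of weight `12 m` divided by `Δ ^ m`. -/
theorem exists_mfQuot_eq {B : Divisor L FN}
    (hB : ∀ v : Place L FN, B v = max 0 (-v.ord (Bridge.jF N L))) {m : ℕ}
    {x : laurentBaseChange L (modularFunctionFieldFull N)}
    (hx : x ∈ riemannRochSpace ((m : ℤ) • B)) :
    ∃ f : Dim.MF (Gamma0 N) (12 * m : ℤ), rrQexp N (mfQuot N m f) = rrEvC N L x := by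
  set ι := algebraMap L ℂ
  have hord : ∀ v : Place L FN, x ≠ 0 → -((m : ℤ) * B v) ≤ v.ord x := fun v hx0 => by
    have := (mem_riemannRochSpace_iff.1 hx v).resolve_left hx0
    rwa [Finsupp.smul_apply, smul_eq_mul] at this
  have hj : ∀ τ : ℍ, 0 ≤ Bridge.ordF N ι τ (Bridge.jF N L) := fun τ => by
    rw [Bridge.ordF, Bridge.evMero_jElt]
    by_cases hA : Bridge.modHolToHol N (Bridge.jAt N 1 (one_dvd N)) = 0
    · simp [hA, Bridge.meroOrd]
    rw [← div_one (algebraMap Bridge.Hol Bridge.Mero _),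
      ← map_one (algebraMap Bridge.Hol Bridge.Mero), Bridge.meroOrd_div τ hA one_ne_zero]
    have h1 : Bridge.ordAt τ ((1 : Bridge.Hol) : ℍ → ℂ) = 0 :=
      (Bridge.ordAt_eq_zero_iff (1 : Bridge.Hol).2 one_ne_zero τ).2 one_ne_zero
    rw [h1]
    simp
  have hx_hol : ∀ τ : ℍ, 0 ≤ Bridge.ordF N ι τ x := fun τ => by
    by_cases hτ : Bridge.IsPointOver ι τ
    · have he : (0 : ℤ) < Bridge.ellipticIndex N τ := by
        exact_mod_cast Bridge.ellipticIndex_pos N τ
      rw [Bridge.ordF_eq_mul_ord_placeAt N ι τ hτ]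
      by_cases hx0 : x = 0
      · simp [hx0]
      have h := hj τ
      rw [Bridge.ordF_eq_mul_ord_placeAt N ι τ hτ] at h
      have h' : 0 ≤ (Bridge.placeAt N ι τ hτ).ord (Bridge.jF N L) :=
        nonneg_of_mul_nonneg_right h he
      have hv := hord (Bridge.placeAt N ι τ hτ) hx0
      rw [hB, max_eq_left (by omega), mul_zero, neg_zero] at hv
      exact mul_nonneg he.le hv
    · rw [Bridge.ordF_eq_zero_of_not_isPointOver N ι hτ]
  obtain ⟨A, hA⟩ := Bridge.exists_qexp_eq_of_forall_ordF_nonneg N ι hx_hol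
  have hcusp : ∀ g : SL(2, ℤ), -((m * N : ℕ) : ℤ) ≤ (Bridge.qexpAt N g A).order := fun g => by
    rw [← ordCusp_eq_order_qexpAt N L g hA, Bridge.ordCusp_eq_mul_ord_cuspPlace]
    by_cases hx0 : x = 0
    · simp [hx0]
      positivity
    have hjA : coeffMap ι ((Bridge.jF N L : FN) : LaurentSeries L) =
        Bridge.qexp N (Bridge.jMod N) := by
      rw [← jAt_one_eq_jMod N (one_dvd N)]
      exact toLSC.injective (rrEvC_jElt N L (one_dvd N))
    have hjc := ordCusp_eq_order_qexpAt N L g hjA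
    rw [Bridge.order_qexpAt_jMod, Bridge.ordCusp_eq_mul_ord_cuspPlace] at hjc
    have hN : (0 : ℤ) < N := by exact_mod_cast Nat.pos_of_ne_zero (NeZero.ne N)
    have hd : (0 : ℤ) ≤ Bridge.cuspDiv N g := Int.natCast_nonneg _
    have hneg : (Bridge.cuspPlace N ι g).ord (Bridge.jF N L) < 0 := by
      by_contra hc
      rw [not_lt] at hc
      nlinarith [mul_nonneg hd hc]
    have hv := hord (Bridge.cuspPlace N ι g) hx0
    rw [hB, max_eq_right (by omega), mul_neg, neg_neg] at hv
    calc -((m * N : ℕ) : ℤ) = (m : ℤ) * ((Bridge.cuspDiv N g : ℤ) *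
          (Bridge.cuspPlace N ι g).ord (Bridge.jF N L)) := by rw [hjc]; push_cast; ring
      _ = (Bridge.cuspDiv N g : ℤ) * ((m : ℤ) *
          (Bridge.cuspPlace N ι g).ord (Bridge.jF N L)) := by ring
      _ ≤ _ := mul_le_mul_of_nonneg_left hv hd
  let f : ℍ → ℂ := fun τ => ModularForm.discriminant τ ^ m * (A : ℍ → ℂ) τ
  have hf : f ∈ Dim.MF (Gamma0 N) (12 * m : ℤ) := by
    refine ⟨?_, fun γ hγ => ?_, fun g => ?_⟩
    · exact ((Dim.pow_mem_MF (Dim.SF_le_MF Dim.discriminant_mem) m).1).mul A.2.1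
    · show f ∣[(12 * m : ℤ)] γ = f
      rw [slash_discriminant_pow_mul]
      exact funext fun τ => by rw [A.2.2.1 γ hγ τ]
    · rw [slash_discriminant_pow_mul]
      exact isBounded_discriminant_pow_mul N m g A (hcusp g)
  refine ⟨⟨f, hf⟩, ?_⟩
  have hfA : mfQuot N m ⟨f, hf⟩ = A := Subtype.ext (funext fun τ => by
    rw [mfQuot_apply]
    exact mul_div_cancel_left₀ _ (pow_ne_zero m (ModularForm.discriminant_ne_zero τ)))
  rw [hfA, rrQexp_apply, rrEvC_apply, hA]

/-- The dimension of `L(m·(j)_∞)`. -/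
theorem ell_smul_polarDivisor_jF [IsCurveOver L FN] [IsFunctionField L FN] {B : Divisor L FN}
    (hB : ∀ v : Place L FN, B v = max 0 (-v.ord (Bridge.jF N L))) (m : ℕ) :
    ell ((m : ℤ) • B) = Module.finrank ℂ (Dim.MF (Gamma0 N) (12 * m : ℤ)) := by
  let φ : Dim.MF (Gamma0 N) (12 * m : ℤ) →ₗ[ℂ] LSC :=
    (rrQexp N).toLinearMap.comp (mfQuot N m)
  have hφ : Function.Injective φ := (rrQexp_injective N).comp (mfQuot_injective N m)
  have hrange : LinearMap.range φ =
      Submodule.span ℂ (rrEvC N L '' riemannRochSpace ((m : ℤ) • B)) := by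
    refine le_antisymm ?_ (Submodule.span_le.2 ?_)
    · rintro - ⟨f, rfl⟩
      obtain ⟨P, hP, hdeg, hroot⟩ := exists_monic_bounded N m f
      refine mem_span_image_rrSpace_of_monic (C := ℂ) (L := LSC) (rrEvC N L)
        (linearIndependent_rrEvC N L) hB (rrQexp_mem_span N L (mfQuot N m f)) P hP hdeg ?_
      have hcomp : (aeval (rrEvC N L (Bridge.jF N L)) : ℂ[X] →ₐ[ℂ] LSC).toRingHom =
          (rrQexp N).toRingHom.comp
            (aeval (Bridge.jMod N) : ℂ[X] →ₐ[ℂ] Bridge.ModHol N).toRingHom := by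
        refine RingHom.ext fun p => ?_
        show aeval (rrEvC N L (Bridge.jF N L)) p = rrQexp N (aeval (Bridge.jMod N) p)
        rw [← aeval_algHom_apply, rrQexp_jMod N L]
      rw [hcomp]
      show P.eval₂ _ ((rrQexp N).toRingHom (mfQuot N m f)) = 0
      rw [← hom_eval₂]
      show (rrQexp N).toRingHom (Bridge.evalJ N (mfQuot N m f) P) = 0
      rw [hroot, map_zero]
    · rintro - ⟨x, hx, rfl⟩
      exact exists_mfQuot_eq N L hB hx
  rw [← LinearMap.finrank_range_of_inj hφ, hrange]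
  exact (finrank_span_image_riemannRochSpace (C := ℂ) (rrEvC N L).toLinearMap
    (linearIndependent_rrEvC N L) ((m : ℤ) • B)).symm

include L in
theorem genusFF_modular_eq :
    (genusFF L (laurentBaseChange L (modularFunctionFieldFull N)) : ℚ) = genusFormula N := by
  have := Bridge.isSepFunctionField N (algebraMap L ℂ) (L := L)
  have : CharZero L := charZero_of_injective_algebraMap (algebraMap ℚ L).injective
  have : HasPrincipalDivisors L FN := IsCurveOver.hasPrincipalDivisors
  obtain ⟨B, hBeq⟩ : ∃ B : Divisor L FN, ∀ v : Place L FN,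
      B v = max 0 (-v.ord (Bridge.jF N L)) := by
    classical
    refine ⟨(-divFn (Bridge.jF N L)).mapRange (fun z => max 0 z) (by simp), fun v => ?_⟩
    rw [Finsupp.mapRange_apply, Finsupp.neg_apply, divFn_apply]
  have htr := Bridge.transcendental_jF N L
  have : Module.Finite L⟮Bridge.jF N L⟯ FN := Bridge.finite_adjoin_jF N L (algebraMap L ℂ)
  have : Algebra.IsSeparable L⟮Bridge.jF N L⟯ FN :=
    Algebra.IsAlgebraic.isSeparable_of_perfectField
  have hdeg : Divisor.degree B = (dedekindPsi N : ℤ) := by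
    rw [degree_polarDivisor htr (fun v => by rw [hBeq, max_comm]),
      Bridge.finrank_adjoin_jF N L (algebraMap L ℂ)]
  have hpos : 0 < Divisor.degree B := by
    rw [hdeg, ← Bridge.index_Gamma0_eq_dedekindPsi]
    exact_mod_cast Nat.pos_of_ne_zero Subgroup.FiniteIndex.index_ne_zero
  set g : ℤ := Divisor.degree B + 1 - (Module.finrank ℂ (Dim.MF (Gamma0 N) (12 * 1 : ℤ)) : ℤ)
    with hg
  have hdim := fun m hm => Dim.finrank_MF_twelve_mul_Gamma0 N m hm
  have hgQ : (g : ℚ) = genusFormula N := by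
    have h1 := hdim 1 le_rfl
    rw [hg, hdeg]
    push_cast at h1 ⊢
    linarith
  have hgen := genusFF_eq_of_forall_ell hpos (g := g) (m₀ := 1) fun m hm => by
    have h1 := hdim m hm
    rw [← hgQ] at h1
    rw [ell_smul_polarDivisor_jF N L hBeq, hdeg]
    have h2 : ((Module.finrank ℂ (Dim.MF (Gamma0 N) (12 * m : ℤ)) : ℤ) : ℚ) =
        (((m : ℤ) * (dedekindPsi N : ℤ) + 1 - g : ℤ) : ℚ) := by
      push_cast at h1 ⊢
      linarith
    exact_mod_cast h2
  rw [← hgQ]
  exact_mod_cast hgen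

/-- The genus of the function field of `X₀(N)` over `ℚ̄`. -/
theorem genusFF_modularFunctionFieldBar :
    (genusFF (AlgebraicClosure ℚ) (modularFunctionFieldBar N) : ℚ) = genusFormula N :=
  letI : Algebra (AlgebraicClosure ℚ) ℂ := complexEmbedding.toRingHom.toAlgebra
  genusFF_modular_eq N (AlgebraicClosure ℚ)

end FLTA.Curves
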