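import Fermat.Agent.Curves.BasicOrd
import Mathlib.RingTheory.Valuation.Discrete.Basic

/-!
# Curves: complements on places

Places attached to normalised discrete valuations, residue degree one criterion.
-/

set_option autoImplicit false

noncomputable section

open IsDedekindDomain WithZero AlgebraicCurve

namespace FLTA.Curves

variable {K F : Type*} [Field K] [Field F] [Algebra K F]

/-- The place of a normalised valuation trivial on the constants. -/
def ofValuation (u : Valuation F ℤᵐ⁰) (hK : ∀ a : K, u (algebraMap K F a) ≤ 1)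
    (hπ : ∃ π : F, u π = exp (-1 : ℤ)) : Place K F where
  toValuationSubring := u.valuationSubring
  algebraMap_mem' a := (Valuation.mem_valuationSubring_iff _ _).mpr (hK a)
  ne_top' := by
    obtain ⟨π, hπ⟩ := hπ
    intro h
    have hm : π⁻¹ ∈ u.valuationSubring := h ▸ ValuationSubring.mem_top _
    rw [Valuation.mem_valuationSubring_iff, map_inv₀, hπ, ← exp_neg, ← exp_zero, exp_le_exp] at hm
    omega
  isPrincipalIdealRing' := by
    obtain ⟨π, hπ⟩ := hπ
    have : u.IsNontrivial := ⟨π, by simp [hπ], by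
      rw [hπ, ← exp_zero, ne_eq, exp_inj]; omega⟩
    exact Valuation.valuationSubring_isPrincipalIdealRing u

theorem ord_ofValuation (u : Valuation F ℤᵐ⁰) (hK : ∀ a : K, u (algebraMap K F a) ≤ 1)
    (hπ : ∃ π : F, u π = exp (-1 : ℤ)) (f : F) : (ofValuation u hK hπ).ord f = -log (u f) :=
  ord_eq_neg_log_of_valuationSubring_eq _ u rfl hπ f

theorem sum_ne_zero_and_ord_sum_eq {ι : Type*} (v : Place K F) (s : Finset ι) (g : ι → F) {i₀ : ι}
    (hi : i₀ ∈ s) (h0 : g i₀ ≠ 0)
    (h : ∀ i ∈ s, i ≠ i₀ → g i = 0 ∨ v.ord (g i₀) < v.ord (g i)) :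
    ∑ i ∈ s, g i ≠ 0 ∧ v.ord (∑ i ∈ s, g i) = v.ord (g i₀) := by
  classical
  rw [← Finset.add_sum_erase s g hi]
  rcases eq_or_ne (∑ i ∈ s.erase i₀, g i) 0 with hz | hz
  · simp [hz, h0]
  have hval : v.adicValuation (∑ i ∈ s.erase i₀, g i) ≤ exp (-v.ord (g i₀) - 1) := by
    refine v.adicValuation.map_sum_le fun i hi' => ?_
    obtain ⟨hne, hmem⟩ := Finset.mem_erase.mp hi'
    rw [v.adicValuation_le_exp_iff]
    rcases h i hmem hne with h1 | h1
    · exact Or.inl h1
    · exact Or.inr (by omega)
  rw [v.adicValuation_le_exp_iff] at hval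
  have hlt : v.ord (g i₀) < v.ord (∑ i ∈ s.erase i₀, g i) := by
    have := hval.resolve_left hz
    omega
  refine ⟨fun hsum => ?_, ord_add_eq_of_lt v h0 hz hlt⟩
  rw [eq_neg_of_add_eq_zero_left hsum, ord_neg] at hlt
  omega

/-- If every integral element is congruent to a constant, the residue field is `K`. -/
theorem bijective_algebraMap_residueField (v : Place K F)
    (h : ∀ f : F, f ≠ 0 → 0 ≤ v.ord f →
      ∃ c : K, f = algebraMap K F c ∨ 0 < v.ord (f - algebraMap K F c)) :
    Function.Bijective (algebraMap K v.ResidueField) := by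
  refine ⟨(algebraMap K v.ResidueField).injective, fun r => ?_⟩
  obtain ⟨a, rfl⟩ := IsLocalRing.residue_surjective r
  rcases eq_or_ne (a : F) 0 with ha | ha
  · exact ⟨0, by rw [map_zero, ZeroMemClass.coe_eq_zero.mp ha, map_zero]⟩
  obtain ⟨c, hc⟩ := h a ha (ord_nonneg_of_mem v a.2)
  refine ⟨c, Eq.symm ?_⟩
  show residueMap v a = residueMap v (algebraMap K v.toValuationSubring c)
  rw [← sub_eq_zero, ← map_sub, residueMap_eq_zero_iff]
  simpa [sub_eq_zero] using hc

theorem deg_eq_one_of_bijective (v : Place K F)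
    (h : Function.Bijective (algebraMap K v.ResidueField)) : v.deg = 1 := by
  show Module.finrank K v.ResidueField = 1
  rw [← Module.finrank_self K]
  exact ((AlgEquiv.ofBijective (Algebra.ofId K v.ResidueField) h).toLinearEquiv.finrank_eq).symm

theorem finite_residueField_of_bijective (v : Place K F)
    (h : Function.Bijective (algebraMap K v.ResidueField)) : Module.Finite K v.ResidueField :=
  Module.Finite.equiv (AlgEquiv.ofBijective (Algebra.ofId K v.ResidueField) h).toLinearEquiv

end FLTA.Curves

end
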