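import Fermat.Agent.Curves.RRSpace
import Mathlib.RingTheory.AlgebraTower
import Mathlib.Algebra.Polynomial.Basis
import Mathlib.LinearAlgebra.FiniteDimensional.Lemmas

/-! # The pole divisor of `x` has degree at most `[F : K(x)]`, and big Riemann-Roch spaces -/

set_option autoImplicit false

noncomputable section

open AlgebraicCurve Polynomial
open scoped IntermediateField

namespace FLTA.Curves.RR

variable {K F : Type*} [Field K] [Field F] [Algebra K F]

theorem mem_iff_le_one (v : Place K F) (f : F) :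
    f ∈ v.toValuationSubring ↔ v.adicValuation f ≤ 1 := by
  refine ⟨fun h => v.adicValuation_le_one_of_mem h, fun h => ?_⟩
  rcases ValuationSubring.mem_or_inv_mem v.toValuationSubring f with hm | hm
  · exact hm
  rcases eq_or_ne f 0 with rfl | h0
  · exact zero_mem _
  have h1 := v.adicValuation_le_one_of_mem hm
  rw [map_inv₀, inv_le_one₀ (zero_lt_iff.mpr (v.adicValuation_ne_zero h0))] at h1
  obtain ⟨u, hu⟩ : IsUnit (⟨f⁻¹, hm⟩ : v.toValuationSubring) :=
    (v.adicValuation_coe_eq_one_iff _).mp (by simp [le_antisymm h h1])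
  have hval := congrArg (fun z : v.toValuationSubring => (z : F)) u.inv_mul
  simp only [hu, MulMemClass.coe_mul, OneMemClass.coe_one] at hval
  have he : ((↑u⁻¹ : v.toValuationSubring) : F) = f := by
    field_simp at hval
    exact hval
  exact he ▸ Subtype.coe_prop _

theorem adicValuation_algebraMap (v : Place K F) {c : K} (hc : c ≠ 0) :
    v.adicValuation (algebraMap K F c) = 1 := by
  rw [v.adicValuation_eq_exp_neg_ord (by simpa using hc), ord_algebraMap_eq_zero]
  simp

theorem exists_uniformizer (v : Place K F) :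
    ∃ π : F, v.adicValuation π = WithZero.exp (-1 : ℤ) :=
  have ⟨π, hπ⟩ := IsDiscreteValuationRing.exists_irreducible v.toValuationSubring
  ⟨π, v.adicValuation_coe_irreducible hπ⟩

/-- Distinct places have incomparable valuation rings. -/
theorem exists_le_one_and_one_lt {P Q : Place K F} (h : P ≠ Q) :
    ∃ y : F, P.adicValuation y ≤ 1 ∧ 1 < Q.adicValuation y := by
  by_contra hcon
  push Not at hcon
  have hle : ∀ y : F, P.adicValuation y ≤ 1 → Q.adicValuation y ≤ 1 := hcon
  by_cases hback : ∀ y : F, Q.adicValuation y ≤ 1 → P.adicValuation y ≤ 1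
  · exact h (Place.ext (SetLike.ext fun y => by
      rw [mem_iff_le_one, mem_iff_le_one]
      exact ⟨hle y, hback y⟩))
  push Not at hback
  obtain ⟨y, hyQ, hyP⟩ := hback
  apply Q.ne_top'
  refine SetLike.ext fun f => ⟨fun _ => ValuationSubring.mem_top f, fun _ => ?_⟩
  rw [mem_iff_le_one]
  have hy0 : y ≠ 0 := by rintro rfl; simp at hyP
  rcases eq_or_ne f 0 with rfl | hf
  · simp
  rw [P.adicValuation_eq_exp_neg_ord hy0, ← WithZero.exp_zero, WithZero.exp_lt_exp] at hyP
  obtain ⟨n, hn⟩ : ∃ n : ℕ, -P.ord f ≤ n := ⟨(-P.ord f).toNat, Int.self_le_toNat _⟩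
  have h1 : P.adicValuation (f / y ^ n) ≤ 1 := by
    rw [map_div₀, map_pow, P.adicValuation_eq_exp_neg_ord hy0, P.adicValuation_eq_exp_neg_ord hf,
      ← WithZero.exp_nsmul, ← WithZero.exp_sub, ← WithZero.exp_zero, WithZero.exp_le_exp,
      nsmul_eq_mul]
    nlinarith
  have e : f = f / y ^ n * y ^ n := (div_mul_cancel₀ f (pow_ne_zero n hy0)).symm
  rw [e, map_mul, map_pow]
  exact mul_le_one₀ (hle _ h1) zero_le (pow_le_one₀ zero_le hyQ)

variable [IsAlgClosed K] [IsCurveOver K F]

omit [IsCurveOver K F] in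
/-- An element which is a unit at `P`, vanishes at `Q`, and is integral on a given finite set. -/
theorem exists_unit_vanishing (S : Finset (Place K F)) {P Q : Place K F} (h : P ≠ Q) :
    ∃ u : F, P.adicValuation u = 1 ∧ Q.adicValuation u < 1 ∧
      ∀ R ∈ S, R.adicValuation u ≤ 1 := by
  classical
  obtain ⟨y, hy₁, hy₂⟩ := exists_le_one_and_one_lt (Ne.symm h)
  obtain ⟨z, hz₁, hz₂⟩ := exists_le_one_and_one_lt h
  -- `q` has a pole at `P` and a zero at `Q`
  have hy0 : y ≠ 0 := by rintro rfl; simp at hy₂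
  have hz0 : z ≠ 0 := by rintro rfl; simp at hz₂
  have hPq : 1 < P.adicValuation (y / z) := by
    rw [map_div₀, one_lt_div₀ (zero_lt_iff.mpr (P.adicValuation_ne_zero hz0))]
    exact lt_of_le_of_lt hz₁ hy₂
  have hQq : Q.adicValuation (y / z) < 1 := by
    rw [map_div₀, div_lt_one₀ (zero_lt_iff.mpr (Q.adicValuation_ne_zero hz0))]
    exact lt_of_le_of_lt hy₁ hz₂
  generalize y / z = q at hPq hQq
  -- choose a nonzero scalar avoiding one bad value per place
  have hbad : ∀ R : Place K F, ({c : K | R.adicValuation (1 + algebraMap K F c * q) < 1 ∧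
      R.adicValuation q ≤ 1} : Set K).Subsingleton := by
    intro R c hc c' hc'
    by_contra hne
    have hsub : R.adicValuation (algebraMap K F (c - c') * q) < 1 := by
      have := R.adicValuation.map_sub (1 + algebraMap K F c * q) (1 + algebraMap K F c' * q)
      rw [map_sub, sub_mul]
      rw [add_sub_add_left_eq_sub] at this
      exact lt_of_le_of_lt this (max_lt hc.1 hc'.1)
    rw [map_mul, adicValuation_algebraMap R (sub_ne_zero.mpr hne), one_mul] at hsub
    have hcq : R.adicValuation (algebraMap K F c * q) < 1 := by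
      rw [map_mul]
      exact lt_of_le_of_lt (mul_le_of_le_one_left' (R.adicValuation_algebraMap_le_one c)) hsub
    have := R.adicValuation.map_add_eq_of_lt_left (x := (1 : F))
      (y := algebraMap K F c * q) (by rwa [map_one])
    rw [map_one] at this
    exact hc.1.ne this
  have : Infinite K := IsAlgClosed.instInfinite
  obtain ⟨c, hc⟩ := ((Set.finite_singleton (0 : K)).union
    (S.finite_toSet.biUnion fun R _ => (hbad R).finite)).exists_notMem
  simp only [Set.mem_union, Set.mem_singleton_iff, Set.mem_iUnion, not_or, not_exists,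
    Set.mem_ofPred_eq, not_and, Finset.mem_coe] at hc
  obtain ⟨hc0, hcS⟩ := hc
  refine ⟨q / (1 + algebraMap K F c * q), ?_, ?_, fun R hR => ?_⟩
  · rw [map_div₀, Valuation.map_add_eq_of_lt_right _ (by
      rwa [map_one, map_mul, adicValuation_algebraMap P hc0, one_mul]), map_mul,
      adicValuation_algebraMap P hc0, one_mul]
    exact div_self (lt_trans zero_lt_one hPq).ne'
  · rw [map_div₀, Valuation.map_add_eq_of_lt_left _ (by
      rwa [map_one, map_mul, adicValuation_algebraMap Q hc0, one_mul]), map_one, div_one]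
    exact hQq
  · rcases le_or_gt (R.adicValuation q) 1 with hq | hq
    · have h1 : 1 ≤ R.adicValuation (1 + algebraMap K F c * q) :=
        not_lt.mp fun hlt => hcS R hR hlt hq
      rw [map_div₀]
      exact div_le_one_of_le₀ (hq.trans h1) zero_le
    · rw [map_div₀, Valuation.map_add_eq_of_lt_right _ (by
        rwa [map_one, map_mul, adicValuation_algebraMap R hc0, one_mul]), map_mul,
        adicValuation_algebraMap R hc0, one_mul]
      exact div_self_le_one _

omit [IsCurveOver K F] in
/-- An element of exact order `k` at `P`, of order at least `e` at the other places of `S`. -/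
theorem exists_exact_order (S : Finset (Place K F)) (P : Place K F) (k : ℕ) (e : ℤ) :
    ∃ w : F, P.adicValuation w = WithZero.exp (-(k : ℤ)) ∧
      ∀ R ∈ S, R ≠ P → R.adicValuation w ≤ WithZero.exp (-e) := by
  classical
  obtain ⟨π, hπ⟩ := exists_uniformizer P
  have hπ0 : π ≠ 0 := fun h => WithZero.exp_ne_zero ((hπ.symm).trans (h ▸ map_zero _))
  choose u hu₁ hu₂ hu₃ using fun R : {R // R ∈ S.erase P} =>
    exists_unit_vanishing S (P := P) (Q := R.1) (Finset.ne_of_mem_erase R.2).symm
  set U := ∏ R, u R with hU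
  have hUP : P.adicValuation U = 1 := by
    rw [hU, map_prod]; exact Finset.prod_eq_one fun R _ => hu₁ R
  have hUR : ∀ R ∈ S, R ≠ P → R.adicValuation U ≤ WithZero.exp (-1 : ℤ) := by
    intro R hR hne
    have hlt : R.adicValuation U < 1 := by
      rw [hU, map_prod, ← Finset.mul_prod_erase Finset.univ _
        (Finset.mem_univ ⟨R, Finset.mem_erase.mpr ⟨hne, hR⟩⟩)]
      exact mul_lt_one_of_lt_of_le (hu₂ ⟨R, Finset.mem_erase.mpr ⟨hne, hR⟩⟩)
        (Finset.prod_le_one' fun R' _ => hu₃ R' R hR)
    rw [← WithZero.exp_zero] at hlt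
    simpa using adicValuation_le_exp_sub_one hlt
  obtain ⟨M, hM⟩ : ∃ M : ℕ, ∀ R ∈ S, (k : ℤ) * -R.ord π + e ≤ M :=
    ⟨S.sup fun R => ((k : ℤ) * -R.ord π + e).toNat, fun R hR =>
      (Int.self_le_toNat _).trans (Int.ofNat_le.mpr
        (Finset.le_sup (f := fun R => ((k : ℤ) * -R.ord π + e).toNat) hR))⟩
  refine ⟨π ^ k * U ^ M, ?_, fun R hR hne => ?_⟩
  · rw [map_mul, map_pow, map_pow, hπ, hUP, one_pow, mul_one, ← WithZero.exp_nsmul]
    simp
  · rw [map_mul, map_pow, map_pow, R.adicValuation_eq_exp_neg_ord hπ0, ← WithZero.exp_nsmul]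
    refine (mul_le_mul' le_rfl (pow_le_pow_left' (hUR R hR hne) M)).trans ?_
    rw [← WithZero.exp_nsmul, ← WithZero.exp_add, WithZero.exp_le_exp]
    have := hM R hR
    simp only [nsmul_eq_mul] at *
    linarith

omit [IsAlgClosed K] [IsCurveOver K F] in
theorem adicValuation_aeval {x : F} {p : K[X]} (hp : p ≠ 0) {v : Place K F}
    (hx : 1 < v.adicValuation x) :
    v.adicValuation (aeval x p) = v.adicValuation x ^ p.natDegree := by
  classical
  have hterm : ∀ i, v.adicValuation (p.coeff i • x ^ i) ≤ v.adicValuation x ^ i := fun i => by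
    rw [Algebra.smul_def, map_mul, map_pow]
    exact mul_le_of_le_one_left' (v.adicValuation_algebraMap_le_one _)
  have htop : v.adicValuation (p.coeff p.natDegree • x ^ p.natDegree) =
      v.adicValuation x ^ p.natDegree := by
    rw [Algebra.smul_def, map_mul, map_pow, adicValuation_algebraMap v
      (by simpa [Polynomial.coeff_natDegree] using hp), one_mul]
  rw [aeval_eq_sum_range, Valuation.map_sum_eq_of_lt _ (Finset.self_mem_range_succ p.natDegree)
    (fun i hi => ?_), htop]
  rw [htop]
  refine (hterm i).trans_lt (pow_lt_pow_right₀ hx ?_)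
  simp only [Finset.mem_sdiff, Finset.mem_range, Finset.mem_singleton] at hi
  omega

omit [IsAlgClosed K] [IsCurveOver K F] in
/-- The nonzero elements of `K(x)` have a common order at the poles of `x`. -/
theorem exists_zpow_of_mem_adjoin {x : F} (a : K⟮x⟯) (ha : a ≠ 0) :
    ∃ d : ℤ, ∀ v : Place K F, 1 < v.adicValuation x →
      v.adicValuation (a : F) = v.adicValuation x ^ d := by
  obtain ⟨r, s, hrs⟩ := (IntermediateField.mem_adjoin_simple_iff K (a : F)).mp a.2
  have ha' : (a : F) ≠ 0 := by simpa using ha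
  have hr : r ≠ 0 := by rintro rfl; simp [hrs] at ha'
  have hs : s ≠ 0 := by rintro rfl; simp [hrs] at ha'
  refine ⟨(r.natDegree : ℤ) - s.natDegree, fun v hv => ?_⟩
  rw [hrs, map_div₀, adicValuation_aeval hr hv, adicValuation_aeval hs hv,
    zpow_sub₀ (lt_trans zero_lt_one hv).ne', zpow_natCast, zpow_natCast]

/-- The pole divisor of `x` has degree at most `[F : K(x)]`. -/
theorem degree_le_finrank_of_poles {x : F} [FiniteDimensional K⟮x⟯ F] {B : Divisor K F}
    (hB : ∀ v, B v = max (-v.ord x) 0) :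
    Divisor.degree B ≤ Module.finrank K⟮x⟯ F := by
  classical
  have hpos : ∀ P : B.support, 0 < B P.1 := fun P => by
    have := Finsupp.mem_support_iff.mp P.2
    rw [hB] at this ⊢
    omega
  have hval : ∀ P : B.support, P.1.adicValuation x = WithZero.exp (B P.1) := fun P => by
    have h := hpos P
    rw [hB] at h ⊢
    have hx0 : x ≠ 0 := by rintro rfl; simp at h
    rw [P.1.adicValuation_eq_exp_neg_ord hx0]
    congr 1
    omega
  have hlt : ∀ P : B.support, 1 < P.1.adicValuation x := fun P => by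
    rw [hval P, ← WithZero.exp_zero, WithZero.exp_lt_exp]
    exact hpos P
  let e : B.support → ℕ := fun P => (B P.1).toNat
  have he : ∀ P, (e P : ℤ) = B P.1 := fun P => Int.toNat_of_nonneg (hpos P).le
  choose w hw₁ hw₂ using fun i : Σ P : B.support, Fin (e P) =>
    exists_exact_order B.support i.1.1 i.2 ((B.support.sup fun R => (B R).toNat : ℕ) : ℤ)
  have hw₂' : ∀ (i : Σ P : B.support, Fin (e P)) (P : B.support), i.1 ≠ P →
      P.1.adicValuation (w i) ≤ WithZero.exp (-(B P.1)) := fun i P hne => by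
    refine (hw₂ i P.1 P.2 (fun h => hne (Subtype.ext h.symm))).trans ?_
    rw [WithZero.exp_le_exp, neg_le_neg_iff, ← he P]
    exact Int.ofNat_le.mpr (Finset.le_sup (f := fun R => (B R).toNat) P.2)
  have hind : LinearIndependent K⟮x⟯ w := by
    rw [Fintype.linearIndependent_iff]
    intro a hsum
    by_contra hcon
    push Not at hcon
    let T : Finset (Σ P : B.support, Fin (e P)) := Finset.univ.filter fun i => a i ≠ 0
    have hT : T.Nonempty := ⟨hcon.choose, by simpa [T] using hcon.choose_spec⟩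
    choose d hd using fun i : T =>
      exists_zpow_of_mem_adjoin (a i.1) (Finset.mem_filter.mp i.2).2
    obtain ⟨j, -, hj⟩ := Finset.univ.exists_max_image d (Finset.univ_nonempty_iff.mpr hT.to_subtype)
    obtain ⟨i₀, hi₀, hmin⟩ := Finset.exists_min_image
      (Finset.univ.filter fun i : T => d i = d j) (fun i : T => (i.1.2 : ℕ)) ⟨j, by simp⟩
    obtain ⟨-, hd₀⟩ := Finset.mem_filter.mp hi₀
    have hterm : ∀ (i : T) (P : B.support), P.1.adicValuation (a i.1 • w i.1) =
        WithZero.exp (d i * B P.1) * P.1.adicValuation (w i.1) := fun i P => by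
      rw [IntermediateField.smul_def, smul_eq_mul, map_mul, hd i P.1 (hlt P), hval P,
        ← WithZero.exp_zsmul, smul_eq_mul]
    obtain ⟨⟨⟨P, k⟩, hkT⟩, hrfl⟩ : ∃ y, y = i₀ := ⟨i₀, rfl⟩
    subst hrfl
    have hlead : P.1.adicValuation (a ⟨P, k⟩ • w ⟨P, k⟩) =
        WithZero.exp (d j * B P.1 + -((k : ℕ) : ℤ)) :=
      (hterm ⟨_, hkT⟩ P).trans (by rw [hd₀, WithZero.exp_add]; exact congrArg _ (hw₁ ⟨P, k⟩))
    have hbig : ∀ i ∈ Finset.univ \ {(⟨P, k⟩ : Σ P : B.support, Fin (e P))},
        P.1.adicValuation (a i • w i) < P.1.adicValuation (a ⟨P, k⟩ • w ⟨P, k⟩) := by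
      intro i hi
      simp only [Finset.mem_sdiff, Finset.mem_univ, true_and, Finset.mem_singleton] at hi
      rw [hlead]
      by_cases hai : a i = 0
      · simp [hai]
      have hiT : i ∈ T := by simp [T, hai]
      have hle : d ⟨i, hiT⟩ ≤ d j := hj _ (Finset.mem_univ _)
      have hk : ((k : ℕ) : ℤ) < B P.1 := by rw [← he P]; exact_mod_cast k.2
      rw [hterm ⟨i, hiT⟩ P]
      obtain ⟨Q, k'⟩ := i
      have hBpos := hpos P
      rcases eq_or_ne Q P with rfl | hne
      · rw [show Q.1.adicValuation (w ⟨Q, k'⟩) = _ from hw₁ ⟨Q, k'⟩, ← WithZero.exp_add,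
          WithZero.exp_lt_exp]
        have hk' : ((k' : ℕ) : ℤ) < B Q.1 := by rw [← he Q]; exact_mod_cast k'.2
        rcases eq_or_lt_of_le hle with heq | hless
        · rw [heq]
          have h1 : (k : ℕ) ≤ k' := hmin ⟨_, hiT⟩ (Finset.mem_filter.mpr ⟨Finset.mem_univ _, heq⟩)
          have h2 : (k' : ℕ) ≠ k := fun h => hi (by rw [Fin.ext h])
          have : (k : ℕ) < k' := lt_of_le_of_ne h1 (Ne.symm h2)
          show d j * B Q.1 + -((k' : ℕ) : ℤ) < d j * B Q.1 + -((k : ℕ) : ℤ)
          omega
        · show d ⟨_, hiT⟩ * B Q.1 + -((k' : ℕ) : ℤ) < d j * B Q.1 + -((k : ℕ) : ℤ)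
          nlinarith
      · refine lt_of_le_of_lt (mul_le_mul' le_rfl (hw₂' ⟨Q, k'⟩ P hne)) ?_
        rw [← WithZero.exp_add, WithZero.exp_lt_exp]
        show d ⟨_, hiT⟩ * B P.1 + -(B P.1) < d j * B P.1 + -((k : ℕ) : ℤ)
        nlinarith
    have h := Valuation.map_sum_eq_of_lt P.1.adicValuation (Finset.mem_univ _) hbig
    rw [hsum, map_zero, hlead] at h
    exact WithZero.exp_ne_zero h.symm
  have hcard := hind.fintype_card_le_finrank
  rw [Fintype.card_sigma] at hcard
  simp only [Fintype.card_fin] at hcard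
  calc Divisor.degree B = ∑ P ∈ B.support, B P := degree_eq_sum B
    _ = ∑ P : B.support, (e P : ℤ) := by
        rw [← Finset.sum_coe_sort]
        exact Finset.sum_congr rfl fun P _ => (he P).symm
    _ ≤ _ := by exact_mod_cast hcard

/-- Multiples of the pole divisor of `x` have large Riemann-Roch spaces. -/
theorem exists_degree_sub_ell_le_multiples [IsFunctionField K F] :
    ∃ B : Divisor K F, 0 ≤ B ∧ 0 < Divisor.degree B ∧
      ∃ γ : ℤ, ∀ m : ℕ, Divisor.degree ((m : ℤ) • B) - ell ((m : ℤ) • B) ≤ γ := by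
  classical
  obtain ⟨x, hx, hfin⟩ := IsFunctionField.exists_finite (K := K) (F := F)
  have hx0 : x ≠ 0 := fun h => hx (h ▸ isAlgebraic_zero)
  let B : Divisor K F := Finsupp.onFinset (divFn (K := K) x).support
    (fun v => max (-v.ord x) 0) fun v hv => by
      rw [Finsupp.mem_support_iff, divFn_apply]
      omega
  have hBv : ∀ v, B v = max (-v.ord x) 0 := fun v => rfl
  have hB0 : 0 ≤ B := fun v => le_max_right _ _
  have hBx : ∀ v : Place K F, v.adicValuation x ≤ WithZero.exp (B v) := fun v => by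
    rw [v.adicValuation_eq_exp_neg_ord hx0, WithZero.exp_le_exp, hBv]
    exact le_max_left _ _
  have hBdeg : 0 < Divisor.degree B := by
    refine lt_of_le_of_ne (degree_nonneg hB0) fun h => hx ?_
    have hBz : B = 0 := by
      by_contra hne
      obtain ⟨P, hP⟩ := Finsupp.support_nonempty_iff.mpr hne
      rw [degree_eq_sum] at h
      exact Finsupp.mem_support_iff.mp hP
        ((Finset.sum_eq_zero_iff_of_nonneg fun v _ => hB0 v).mp h.symm P hP)
    have hmem : x ∈ riemannRochSpace (0 : Divisor K F) := fun v => by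
      simpa [hBz] using hBx v
    rw [riemannRochSpace_zero, Submodule.mem_one] at hmem
    obtain ⟨c, rfl⟩ := hmem
    exact isAlgebraic_algebraMap c
  refine ⟨B, hB0, hBdeg, ?_⟩
  set n := Module.finrank K⟮x⟯ F with hn
  let b := Module.finBasis K⟮x⟯ F
  -- places off the poles of `x` where some basis vector has a pole
  let T : Finset (Place K F) :=
    (Finset.univ.biUnion fun i => (divFn (K := K) (b i)).support).filter fun v => B v = 0
  have hc : ∀ Q : T, ∃ c : K, Q.1.adicValuation (x - algebraMap K F c) < 1 := fun Q =>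
    exists_adicValuation_sub_algebraMap_lt Q.1 (by
      simpa [(Finset.mem_filter.mp Q.2).2] using hBx Q.1)
  choose cQ hcQ using hc
  let gen : K⟮x⟯ := ⟨x, IntermediateField.mem_adjoin_simple_self K x⟩
  have hne : ∀ c : K, x - algebraMap K F c ≠ 0 := fun c h =>
    hx (sub_eq_zero.mp h ▸ isAlgebraic_algebraMap c)
  obtain ⟨M, hM⟩ : ∃ M : ℕ, ∀ i, ∀ v : Place K F, v ∈ T → -v.ord (b i) ≤ M :=
    ⟨Finset.univ.sup fun i => T.sup fun v => (-v.ord (b i)).toNat, fun i v hv =>
      (Int.self_le_toNat _).trans (Int.ofNat_le.mpr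
        ((Finset.le_sup (f := fun v => (-v.ord (b i)).toNat) hv).trans
          (Finset.le_sup (f := fun i => T.sup fun v => (-v.ord (b i)).toNat)
            (Finset.mem_univ i))))⟩
  let h : K⟮x⟯ := ∏ Q : T, (gen - algebraMap K K⟮x⟯ (cQ Q)) ^ M
  have hh : (h : F) = ∏ Q : T, (x - algebraMap K F (cQ Q)) ^ M := by simp [h, gen]
  have hh0 : h ≠ 0 := Finset.prod_ne_zero_iff.mpr fun Q _ => pow_ne_zero M fun e =>
    hne (cQ Q) (by simpa [gen] using congrArg (fun z : K⟮x⟯ => (z : F)) e)
  let u : Fin n → F := fun i => h • b i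
  have hu : LinearIndependent K⟮x⟯ u :=
    b.linearIndependent.units_smul fun _ => Units.mk0 h hh0
  have huoff : ∀ i, ∀ v : Place K F, B v = 0 → v.adicValuation (u i) ≤ 1 := by
    intro i v hv
    have hxc : ∀ c : K, v.adicValuation (x - algebraMap K F c) ≤ 1 := fun c =>
      (Valuation.map_sub _ _ _).trans (max_le (by simpa [hv] using hBx v)
        (v.adicValuation_algebraMap_le_one c))
    show v.adicValuation ((h : F) * b i) ≤ 1
    rw [map_mul, hh, map_prod]
    by_cases hvT : v ∈ T
    · rw [← Finset.mul_prod_erase Finset.univ _ (Finset.mem_univ (⟨v, hvT⟩ : T)), mul_assoc,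
        mul_left_comm]
      refine mul_le_one' (Finset.prod_le_one' fun Q _ => ?_) ?_
      · rw [map_pow]; exact pow_le_one' (hxc _) M
      · rw [map_pow, v.adicValuation_eq_exp_neg_ord (b.ne_zero i)]
        have h1 : v.adicValuation (x - algebraMap K F (cQ ⟨v, hvT⟩)) ≤
            WithZero.exp (-1 : ℤ) := by
          have h2 : v.adicValuation (x - algebraMap K F (cQ ⟨v, hvT⟩)) < 1 := hcQ ⟨v, hvT⟩
          rw [← WithZero.exp_zero] at h2
          simpa using adicValuation_le_exp_sub_one h2
        refine (mul_le_mul' (pow_le_pow_left' h1 M) le_rfl).trans ?_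
        rw [← WithZero.exp_nsmul, ← WithZero.exp_add, ← WithZero.exp_zero, WithZero.exp_le_exp,
          nsmul_eq_mul]
        have := hM i v hvT
        linarith
    · refine mul_le_one' (Finset.prod_le_one' fun Q _ => ?_) ?_
      · rw [map_pow]; exact pow_le_one' (hxc _) M
      · rw [v.adicValuation_le_one_iff, or_iff_right (b.ne_zero i)]
        by_contra hneg
        refine hvT (Finset.mem_filter.mpr ⟨Finset.mem_biUnion.mpr ⟨i, Finset.mem_univ _, ?_⟩, hv⟩)
        rw [Finsupp.mem_support_iff, divFn_apply]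
        omega
  obtain ⟨c, hc⟩ : ∃ c : ℕ, ∀ i, ∀ v : Place K F, v ∈ B.support → -v.ord (u i) ≤ c :=
    ⟨Finset.univ.sup fun i => B.support.sup fun v => (-v.ord (u i)).toNat, fun i v hv =>
      (Int.self_le_toNat _).trans (Int.ofNat_le.mpr
        ((Finset.le_sup (f := fun v => (-v.ord (u i)).toNat) hv).trans
          (Finset.le_sup (f := fun i => B.support.sup fun v => (-v.ord (u i)).toNat)
            (Finset.mem_univ i))))⟩
  have humem : ∀ i, u i ∈ riemannRochSpace ((c : ℤ) • B) := by
    intro i v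
    rw [Finsupp.smul_apply, smul_eq_mul]
    by_cases hv : v ∈ B.support
    · have h1 : 1 ≤ B v := by
        have : 0 < B v := lt_of_le_of_ne (hB0 v) (Ne.symm (Finsupp.mem_support_iff.mp hv))
        omega
      rw [v.adicValuation_eq_exp_neg_ord (hu.ne_zero i), WithZero.exp_le_exp]
      have := hc i v hv
      nlinarith
    · rw [Finsupp.notMem_support_iff.mp hv, mul_zero, WithZero.exp_zero]
      exact huoff i v (Finsupp.notMem_support_iff.mp hv)
  have hpow : ∀ j : ℕ, x ^ j ∈ riemannRochSpace ((j : ℤ) • B) := fun j v => by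
    rw [map_pow, Finsupp.smul_apply, WithZero.exp_zsmul, zpow_natCast]
    exact pow_le_pow_left' (hBx v) j
  have hpowind : ∀ r : ℕ, LinearIndependent K fun j : Fin r => gen ^ (j : ℕ) := fun r => by
    refine LinearIndependent.of_comp (IntermediateField.val K⟮x⟯).toLinearMap ?_
    have h1 : LinearIndependent K fun j : ℕ => x ^ j := by
      have h2 := (Polynomial.basisMonomials K).linearIndependent.map' (aeval x).toLinearMap
        (LinearMap.ker_eq_bot.mpr (transcendental_iff_injective.mp hx))
      simpa [Function.comp_def, Polynomial.coe_basisMonomials] using h2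
    simpa [Function.comp_def, gen] using h1.comp _ Fin.val_injective
  refine ⟨(n : ℤ) * c, fun m => ?_⟩
  have hdeg := degree_le_finrank_of_poles hBv
  rw [← hn] at hdeg
  rw [map_zsmul, smul_eq_mul]
  rcases lt_or_ge m c with hm | hm
  · have : (0 : ℤ) ≤ ell ((m : ℤ) • B) := Int.natCast_nonneg _
    have : (m : ℤ) ≤ c := by exact_mod_cast hm.le
    nlinarith
  have hfam := linearIndependent_smul (hpowind (m - c + 1)) hu
  have hin : ∀ p : Fin (m - c + 1) × Fin n,
      gen ^ (p.1 : ℕ) • u p.2 ∈ riemannRochSpace ((m : ℤ) • B) := by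
    intro p
    have h1 : x ^ (p.1 : ℕ) * u p.2 ∈ riemannRochSpace (((p.1 : ℕ) : ℤ) • B + (c : ℤ) • B) :=
      mul_mem_riemannRochSpace (hpow _) (humem _)
    have h2 : ((p.1 : ℕ) : ℤ) • B + (c : ℤ) • B ≤ (m : ℤ) • B := by
      rw [← add_smul]
      intro v
      rw [Finsupp.smul_apply, Finsupp.smul_apply, smul_eq_mul, smul_eq_mul]
      refine mul_le_mul_of_nonneg_right ?_ (hB0 v)
      have := p.1.2
      omega
    exact riemannRochSpace_mono h2 h1
  have hind' : LinearIndependent K fun p : Fin (m - c + 1) × Fin n =>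
      (⟨_, hin p⟩ : riemannRochSpace ((m : ℤ) • B)) :=
    LinearIndependent.of_comp (riemannRochSpace ((m : ℤ) • B)).subtype (by exact hfam)
  have hcard := hind'.fintype_card_le_finrank
  rw [Fintype.card_prod, Fintype.card_fin, Fintype.card_fin] at hcard
  have hcard' : ((m : ℤ) - c + 1) * n ≤ ell ((m : ℤ) • B) := by
    calc ((m : ℤ) - c + 1) * n = (((m - c + 1) * n : ℕ) : ℤ) := by push_cast [hm]; ring
      _ ≤ _ := Int.ofNat_le.mpr hcard
  nlinarith

end FLTA.Curves.RR
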