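import Fermat.Prelude.Def_ModularCurve_LaurentCoeff
import Mathlib.LinearAlgebra.Dual.Lemmas
import Mathlib.LinearAlgebra.FiniteDimensional.Lemmas

/-! # Linear independence of Laurent series survives extending the constants -/

set_option autoImplicit false

noncomputable section

open ModularCurve Module

namespace FLTA.Curves

variable {K C : Type*} [Field K] [Field C] (ι : K →+* C)

/-- Laurent series over `K` independent over `K` stay independent over a bigger field. -/
theorem linearIndependent_coeffMap {n : ℕ} {f : Fin n → LaurentSeries K}
    (hf : LinearIndependent K f) :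
    LinearIndependent C (fun i => coeffMap ι (f i)) := by
  classical
  let S : Submodule K (Fin n → K) :=
    Submodule.span K (Set.range fun k : ℤ => fun i => (f i).coeff k)
  have hS : S = ⊤ := by
    by_contra h
    obtain ⟨φ, hφ0, hφ⟩ := S.exists_dual_map_eq_bot_of_lt_top (lt_top_iff_ne_top.2 h) inferInstance
    apply hφ0
    have hc := Fintype.linearIndependent_iff.1 hf (fun i => φ (Pi.single i 1)) (by
      ext k
      simp only [HahnSeries.coeff_sum, HahnSeries.coeff_smul, smul_eq_mul, HahnSeries.coeff_zero]
      have h0 : φ (fun i => (f i).coeff k) = 0 := by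
        have : φ (fun i => (f i).coeff k) ∈ S.map φ :=
          Submodule.mem_map_of_mem (Submodule.subset_span ⟨k, rfl⟩)
        rwa [hφ, Submodule.mem_bot] at this
      rw [← h0]
      conv_rhs => rw [← Finset.univ_sum_single (fun i => (f i).coeff k), map_sum]
      refine Finset.sum_congr rfl fun i _ => ?_
      have hsingle : (Pi.single i ((f i).coeff k) : Fin n → K) = (f i).coeff k • Pi.single i 1 := by
        rw [← Pi.single_smul, smul_eq_mul, mul_one]
      rw [hsingle, map_smul, smul_eq_mul, mul_comm])
    refine LinearMap.ext fun v => ?_
    rw [← Finset.univ_sum_single v, map_sum]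
    refine Finset.sum_eq_zero fun i _ => ?_
    have hsingle : (Pi.single i (v i) : Fin n → K) = v i • Pi.single i 1 := by
      rw [← Pi.single_smul, smul_eq_mul, mul_one]
    rw [hsingle, map_smul, hc i, smul_zero]
  rw [Fintype.linearIndependent_iff]
  intro c hc j
  have key : ∀ v ∈ S, ∑ i, c i * ι (v i) = 0 := fun v hv => by
    induction hv using Submodule.span_induction with
    | mem v hv =>
      obtain ⟨k, rfl⟩ := hv
      have h := congrArg (fun s : LaurentSeries C => s.coeff k) hc
      simpa [HahnSeries.coeff_sum, coeffMap_coeff] using h
    | zero => simp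
    | add a b _ _ ha hb => simp [mul_add, Finset.sum_add_distrib, ha, hb]
    | smul r a _ ha => simp [mul_left_comm (c _) (ι r), ← Finset.mul_sum, ha]
  have h := key (Pi.single j 1) (hS ▸ Submodule.mem_top)
  rw [Finset.sum_eq_single j (fun i _ hi => by simp [hi]) (by simp)] at h
  simpa using h

end FLTA.Curves
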