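import Fermat.Agent.Curves.BasicCurve
import Mathlib.FieldTheory.SeparablyGenerated
import Mathlib.FieldTheory.IntermediateField.Adjoin.Basic
import Mathlib.RingTheory.AlgebraicIndependent.TranscendenceBasis
import Mathlib.FieldTheory.Perfect

/-!
# Curves: finitely generated fields of transcendence degree one

Criteria for `IsSepFunctionField`.
-/

set_option autoImplicit false

noncomputable section

open IntermediateField AlgebraicCurve

namespace FLTA.Curves

section Adjoin

variable {K L : Type*} [Field K] [Field L] [Algebra K L]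

/-- An intermediate field generated by finitely many elements algebraic over `K(x)` is finite
over `K(x)`. -/
theorem finite_adjoin_of_isAlgebraic {S : Set L} (hS : S.Finite) {F₀ : IntermediateField K L}
    (hF₀ : F₀ = IntermediateField.adjoin K S) (x : F₀)
    (halg : ∀ s ∈ S, IsAlgebraic K⟮(x : L)⟯ s) : Module.Finite K⟮x⟯ F₀ := by
  haveI := hS.to_subtype
  let E : IntermediateField K⟮(x : L)⟯ L := IntermediateField.adjoin K⟮(x : L)⟯ S
  haveI hE : FiniteDimensional K⟮(x : L)⟯ E :=
    finiteDimensional_adjoin fun s hs => (halg s hs).isIntegral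
  have hmem : K⟮(x : L)⟯ ≤ IntermediateField.adjoin K S :=
    adjoin_simple_le_iff.mpr (hF₀.le x.2)
  have hEF : E.restrictScalars K = F₀ := by
    rw [restrictScalars_adjoin_eq_sup, sup_eq_right.mpr hmem, ← hF₀]
  let i : K⟮(x : L)⟯ ≃+* K⟮x⟯ :=
    ((equivOfEq (lift_adjoin_simple K F₀ x)).symm.trans (liftAlgEquiv K⟮x⟯).symm).toRingEquiv
  let j : E ≃+* F₀ :=
    { toFun := fun e => ⟨e.1, hEF.le (show e.1 ∈ E.restrictScalars K from e.2)⟩
      invFun := fun f => ⟨f.1, show f.1 ∈ E.restrictScalars K by rw [hEF]; exact f.2⟩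
      left_inv := fun _ => rfl
      right_inv := fun _ => rfl
      map_mul' := fun _ _ => rfl
      map_add' := fun _ _ => rfl }
  refine Module.Finite.of_equiv_equiv i j (RingHom.ext fun a => Subtype.ext ?_)
  show (((i a : K⟮x⟯) : F₀) : L) = (a : L)
  obtain ⟨b, rfl⟩ := i.symm.surjective a
  rw [RingEquiv.apply_symm_apply]
  rfl

end Adjoin

section Criterion

variable {K F : Type*} [Field K] [Field F] [Algebra K F]

theorem transcendental_coe {L : Type*} [Field L] [Algebra K L] {F₀ : IntermediateField K L}
    {x : F₀} (h : Transcendental K (x : L)) : Transcendental K x := fun halg =>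
  h (halg.algHom F₀.val)

theorem isSepFunctionField_of_charZero [CharZero K] {x : F} (hx : Transcendental K x)
    (hfin : Module.Finite K⟮x⟯ F) : IsSepFunctionField K F := by
  haveI : CharZero K⟮x⟯ := charZero_of_injective_algebraMap (algebraMap K _).injective
  haveI := hfin
  exact ⟨⟨x, hx, hfin, inferInstance⟩⟩

theorem isTranscendenceBasis_singleton {x : F} (hx : Transcendental K x)
    [Module.Finite K⟮x⟯ F] : IsTranscendenceBasis K ![x] := by
  rw [isTranscendenceBasis_iff_algebraicIndependent_isAlgebraic]
  refine ⟨algebraicIndependent_iff_transcendental.mpr hx, ?_⟩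
  rw [Matrix.range_cons, Matrix.range_empty, Set.union_empty]
  exact IntermediateField.isAlgebraic_adjoin_iff_top.mp (Algebra.IsAlgebraic.of_finite K⟮x⟯ F)

theorem isSepFunctionField_of_perfectField [PerfectField K] {x : F} (hx : Transcendental K x)
    (hfin : Module.Finite K⟮x⟯ F) : IsSepFunctionField K F := by
  haveI := hfin
  haveI : Algebra.EssFiniteType K K⟮x⟯ :=
    IntermediateField.essFiniteType_iff.mpr ⟨{x}, by simp⟩
  haveI : Algebra.EssFiniteType K F := Algebra.EssFiniteType.comp K K⟮x⟯ F
  obtain ⟨s, hs, hsep⟩ := exists_isTranscendenceBasis_and_isSeparable_of_perfectField K F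
  have hcard := (isTranscendenceBasis_singleton hx).lift_cardinalMk_eq hs
  simp only [Cardinal.mk_fintype, Fintype.card_fin, Fintype.card_coe, Cardinal.lift_natCast,
    Nat.cast_one, Cardinal.lift_one] at hcard
  obtain ⟨y, rfl⟩ : ∃ y, s = {y} := Finset.card_eq_one.mp (by exact_mod_cast hcard.symm)
  have hy : Transcendental K y := hs.1.transcendental ⟨y, Finset.mem_singleton_self y⟩
  rw [Finset.coe_singleton] at hsep
  haveI := hsep
  haveI : Algebra.EssFiniteType K⟮y⟯ F := Algebra.EssFiniteType.of_comp K K⟮y⟯ F
  exact ⟨⟨y, hy, Algebra.finite_of_essFiniteType_of_isAlgebraic, hsep⟩⟩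

end Criterion

end FLTA.Curves

end
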