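import Fermat.Agent.Curves.RRSpace
import Mathlib.LinearAlgebra.FiniteDimensional.Lemmas
import Mathlib.LinearAlgebra.Dimension.Constructions

/-! # Riemann-Roch spaces after extending the constants

`ev` realises `F` inside a vector space `M` over a bigger field `C` (for instance meromorphic
functions on the upper half plane) and `W v n` is the space of elements of order at least `n` at
`v`.  An element of the `C`-span of some `L(E)` with orders bounded by `D` lies in the `C`-span of
`L(D)`.  The proof removes one point at a time. -/

set_option autoImplicit false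

noncomputable section

open AlgebraicCurve Module WithZero

namespace FLTA.Curves

variable {K F : Type*} [Field K] [Field F] [Algebra K F]
variable [IsAlgClosed K] [IsCurveOver K F] [IsFunctionField K F]
variable {C M : Type*} [Field C] [Algebra K C] [AddCommGroup M] [Module K M] [Module C M]
  [IsScalarTower K C M]
variable (ev : F →ₗ[K] M) (W : Place K F → ℤ → Submodule C M)

/-- One step: split off the top order at one place. -/
theorem riemannRochSpace_eq_or_exists_exact (E : Divisor K F) (v : Place K F) :
    riemannRochSpace E = riemannRochSpace (E - Finsupp.single v 1) ∨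
      ∃ g : F, g ≠ 0 ∧ v.ord g = -E v ∧
        riemannRochSpace E = riemannRochSpace (E - Finsupp.single v 1) ⊔ K ∙ g := by
  classical
  have hle : riemannRochSpace (E - Finsupp.single v 1) ≤ riemannRochSpace E :=
    riemannRochSpace_mono (Finsupp.le_def.2 fun w => by
      rw [Finsupp.sub_apply, Finsupp.single_apply]; split_ifs <;> omega)
  by_cases h : riemannRochSpace E ≤ riemannRochSpace (E - Finsupp.single v 1)
  · exact Or.inl (le_antisymm h hle)
  right
  obtain ⟨g, hg, hg'⟩ := SetLike.not_le_iff_exists.1 h
  have hg0 : g ≠ 0 := fun h0 => hg' (h0 ▸ zero_mem _)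
  have hlt : v.ord g = -E v := by
    have h1 := (mem_riemannRochSpace_iff.1 hg v).resolve_left hg0
    by_contra hne
    refine hg' (mem_riemannRochSpace_iff.2 fun w => Or.inr ?_)
    have h2 := (mem_riemannRochSpace_iff.1 hg w).resolve_left hg0
    rw [Finsupp.sub_apply, Finsupp.single_apply]
    split_ifs with hwv
    · subst hwv; omega
    · omega
  refine ⟨g, hg0, hlt, ?_⟩
  have hsup : riemannRochSpace (E - Finsupp.single v 1) ⊔ K ∙ g ≤ riemannRochSpace E :=
    sup_le hle ((Submodule.span_singleton_le_iff_mem _ _).2 hg)
  have hss : riemannRochSpace (E - Finsupp.single v 1) <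
      riemannRochSpace (E - Finsupp.single v 1) ⊔ K ∙ g := by
    refine lt_of_le_of_ne le_sup_left fun h0 => hg' ?_
    rw [h0]
    exact Submodule.mem_sup_right (Submodule.mem_span_singleton_self g)
  have : FiniteDimensional K
      ↥(riemannRochSpace (E - Finsupp.single v 1) ⊔ K ∙ g) :=
    Submodule.finiteDimensional_of_le hsup
  have h1 := Submodule.finrank_lt_finrank_of_lt hss
  have h2 := ell_le_ell_sub_single_add_one E v
  rw [ell, ell] at h2
  exact (Submodule.eq_of_le_of_finrank_le hsup (by omega)).symm

/-- Descent of Riemann-Roch spaces along an extension of the constants. -/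
theorem mem_span_image_riemannRochSpace
    (hanti : ∀ v a b, a ≤ b → W v b ≤ W v a)
    (hmem : ∀ v f, f ≠ 0 → ev f ∈ W v (v.ord f))
    (hnot : ∀ v f, f ≠ 0 → ev f ∉ W v (v.ord f + 1))
    {D E : Divisor K F} {y : M} (hy : y ∈ Submodule.span C (ev '' riemannRochSpace E))
    (hD : ∀ v, y ∈ W v (-D v)) : y ∈ Submodule.span C (ev '' riemannRochSpace D) := by
  classical
  have key : ∀ n : ℕ, ∀ E : Divisor K F, D ≤ E →
      Divisor.degree E - Divisor.degree D ≤ n →
      y ∈ Submodule.span C (ev '' riemannRochSpace E) →
      y ∈ Submodule.span C (ev '' riemannRochSpace D) := by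
    intro n
    induction n with
    | zero =>
      intro E hle hdeg hy
      have h0 := le_antisymm (by simpa using hdeg) (sub_nonneg.2 (degree_mono hle))
      have hnn : (0 : Divisor K F) ≤ E - D := sub_nonneg.2 hle
      have : E = D := by
        have hs : Divisor.degree (E - D) = 0 := by rw [map_sub]; omega
        rw [degree_eq_sum, Finsupp.sum,
          Finset.sum_eq_zero_iff_of_nonneg fun v _ => Finsupp.le_def.1 hnn v] at hs
        ext v
        by_cases hv : v ∈ (E - D).support
        · have := hs v hv
          rw [Finsupp.sub_apply] at this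
          omega
        · simp only [Finsupp.mem_support_iff, not_not, Finsupp.sub_apply] at hv
          omega
      rwa [this] at hy
    | succ n ih =>
      intro E hle hdeg hy
      by_cases hED : E = D
      · rwa [hED] at hy
      obtain ⟨v, hv⟩ : ∃ v, D v < E v := by
        by_contra! h
        exact hED (le_antisymm (Finsupp.le_def.2 h) hle)
      refine ih (E - Finsupp.single v 1) (Finsupp.le_def.2 fun w => ?_)
        (by rw [degree_sub_single]; push_cast at hdeg; omega) ?_
      · rw [Finsupp.sub_apply, Finsupp.single_apply]
        split_ifs with h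
        · subst h; omega
        · simpa using Finsupp.le_def.1 hle w
      rcases riemannRochSpace_eq_or_exists_exact E v with h | ⟨g, hg0, hgo, h⟩
      · rwa [h] at hy
      have hsub : ev '' riemannRochSpace E ⊆
          ↑(Submodule.span C (ev '' riemannRochSpace (E - Finsupp.single v 1)) ⊔ C ∙ ev g) := by
        rintro - ⟨f, hf, rfl⟩
        rw [SetLike.mem_coe, h, Submodule.mem_sup] at hf
        obtain ⟨a, ha, b, hb, rfl⟩ := hf
        obtain ⟨c, rfl⟩ := Submodule.mem_span_singleton.1 hb
        rw [map_add, map_smul, ← algebraMap_smul C c (ev g)]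
        exact Submodule.mem_sup.2 ⟨_, Submodule.subset_span ⟨a, ha, rfl⟩, _,
          Submodule.smul_mem _ _ (Submodule.mem_span_singleton_self _), rfl⟩
      obtain ⟨y', hy', z, hz, hyz⟩ := Submodule.mem_sup.1 (Submodule.span_le.2 hsub hy)
      obtain ⟨c, rfl⟩ := Submodule.mem_span_singleton.1 hz
      have hsp : Submodule.span C (ev '' riemannRochSpace (E - Finsupp.single v 1)) ≤
          W v (v.ord g + 1) := by
        rw [Submodule.span_le]
        rintro - ⟨f, hf, rfl⟩
        by_cases hf0 : f = 0
        · simp [hf0]
        have := (mem_riemannRochSpace_iff.1 hf v).resolve_left hf0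
        rw [Finsupp.sub_apply, Finsupp.single_eq_same] at this
        exact hanti v _ _ (by omega) (hmem v f hf0)
      have hyW : y ∈ W v (v.ord g + 1) := hanti v _ _ (by omega) (hD v)
      have hc : c = 0 := by
        by_contra hc
        refine hnot v g hg0 ?_
        have := sub_mem hyW (hsp hy')
        rw [← hyz, add_sub_cancel_left] at this
        exact (Submodule.smul_mem_iff _ hc).1 this
      rw [← hyz, hc, zero_smul, add_zero]
      exact hy'
  refine key (Divisor.degree (D ⊔ E) - Divisor.degree D).toNat (D ⊔ E) le_sup_left
    (Int.self_le_toNat _) ?_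
  exact Submodule.span_mono (Set.image_mono (riemannRochSpace_mono le_sup_right)) hy

/-- Dimension of an extended Riemann-Roch space. -/
theorem finrank_span_image_riemannRochSpace
    (hind : ∀ (n : ℕ) (f : Fin n → F), LinearIndependent K f →
      LinearIndependent C (fun i => ev (f i)))
    (D : Divisor K F) :
    finrank C (Submodule.span C (ev '' riemannRochSpace D)) = ell D := by
  let b := Module.finBasis K (riemannRochSpace D)
  have hli : LinearIndependent K (fun i => ((b i : riemannRochSpace D) : F)) :=
    b.linearIndependent.map' _ (Submodule.ker_subtype _)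
  have hspan : Submodule.span C (ev '' riemannRochSpace D) =
      Submodule.span C (Set.range fun i => ev (b i : F)) := by
    refine le_antisymm (Submodule.span_le.2 ?_)
      (Submodule.span_mono (Set.range_subset_iff.2 fun i => ⟨_, (b i).2, rfl⟩))
    rintro - ⟨f, hf, rfl⟩
    have : f = ∑ i, b.repr ⟨f, hf⟩ i • (b i : F) := by
      have h := congrArg (riemannRochSpace D).subtype (b.sum_repr ⟨f, hf⟩)
      simp only [map_sum, map_smul, Submodule.subtype_apply] at h
      exact h.symm
    rw [this, map_sum]
    refine Submodule.sum_mem _ fun i _ => ?_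
    rw [map_smul, ← algebraMap_smul C]
    exact Submodule.smul_mem _ _ (Submodule.subset_span ⟨i, rfl⟩)
  rw [hspan, finrank_span_eq_card (hind _ _ hli), Fintype.card_fin, ell]

end FLTA.Curves
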