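import Fermat.Agent.Curves.RRLaurentInd
import Mathlib.Analysis.Complex.Basic

/-! # Laurent series over `ℂ` with a single, multiplication-defined `ℂ`-algebra structure

`LSC` avoids the two inherited scalar actions on `HahnSeries`. -/

set_option autoImplicit false

noncomputable section

open ModularCurve

namespace FLTA.Curves

/-- Laurent series over `ℂ` as an abstract field. -/
def LSC : Type := LaurentSeries ℂ

instance : Field LSC := inferInstanceAs (Field (LaurentSeries ℂ))

instance : Algebra ℂ LSC :=
  ((HahnSeries.C : ℂ →+* LaurentSeries ℂ) : ℂ →+* LSC).toAlgebra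

/-- The identity map to `LSC`. -/
def toLSC : LaurentSeries ℂ ≃+* LSC := RingEquiv.refl (LaurentSeries ℂ)

theorem toLSC_C (c : ℂ) : toLSC (HahnSeries.C c) = algebraMap ℂ LSC c := rfl

theorem toLSC_algebraMap (c : ℂ) :
    toLSC (algebraMap ℂ (LaurentSeries ℂ) c) = algebraMap ℂ LSC c := by
  rw [algebraMap_laurentSeries_eq_single, ← toLSC_C, HahnSeries.C_apply]

theorem toLSC_smul (c : ℂ) (x : LaurentSeries ℂ) : toLSC (c • x) = c • toLSC x := by
  rw [← HahnSeries.C_mul_eq_smul, map_mul, toLSC_C, ← Algebra.smul_def]

section Scalars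

variable (L : Type*) [Field L] [Algebra L ℂ]

/-- Scalars of a subfield of `ℂ`. -/
scoped instance (priority := 50) algebraLSC : Algebra L LSC :=
  ((algebraMap ℂ LSC).comp (algebraMap L ℂ)).toAlgebra

scoped instance (priority := 50) isScalarTower_LSC : IsScalarTower L ℂ LSC :=
  IsScalarTower.of_algebraMap_eq fun _ => rfl

/-- Coefficientwise extension of constants, into `LSC`. -/
def coeffLSC : LaurentSeries L →+* LSC :=
  (toLSC : LaurentSeries ℂ →+* LSC).comp (coeffMap (algebraMap L ℂ))

theorem coeffLSC_algebraMap (c : L) :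
    coeffLSC L (algebraMap L (LaurentSeries L) c) = algebraMap L LSC c := by
  rw [algebraMap_laurentSeries_eq_single]
  show toLSC (coeffMap (algebraMap L ℂ) (HahnSeries.single 0 c)) = _
  rw [coeffMap_single, ← HahnSeries.C_apply, toLSC_C]
  rfl

theorem linearIndependent_coeffLSC {n : ℕ} {f : Fin n → LaurentSeries L}
    (hf : LinearIndependent L f) : LinearIndependent ℂ (fun i => coeffLSC L (f i)) := by
  rw [Fintype.linearIndependent_iff]
  intro c hc
  refine Fintype.linearIndependent_iff.1 (linearIndependent_coeffMap (algebraMap L ℂ) hf) c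
    (toLSC.injective ?_)
  rw [map_zero, map_sum]
  simpa [toLSC_smul, coeffLSC] using hc

end Scalars

end FLTA.Curves
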