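import Fermat.Agent.Bridge.Places
import Fermat.Agent.Dim.Infinity

/-! # Modular forms of weight `12 m` and modular functions with poles bounded by `m·(j)_∞` -/

set_option autoImplicit false

noncomputable section

open UpperHalfPlane CongruenceSubgroup Polynomial AlgebraicCurve ModularCurve Filter Topology
open scoped MatrixGroups ModularForm Manifold

namespace FLTA.Curves

local notation "Δf" => ModularForm.discriminant
local notation "𝕢" => Function.Periodic.qParam

/-- `(Δ ^ m A) ∣ g = Δ ^ m (A ∘ g)` in weight `12 m`. -/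
theorem slash_discriminant_pow_mul (m : ℕ) (A : ℍ → ℂ) (g : SL(2, ℤ)) :
    (fun τ : ℍ => Δf τ ^ m * A τ) ∣[(12 * m : ℤ)] g = fun τ : ℍ => Δf τ ^ m * A (g • τ) := by
  have hD := (Dim.pow_mem_MF (Dim.SF_le_MF Dim.discriminant_mem) m).2.1 g (Subgroup.mem_top _)
  have h : (Δf ^ m * A) ∣[((m : ℤ) * 12 + 0)] g = Δf ^ m * (A ∣[(0 : ℤ)] g) := by
    rw [ModularForm.mul_slash_SL2, hD]
  rw [show (12 * m : ℤ) = (m : ℤ) * 12 + 0 by ring]
  refine h.trans (funext fun τ => ?_)
  rw [Pi.mul_apply, Pi.pow_apply, ModularForm.SL_slash_apply]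
  simp

theorem tendsto_discriminant_div_qParam :
    Tendsto (fun τ : ℍ => Δf τ / 𝕢 1 (τ : ℂ)) atImInfty (𝓝 1) := by
  have h := Dim.tendsto_eC_div_discriminant.inv₀ one_ne_zero
  rw [inv_one] at h
  refine h.congr fun τ => ?_
  rw [inv_div]
  congr 1
  simp [Function.Periodic.qParam, Dim.eC]

theorem tendsto_jInv_mul_discriminant :
    Tendsto (fun τ : ℍ => Bridge.jInv τ * Δf τ) atImInfty (𝓝 1) := by
  have h := Dim.tendsto_E4.pow 3
  rw [one_pow] at h
  refine h.congr fun τ => ?_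
  rw [Bridge.jInv, div_mul_cancel₀ _ (ModularForm.discriminant_ne_zero τ)]

/-- A polynomial in `j` with at most `e` poles at infinity has degree at most `e`. -/
theorem natDegree_le_of_isBounded {a : ℂ[X]} {e : ℕ}
    (hb : IsBoundedAtImInfty (fun τ : ℍ => Δf τ ^ e * a.eval (Bridge.jInv τ))) :
    a.natDegree ≤ e := by
  by_contra hlt
  rw [not_le] at hlt
  set d := a.natDegree with hd
  have h0 : Tendsto (fun τ : ℍ => Δf τ ^ d * a.eval (Bridge.jInv τ)) atImInfty (𝓝 0) := by
    have h1 : Tendsto (fun τ : ℍ => Δf τ ^ (d - e)) atImInfty (𝓝 0) := by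
      have h := Dim.tendsto_discriminant.pow (d - e)
      rwa [zero_pow (by omega)] at h
    have h2 := ((Asymptotics.isLittleO_one_iff ℝ).2 h1).mul_isBigO hb
    simp only [Pi.one_apply, mul_one] at h2
    refine ((Asymptotics.isLittleO_one_iff ℝ).1 h2).congr fun τ => ?_
    rw [← mul_assoc, ← pow_add, Nat.sub_add_cancel hlt.le]
  have h1 : Tendsto (fun τ : ℍ => Δf τ ^ d * a.eval (Bridge.jInv τ)) atImInfty
      (𝓝 (a.coeff d)) := by
    have hsum : ∀ τ : ℍ, Δf τ ^ d * a.eval (Bridge.jInv τ) =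
        ∑ i ∈ Finset.range (d + 1),
          a.coeff i * (Bridge.jInv τ * Δf τ) ^ i * Δf τ ^ (d - i) := fun τ => by
      rw [eval_eq_sum_range, Finset.mul_sum]
      refine Finset.sum_congr rfl fun i hi => ?_
      have hid : i + (d - i) = d := by
        have := Finset.mem_range.1 hi
        omega
      calc Δf τ ^ d * (a.coeff i * Bridge.jInv τ ^ i)
          = Δf τ ^ (i + (d - i)) * (a.coeff i * Bridge.jInv τ ^ i) := by rw [hid]
        _ = _ := by rw [pow_add, mul_pow]; ring
    have hlim : a.coeff d = ∑ i ∈ Finset.range (d + 1),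
        a.coeff i * (1 : ℂ) ^ i * (0 : ℂ) ^ (d - i) := by
      rw [Finset.sum_eq_single d (fun i hi hne => by
        rw [zero_pow (by have := Finset.mem_range.1 hi; omega), mul_zero]) (by simp)]
      simp
    rw [hlim]
    refine (tendsto_finsetSum _ fun i _ => ?_).congr fun τ => (hsum τ).symm
    exact (tendsto_const_nhds.mul (tendsto_jInv_mul_discriminant.pow i)).mul
      (Dim.tendsto_discriminant.pow _)
  have h3 := tendsto_nhds_unique h1 h0
  rw [hd, coeff_natDegree, leadingCoeff_eq_zero] at h3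
  simp [h3] at hd
  omega

/-- Coefficients of `∏ (X - y)` after clearing bounded denominators. -/
theorem isBounded_pow_mul_coeff_prod {ι : Type*} [DecidableEq ι] (s : Finset ι) (D : ℍ → ℂ)
    (y : ι → ℍ → ℂ) (hy : ∀ c ∈ s, IsBoundedAtImInfty (fun τ => D τ * y c τ)) (k : ℕ) :
    IsBoundedAtImInfty
      (fun τ : ℍ => D τ ^ (s.card - k) * (∏ c ∈ s, (X - Polynomial.C (y c τ))).coeff k) := by
  induction s using Finset.induction_on generalizing k with
  | empty =>
    simp only [Finset.card_empty, Nat.zero_sub, pow_zero, one_mul, Finset.prod_empty]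
    exact Filter.const_boundedAtFilter _ _
  | insert c s hc ih =>
    have ih' := ih fun d hd => hy d (Finset.mem_insert_of_mem hd)
    have hdeg : ∀ τ : ℍ, (∏ d ∈ s, (X - Polynomial.C (y d τ))).natDegree = s.card := fun τ =>
      by simp
    simp only [Finset.card_insert_of_notMem hc, Finset.prod_insert hc, sub_mul, coeff_sub,
      coeff_C_mul, mul_sub]
    refine Asymptotics.IsBigO.sub ?_ ?_
    · cases k with
      | zero =>
        simp only [coeff_X_mul_zero, mul_zero]
        exact Filter.const_boundedAtFilter _ _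
      | succ k => simpa [coeff_X_mul, Nat.add_sub_add_right] using! ih' k
    · by_cases hk : k ≤ s.card
      · have h := (hy c (Finset.mem_insert_self c s)).mul (ih' k)
        refine h.congr (fun τ => ?_) fun τ => by simp
        rw [Pi.mul_apply, show s.card + 1 - k = (s.card - k) + 1 by omega, pow_succ]
        ring
      · have h0 : ∀ τ : ℍ, (∏ d ∈ s, (X - Polynomial.C (y d τ))).coeff k = 0 := fun τ =>
          coeff_eq_zero_of_natDegree_lt (by rw [hdeg]; omega)
        simp only [h0, mul_zero]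
        exact Filter.const_boundedAtFilter _ _

variable (N : ℕ) [NeZero N]

/-- `f ↦ f / Δ ^ m`. -/
def mfQuot (m : ℕ) : Dim.MF (Gamma0 N) (12 * m : ℤ) →ₗ[ℂ] Bridge.ModHol N where
  toFun f := ⟨fun τ => (f : ℍ → ℂ) τ / Δf τ ^ m,
    Bridge.div_discriminant_mem_modHol N m (Dim.MF.toForm f.2)⟩
  map_add' f g := Subtype.ext (funext fun τ => by simp [add_div])
  map_smul' c f := Subtype.ext (funext fun τ => by simp [mul_div_assoc])

theorem mfQuot_apply (m : ℕ) (f : Dim.MF (Gamma0 N) (12 * m : ℤ)) (τ : ℍ) :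
    (mfQuot N m f : ℍ → ℂ) τ = (f : ℍ → ℂ) τ / Δf τ ^ m := rfl

theorem mfQuot_injective (m : ℕ) : Function.Injective (mfQuot N m) := fun f g h =>
  Subtype.ext (funext fun τ => by
    have h' := congrArg (fun A : Bridge.ModHol N => (A : ℍ → ℂ) τ) h
    simp only [mfQuot_apply] at h'
    exact (div_left_inj' (pow_ne_zero m (ModularForm.discriminant_ne_zero τ))).1 h')

/-- The equation of `f / Δ ^ m` over `ℂ[j]` has degree `≤ m k` in the `k`-th coefficient. -/
theorem exists_monic_bounded (m : ℕ) (f : Dim.MF (Gamma0 N) (12 * m : ℤ)) :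
    ∃ P : Polynomial ℂ[X], P.Monic ∧ (∀ k, (P.coeff k).natDegree ≤ m * (P.natDegree - k)) ∧
      Bridge.evalJ N (mfQuot N m f) P = 0 := by
  classical
  set A := mfQuot N m f
  obtain ⟨P, hP, hdeg, hPp⟩ := Bridge.exists_monic_eval_eq_prod N A.2
  let _ : Fintype (SL(2, ℤ) ⧸ Gamma0 N) := Subgroup.fintypeQuotientOfFiniteIndex
  have hf : (f : ℍ → ℂ) = fun τ => Δf τ ^ m * (A : ℍ → ℂ) τ := funext fun τ => by
    rw [mfQuot_apply, mul_div_cancel₀ _ (pow_ne_zero m (ModularForm.discriminant_ne_zero τ))]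
  have hb : ∀ c : SL(2, ℤ) ⧸ Gamma0 N,
      IsBoundedAtImInfty (fun τ : ℍ => Δf τ ^ m * (A : ℍ → ℂ) (c.out⁻¹ • τ)) := fun c => by
    have h := f.2.2.2 c.out⁻¹
    rwa [hf, slash_discriminant_pow_mul] at h
  have hcard : Fintype.card (SL(2, ℤ) ⧸ Gamma0 N) = dedekindPsi N := by
    rw [← Bridge.index_Gamma0_eq_dedekindPsi, Subgroup.index, Nat.card_eq_fintype_card]
  refine ⟨P, hP, fun k => natDegree_le_of_isBounded ?_, ?_⟩
  · have h := isBounded_pow_mul_coeff_prod (Finset.univ : Finset (SL(2, ℤ) ⧸ Gamma0 N))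
      (fun τ => Δf τ ^ m) (fun c τ => (A : ℍ → ℂ) (c.out⁻¹ • τ)) (fun c _ => hb c) k
    refine h.congr_left fun τ => ?_
    have hc := congrArg (fun q : ℂ[X] => q.coeff k) (hPp τ)
    simp only [Polynomial.coeff_map, coe_evalRingHom, finprod_eq_prod_of_fintype] at hc
    rw [hc, Finset.card_univ, hcard, hdeg, pow_mul]
  · refine Subtype.ext (funext fun τ => ?_)
    show ((Pi.evalAlgHom ℂ (fun _ : ℍ => ℂ) τ).comp (Bridge.ModHol N).val).toRingHom
      (Bridge.evalJ N A P) = 0
    rw [Bridge.evalJ, coe_eval₂RingHom, hom_eval₂]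
    have hcomp : ((Pi.evalAlgHom ℂ (fun _ : ℍ => ℂ) τ).comp (Bridge.ModHol N).val).toRingHom.comp
        (Polynomial.aeval (Bridge.jMod N) : ℂ[X] →ₐ[ℂ] Bridge.ModHol N).toRingHom =
        evalRingHom (Bridge.jInv τ) := by
      refine RingHom.ext fun p => ?_
      show ((Pi.evalAlgHom ℂ (fun _ : ℍ => ℂ) τ).comp (Bridge.ModHol N).val)
        (aeval (Bridge.jMod N) p) = p.eval (Bridge.jInv τ)
      rw [← aeval_algHom_apply, coe_aeval_eq_eval]
      rfl
    rw [hcomp, ← eval_map, hPp, finprod_eq_prod_of_fintype, eval_prod,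
      Finset.prod_eq_zero (Finset.mem_univ ((1 : SL(2, ℤ)) : SL(2, ℤ) ⧸ Gamma0 N))]
    obtain ⟨γ, hγ⟩ := QuotientGroup.mk_out_eq_mul (Gamma0 N) (1 : SL(2, ℤ))
    rw [eval_sub, eval_X, eval_C, hγ, one_mul, A.2.2.1 _ (inv_mem γ.2) τ]
    exact sub_self _

end FLTA.Curves
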