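import Fermat.Agent.Bridge.Degree
import Fermat.Agent.Curves.RRLaurentField
import Mathlib.RingTheory.PowerBasis
import Mathlib.FieldTheory.IntermediateField.Adjoin.Basic
import Mathlib.Algebra.Polynomial.Derivative

/-! # The equation of `j(Nτ)` over `ℂ[j]` has coefficients in the small constant field -/

set_option autoImplicit false

noncomputable section

set_option synthInstance.maxHeartbeats 200000
set_option maxHeartbeats 1000000

open Polynomial ModularCurve AlgebraicCurve
open scoped IntermediateField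

namespace FLTA.Curves

variable (N : ℕ) [NeZero N] (L : Type*) [Field L] [Algebra ℚ L] [Algebra L ℂ]

local notation "FN" => laurentBaseChange L (modularFunctionFieldFull N)
local notation "ψ" => dedekindPsi N

/-- Expansions with coefficients in `ℂ`. -/
def rrEvC : laurentBaseChange L (modularFunctionFieldFull N) →ₐ[L] LSC where
  toRingHom := (coeffLSC L).comp (FN).toSubalgebra.val.toRingHom
  commutes' c := coeffLSC_algebraMap L c

omit [NeZero N] in
theorem rrEvC_apply (x : laurentBaseChange L (modularFunctionFieldFull N)) :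
    rrEvC N L x = toLSC (coeffMap (algebraMap L ℂ) (x : LaurentSeries L)) := rfl

omit [NeZero N] in
theorem linearIndependent_rrEvC (n : ℕ)
    (f : Fin n → laurentBaseChange L (modularFunctionFieldFull N))
    (hf : LinearIndependent L f) : LinearIndependent ℂ (fun i => rrEvC N L (f i)) := by
  refine linearIndependent_coeffLSC L (f := fun i => (f i : LaurentSeries L)) ?_
  rw [Fintype.linearIndependent_iff] at hf ⊢
  refine fun c hc => hf c (Subtype.ext ?_)
  simp only [IntermediateField.coe_sum, ZeroMemClass.coe_zero]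
  rw [← hc]
  refine Finset.sum_congr rfl fun i _ => ?_
  rw [Algebra.smul_def, MulMemClass.coe_mul, IntermediateField.coe_algebraMap_apply,
    algebraMap_laurentSeries_eq_single, HahnSeries.single_zero_mul_eq_smul]

theorem rrEvC_jElt {d : ℕ} [NeZero d] (hd : d ∣ N) :
    rrEvC N L (Bridge.jElt N L hd) = toLSC (Bridge.qexp N (Bridge.jAt N d hd)) := by
  rw [Bridge.qexp_jAt, rrEvC_apply]
  refine congrArg toLSC (HahnSeries.ext (funext fun k => ?_))
  simp only [Bridge.jElt, coeffMap_coeff, coeffEmb_coeff]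
  exact DFunLike.congr_fun
    (Subsingleton.elim ((algebraMap L ℂ).comp (algebraMap ℚ L)) (algebraMap ℚ ℂ)) _

theorem natDegree_minpoly_jNF :
    (minpoly L⟮Bridge.jF N L⟯ (Bridge.jNF N L)).natDegree = ψ := by
  have := Bridge.finite_adjoin_jF N L (algebraMap L ℂ)
  have hint : IsIntegral L⟮Bridge.jF N L⟯ (Bridge.jNF N L) := IsIntegral.of_finite _ _
  have htop : L⟮Bridge.jF N L⟯⟮Bridge.jNF N L⟯ = ⊤ := by
    apply IntermediateField.restrictScalars_injective (K := L)
    rw [IntermediateField.adjoin_adjoin_left, IntermediateField.restrictScalars_top]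
    rw [Set.singleton_union]
    exact Bridge.adjoin_jF_jNF_eq_top N L (algebraMap L ℂ)
  rw [← IntermediateField.adjoin.finrank hint, htop, IntermediateField.finrank_top',
    Bridge.finrank_adjoin_jF N L (algebraMap L ℂ)]

/-- Independence of the monomials `j ^ a * j_N ^ i`, `i < ψ`. -/
theorem rr_indep (p : Fin ψ → L[X])
    (h : ∑ i : Fin ψ, aeval (Bridge.jF N L) (p i) * Bridge.jNF N L ^ (i : ℕ) = 0) : p = 0 := by
  have hli := linearIndependent_pow (K := L⟮Bridge.jF N L⟯) (Bridge.jNF N L)
  rw [natDegree_minpoly_jNF] at hli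
  have h2 := Fintype.linearIndependent_iff.1 hli
    (fun i => ⟨aeval (Bridge.jF N L) (p i),
      (IntermediateField.mem_adjoin_simple_iff L _).2 ⟨p i, 1, by simp⟩⟩) (by
      rw [← h]
      exact Finset.sum_congr rfl fun i _ => rfl)
  funext i
  have h3 : aeval (Bridge.jF N L) (p i) = 0 := congrArg Subtype.val (h2 i)
  exact transcendental_iff_injective.1 (Bridge.transcendental_jF N L) (by simpa using h3)

/-- The same over `ℂ`, in Laurent series. -/
theorem rr_indep_complex (p : Fin ψ → ℂ[X])
    (h : ∑ i : Fin ψ, aeval (rrEvC N L (Bridge.jF N L)) (p i) *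
      rrEvC N L (Bridge.jNF N L) ^ (i : ℕ) = 0) : p = 0 := by
  classical
  let D := (Finset.univ.sup fun i => (p i).natDegree) + 1
  have hD : ∀ i, (p i).natDegree < D := fun i =>
    Nat.lt_succ_of_le (Finset.le_sup (f := fun i => (p i).natDegree) (Finset.mem_univ i))
  let e := (finProdFinEquiv : Fin ψ × Fin D ≃ Fin (ψ * D)).symm
  let f : Fin (ψ * D) → FN := fun k =>
    Bridge.jF N L ^ ((e k).2 : ℕ) * Bridge.jNF N L ^ ((e k).1 : ℕ)
  have hf : LinearIndependent L f := by
    rw [Fintype.linearIndependent_iff]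
    intro c hc k
    let q : Fin ψ → L[X] := fun i => ∑ a : Fin D, Polynomial.C (c (e.symm (i, a))) * X ^ (a : ℕ)
    have hq := rr_indep N L q (by
      rw [← hc, ← e.symm.sum_comp, Fintype.sum_prod_type]
      refine Finset.sum_congr rfl fun i _ => ?_
      simp only [q, map_sum, map_mul, aeval_C, map_pow, aeval_X, Finset.sum_mul, f,
        Equiv.apply_symm_apply, Algebra.smul_def, mul_assoc])
    have h2 := congrArg (fun r : L[X] => r.coeff (e k).2) (congrFun hq (e k).1)
    simpa [q, Polynomial.finsetSum_coeff, Polynomial.coeff_X_pow, Fin.val_inj] using h2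
  have hC := Fintype.linearIndependent_iff.1 (linearIndependent_rrEvC N L _ f hf)
    (fun k => (p (e k).1).coeff (e k).2) (by
      rw [← h, ← e.symm.sum_comp, Fintype.sum_prod_type]
      refine Finset.sum_congr rfl fun i _ => ?_
      rw [aeval_eq_sum_range' (hD i), Finset.sum_mul, ← Fin.sum_univ_eq_sum_range
        (fun a => ((p i).coeff a • rrEvC N L (Bridge.jF N L) ^ a) *
          rrEvC N L (Bridge.jNF N L) ^ (i : ℕ))]
      simp [f, map_mul, map_pow, Equiv.apply_symm_apply])
  funext i
  refine Polynomial.ext fun a => ?_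
  by_cases ha : a < D
  · simpa using hC (e.symm (i, ⟨a, ha⟩))
  · simpa using Polynomial.coeff_eq_zero_of_natDegree_lt (lt_of_lt_of_le (hD i) (not_lt.1 ha))

/-- A common denominator for the equation of `j_N`. -/
theorem exists_denominator_relation :
    ∃ (b : L[X]) (u : Fin ψ → L[X]), b ≠ 0 ∧
      aeval (Bridge.jF N L) b * Bridge.jNF N L ^ ψ =
        ∑ i : Fin ψ, aeval (Bridge.jF N L) (u i) * Bridge.jNF N L ^ (i : ℕ) := by
  classical
  have := Bridge.finite_adjoin_jF N L (algebraMap L ℂ)
  have hint : IsIntegral L⟮Bridge.jF N L⟯ (Bridge.jNF N L) := IsIntegral.of_finite _ _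
  set μ := minpoly L⟮Bridge.jF N L⟯ (Bridge.jNF N L) with hμ
  have hd : μ.natDegree = ψ := natDegree_minpoly_jNF N L
  choose r s hrs using fun i => (IntermediateField.mem_adjoin_simple_iff L
    (μ.coeff i : FN)).1 (μ.coeff i).2
  have hs : ∀ i, (μ.coeff i : FN) ≠ 0 → aeval (Bridge.jF N L) (s i) ≠ 0 := fun i hi h0 => by
    rw [hrs i, h0, div_zero] at hi
    exact hi rfl
  let s' : ℕ → L[X] := fun i => if (μ.coeff i : FN) = 0 then 1 else s i
  let r' : ℕ → L[X] := fun i => if (μ.coeff i : FN) = 0 then 0 else r i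
  have hs' : ∀ i, aeval (Bridge.jF N L) (s' i) ≠ 0 := fun i => by
    simp only [s']
    split_ifs with h
    · simp
    · exact hs i h
  have hrs' : ∀ i, (μ.coeff i : FN) =
      aeval (Bridge.jF N L) (r' i) / aeval (Bridge.jF N L) (s' i) := fun i => by
    simp only [s', r']
    split_ifs with h
    · simp [h]
    · exact hrs i
  refine ⟨∏ i : Fin ψ, s' i, fun i => -(r' i * ∏ k ∈ Finset.univ.erase i, s' k),
    Finset.prod_ne_zero_iff.2 fun i _ h0 => hs' i (by rw [h0, map_zero]), ?_⟩
  have h0 := minpoly.aeval L⟮Bridge.jF N L⟯ (Bridge.jNF N L)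
  rw [← hμ, aeval_eq_sum_range, hd, Finset.sum_range_succ] at h0
  have hlead : μ.coeff ψ = 1 := by rw [← hd]; exact minpoly.monic hint
  rw [hlead, one_smul, add_eq_zero_iff_eq_neg', ← Fin.sum_univ_eq_sum_range
    (fun i => μ.coeff i • Bridge.jNF N L ^ i)] at h0
  rw [h0, mul_neg, Finset.mul_sum, ← Finset.sum_neg_distrib]
  refine Finset.sum_congr rfl fun i _ => ?_
  show -(_ * ((μ.coeff i : FN) * Bridge.jNF N L ^ (i : ℕ))) = _
  rw [hrs', map_neg, map_mul, map_prod, map_prod, ← Finset.mul_prod_erase _ _ (Finset.mem_univ i)]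
  field_simp [hs']

variable {L}

/-- The derivative of the equation of `j_N` comes from a nonzero element of the small field. -/
theorem exists_derivative_eq {P : Polynomial ℂ[X]} (hm : P.Monic) (hdeg : P.natDegree = ψ)
    (h0 : P.eval₂ (aeval (rrEvC N L (Bridge.jF N L)) : ℂ[X] →ₐ[ℂ] LSC).toRingHom
      (rrEvC N L (Bridge.jNF N L)) = 0) :
    ∃ d : laurentBaseChange L (modularFunctionFieldFull N), d ≠ 0 ∧
      P.derivative.eval₂ (aeval (rrEvC N L (Bridge.jF N L)) : ℂ[X] →ₐ[ℂ] LSC).toRingHom
        (rrEvC N L (Bridge.jNF N L)) = rrEvC N L d := by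
  classical
  obtain ⟨b, u, hb, hrel⟩ := exists_denominator_relation N L
  set J := rrEvC N L (Bridge.jF N L) with hJ
  set θ := rrEvC N L (Bridge.jNF N L) with hθ
  have hmap : ∀ q : L[X], rrEvC N L (aeval (Bridge.jF N L) q) =
      aeval J (q.map (algebraMap L ℂ)) := fun q => by
    rw [aeval_map_algebraMap, hJ, ← aeval_algHom_apply]
  have hrel' := congrArg (rrEvC N L) hrel
  simp only [map_mul, map_pow, map_sum, hmap, ← hθ] at hrel'
  rw [eval₂_eq_sum_range, hdeg, Finset.sum_range_succ] at h0
  have hlead : P.coeff ψ = 1 := by rw [← hdeg]; exact hm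
  rw [hlead, map_one, one_mul, add_eq_zero_iff_eq_neg', ← Fin.sum_univ_eq_sum_range
    (fun i => (aeval J).toRingHom (P.coeff i) * θ ^ i)] at h0
  have hp := rr_indep_complex N L
    (fun i => b.map (algebraMap L ℂ) * P.coeff i + (u i).map (algebraMap L ℂ)) (by
      simp only [map_add, map_mul, ← hJ, ← hθ, add_mul, Finset.sum_add_distrib, mul_assoc,
        ← Finset.mul_sum]
      rw [← hrel', h0, AlgHom.toRingHom_eq_coe]
      simp)
  have hq : ∀ i : Fin ψ, ∃ q : L[X], P.coeff i = q.map (algebraMap L ℂ) := fun i => by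
    have h1 : b.map (algebraMap L ℂ) * P.coeff i + (u i).map (algebraMap L ℂ) = 0 := congrFun hp i
    have h2 : b.map (algebraMap L ℂ) ∣ (u i).map (algebraMap L ℂ) :=
      ⟨-P.coeff i, by linear_combination h1⟩
    rw [Polynomial.map_dvd_map' (algebraMap L ℂ)] at h2
    obtain ⟨q, hq⟩ := h2
    refine ⟨-q, mul_left_cancel₀ (a := b.map (algebraMap L ℂ))
      ((Polynomial.map_ne_zero_iff (algebraMap L ℂ).injective).2 hb) ?_⟩
    rw [hq, Polynomial.map_mul] at h1
    rw [Polynomial.map_neg]
    linear_combination h1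
  choose q hq using hq
  let μ : Polynomial L[X] := X ^ ψ + ∑ i : Fin ψ, Polynomial.C (q i) * X ^ (i : ℕ)
  have hμ : μ.map (mapRingHom (algebraMap L ℂ)) = P := by
    refine Polynomial.ext fun k => ?_
    simp only [μ, Polynomial.coeff_map, coeff_add, coeff_X_pow, Polynomial.finsetSum_coeff,
      coeff_C_mul_X_pow, coe_mapRingHom, Polynomial.map_add, Polynomial.map_sum]
    rcases lt_trichotomy k ψ with hk | hk | hk
    · rw [if_neg hk.ne, Polynomial.map_zero, zero_add,
        Finset.sum_eq_single (⟨k, hk⟩ : Fin ψ) (fun i _ hi => by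
          rw [if_neg (fun h => hi (Fin.ext h.symm)), Polynomial.map_zero]) (by simp),
        if_pos rfl]
      exact (hq ⟨k, hk⟩).symm
    · subst hk
      rw [if_pos rfl, Polynomial.map_one, Finset.sum_eq_zero (fun i _ => by
        rw [if_neg (by omega), Polynomial.map_zero]), add_zero, hlead]
    · rw [if_neg hk.ne', Polynomial.map_zero, zero_add, Finset.sum_eq_zero (fun i _ => by
        rw [if_neg (by omega), Polynomial.map_zero]),
        coeff_eq_zero_of_natDegree_lt (hdeg ▸ hk)]
  refine ⟨μ.derivative.eval₂ (aeval (Bridge.jF N L)).toRingHom (Bridge.jNF N L), fun hd => ?_, ?_⟩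
  · have hψ : 0 < ψ := by
      rw [← natDegree_minpoly_jNF N L]
      have := Bridge.finite_adjoin_jF N L (algebraMap L ℂ)
      exact minpoly.natDegree_pos (IsIntegral.of_finite _ _)
    have hμd : μ.natDegree = ψ := by
      rw [← hdeg, ← hμ, natDegree_map_eq_of_injective
        (Polynomial.map_injective _ (algebraMap L ℂ).injective)]
    have hlt : μ.derivative.natDegree < ψ := by
      have := natDegree_derivative_lt (p := μ) (by omega)
      omega
    rw [eval₂_eq_sum_range' _ hlt, ← Fin.sum_univ_eq_sum_range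
      (fun i => (aeval (Bridge.jF N L)).toRingHom (μ.derivative.coeff i) *
        Bridge.jNF N L ^ i)] at hd
    have h1 := congrFun (rr_indep N L (fun i => μ.derivative.coeff i) hd) ⟨ψ - 1, by omega⟩
    have h2 : μ.coeff ψ = 1 :=
      Polynomial.map_injective _ (algebraMap L ℂ).injective (by
        have := congrArg (fun r : Polynomial ℂ[X] => r.coeff ψ) hμ
        simpa [hlead] using this)
    simp only [Pi.zero_apply, coeff_derivative, Nat.sub_add_cancel hψ] at h1
    rw [h2, one_mul, ← Nat.cast_add_one, Nat.sub_add_cancel hψ] at h1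
    have : CharZero L := charZero_of_injective_algebraMap (algebraMap ℚ L).injective
    exact Nat.cast_ne_zero.2 hψ.ne' h1
  · rw [← hμ, derivative_map, eval₂_map, hθ]
    show _ = (rrEvC N L).toRingHom _
    rw [hom_eval₂]
    congr 1
    refine RingHom.ext fun x => ?_
    exact (hmap x).symm

end FLTA.Curves
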